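import Fermat.Agent.ZAL.Wd
import Fermat.Agent.GalJ.Equiv

/-!
# Atkin-Lehner involutions commute with Hecke operators
-/

set_option autoImplicit false
set_option linter.unusedSectionVars false
set_option linter.style.haveILetI false

noncomputable section

open UpperHalfPlane Function ModularCurve Filter ModularForm AlgebraicCurve WithZero
  CongruenceSubgroup
open scoped Manifold MatrixGroups Topology ModularForm

namespace Fermat.Agent.ZAL

open Fermat.Agent.X0Places Fermat.Agent.FunField Fermat.Agent.FunField.PlaceLemmas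
open Fermat.Agent.TorsCmp Fermat.Agent.HeckeRed Fermat.Agent.GalJ
open AlgebraicCurve.SemilinearAut
open Matrix.SpecialLinearGroup (mapGL)

section Norm

variable {K F F' : Type*} [Field K] [Field F] [Field F'] [Algebra K F] [Algebra K F']

/-- norms are equivariant -/
theorem normAlong_equiv (ψ : F →ₐ[K] F') (e : F ≃ₐ[K] F) (e' : F' ≃ₐ[K] F')
    (h : ∀ x, e' (ψ x) = ψ (e x)) (y : F') : normAlong ψ (e' y) = e (normAlong ψ y) := by
  letI := algebraAlong ψ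
  have h1 := Algebra.norm_eq_of_equiv_equiv (e.toRingEquiv : F ≃+* F) (e'.toRingEquiv : F' ≃+* F')
    (by ext x; exact (h x).symm) y
  have h2 : e (Algebra.norm F y) = Algebra.norm F (e' y) := by
    rw [h1]
    exact e.apply_symm_apply _
  exact h2.symm

end Norm

variable {d M : ℕ} [NeZero M]

theorem ExDiv.mul (h : ExDiv d M) {ℓ : ℕ} (hℓ : Nat.Coprime d ℓ) : ExDiv d (M * ℓ) where
  dvd := h.dvd.mul_right ℓ
  cop := by
    have h1 : M * ℓ / d = (M / d) * ℓ := by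
      rw [mul_comm, Nat.mul_div_assoc _ h.dvd, mul_comm]
    rw [h1]
    exact h.cop.mul_right hℓ

theorem star_mul {k ℓ : ℕ} (hℓ : Nat.Coprime d ℓ) : star (ℓ * k) d = ℓ * star k d := by
  have h1 : Nat.gcd (ℓ * k) d = Nat.gcd k d := Nat.Coprime.gcd_mul_left_cancel k hℓ.symm
  rw [star, star, h1, Nat.mul_div_assoc _ (Nat.gcd_dvd_left k d), mul_assoc]

variable {L : Type*} [Field L] [Algebra ℚ L] (ι : L →+* ℂ)

section Compat

variable {ℓ : ℕ} [NeZero ℓ]

theorem alpha_jdF (k : ℕ) [NeZero k] (hk : k ∣ M) :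
    heckeAlphaBar L M ℓ (jdF L M k hk) = jdF L (M * ℓ) k (hk.mul_right ℓ) := by
  apply Subtype.ext
  rw [coe_heckeAlphaBar]
  rfl

theorem wF_alpha (h : ExDiv d M) (hℓ : Nat.Coprime d ℓ) (x : FF L M) :
    wF ι (h.mul hℓ) (heckeAlphaBar L M ℓ x) = heckeAlphaBar L M ℓ (wF ι h x) := by
  have h1 : (wF ι (h.mul hℓ) : FF L (M * ℓ) →+* FF L (M * ℓ)).comp
      (heckeAlphaBar L M ℓ : FF L M →+* FF L (M * ℓ)) =
      (heckeAlphaBar L M ℓ : FF L M →+* FF L (M * ℓ)).comp (wF ι h : FF L M →+* FF L M) := by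
    apply ff_ringHom_ext_gen
    · intro c
      show wF ι (h.mul hℓ) (heckeAlphaBar L M ℓ (algebraMap L (FF L M) c)) =
        heckeAlphaBar L M ℓ (wF ι h (algebraMap L (FF L M) c))
      rw [AlgHom.commutes, AlgEquiv.commutes, AlgEquiv.commutes, AlgHom.commutes]
    · intro k _ hk
      have h2 : NeZero (star k d) := ⟨(star_pos (Nat.pos_of_ne_zero (NeZero.ne k))
        (Nat.pos_of_ne_zero h.ne_zero)).ne'⟩
      show wF ι (h.mul hℓ) (heckeAlphaBar L M ℓ (jdF L M k hk)) =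
        heckeAlphaBar L M ℓ (wF ι h (jdF L M k hk))
      rw [alpha_jdF, wF_jdF, wF_jdF, alpha_jdF]
  exact RingHom.congr_fun h1 x

theorem wF_beta (h : ExDiv d M) (hℓ : Nat.Coprime d ℓ) (x : FF L M) :
    wF ι (h.mul hℓ) (heckeBetaBar L M ℓ x) = heckeBetaBar L M ℓ (wF ι h x) := by
  have hℓ0 : 0 < ℓ := Nat.pos_of_ne_zero (NeZero.ne ℓ)
  have h1 : (wF ι (h.mul hℓ) : FF L (M * ℓ) →+* FF L (M * ℓ)).comp
      (heckeBetaBar L M ℓ : FF L M →+* FF L (M * ℓ)) =
      (heckeBetaBar L M ℓ : FF L M →+* FF L (M * ℓ)).comp (wF ι h : FF L M →+* FF L M) := by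
    apply ff_ringHom_ext_gen
    · intro c
      show wF ι (h.mul hℓ) (heckeBetaBar L M ℓ (algebraMap L (FF L M) c)) =
        heckeBetaBar L M ℓ (wF ι h (algebraMap L (FF L M) c))
      rw [AlgHom.commutes, AlgEquiv.commutes, AlgEquiv.commutes, AlgHom.commutes]
    · intro k _ hk
      have hk0 : 0 < k := Nat.pos_of_ne_zero (NeZero.ne k)
      have h2 : NeZero (star k d) := ⟨(star_pos hk0 (Nat.pos_of_ne_zero h.ne_zero)).ne'⟩
      have h3 : NeZero (ℓ * k) := ⟨(Nat.mul_pos hℓ0 hk0).ne'⟩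
      have h4 : NeZero (star (ℓ * k) d) :=
        ⟨(star_pos (Nat.mul_pos hℓ0 hk0) (Nat.pos_of_ne_zero h.ne_zero)).ne'⟩
      have h5 : NeZero (ℓ * star k d) := ⟨(Nat.mul_pos hℓ0 (Nat.pos_of_ne_zero h2.out)).ne'⟩
      have d1 : ℓ * k ∣ M * ℓ := by rw [mul_comm]; exact Nat.mul_dvd_mul_right hk ℓ
      have d2 : ℓ * star k d ∣ M * ℓ := by
        rw [mul_comm]; exact Nat.mul_dvd_mul_right (h.star_dvd hk) ℓ
      show wF ι (h.mul hℓ) (heckeBetaBar L M ℓ (jdF L M k hk)) =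
        heckeBetaBar L M ℓ (wF ι h (jdF L M k hk))
      rw [beta_jdF M ℓ k hk d1, wF_jdF, wF_jdF, beta_jdF M ℓ _ _ d2]
      exact jdF_congr (star_mul hℓ) _ _
  exact RingHom.congr_fun h1 x

/-- `w_d` as a semilinear automorphism -/
def wS (h : ExDiv d M) : SemilinearAut L (FF L M) := SemilinearAut.ofAlgAut (wF ι h)

theorem wS_smul (h : ExDiv d M) (x : FF L M) : wS ι h • x = wF ι h x := rfl

theorem wS_mul_self (h : ExDiv d M) : wS ι h * wS ι h = 1 := by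
  rw [wS, ← map_mul]
  have : wF ι h * wF ι h = 1 := AlgEquiv.ext fun x => wF_wF ι h x
  rw [this, map_one]

theorem wS_inv (h : ExDiv d M) : (wS ι h)⁻¹ = wS ι h := inv_eq_of_mul_eq_one_left (wS_mul_self ι h)

theorem intertwines_alpha_w (h : ExDiv d M) (hℓ : Nat.Coprime d ℓ) :
    IntertwinesAlong (heckeAlphaBar L M ℓ : FF L M →+* FF L (M * ℓ)) (wS ι h)
      (wS ι (h.mul hℓ)) := fun x => wF_alpha ι h hℓ x

theorem intertwines_beta_w (h : ExDiv d M) (hℓ : Nat.Coprime d ℓ) :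
    IntertwinesAlong (heckeBetaBar L M ℓ : FF L M →+* FF L (M * ℓ)) (wS ι h)
      (wS ι (h.mul hℓ)) := fun x => wF_beta ι h hℓ x

end Compat

variable [IsAlgClosed L]

variable (L) in
/-- The Hecke operator on divisors. -/
def TD (M ℓ : ℕ) [NeZero M] [NeZero ℓ] : Divisor L (FF L M) →+ Divisor L (FF L M) :=
  Divisor.correspondence (heckeBetaBar L M ℓ) (heckeAlphaBar L M ℓ) (betaInt L M ℓ) (alphaInt L M ℓ)

variable (L) in
/-- The Hecke operator on functions. -/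
def TF (M ℓ : ℕ) [NeZero M] [NeZero ℓ] (x : FF L M) : FF L M :=
  normAlong (heckeAlphaBar L M ℓ) (heckeBetaBar L M ℓ x)

variable {ℓ : ℕ} [NeZero ℓ]

theorem TF_ne_zero {x : FF L M} (hx : x ≠ 0) : TF L M ℓ x ≠ 0 :=
  normAlong_ne_zero _ (finiteAlong_of_isFF _) (by rwa [map_ne_zero])

theorem TD_divOf {x : FF L M} (hx : x ≠ 0) :
    TD L M ℓ (divOf x) = divOf (TF L M ℓ x) :=
  correspondence_divOf _ _ _ _ (finiteAlong_of_isFF _) hx

theorem TD_smul (h : ExDiv d M) (hℓ : Nat.Coprime d ℓ) (D : Divisor L (FF L M)) :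
    TD L M ℓ (wS ι h • D) = wS ι h • TD L M ℓ D :=
  correspondence_smul _ _ (intertwines_beta_w ι h hℓ) (intertwines_alpha_w ι h hℓ) D

theorem TF_wF (h : ExDiv d M) (hℓ : Nat.Coprime d ℓ) (x : FF L M) :
    TF L M ℓ (wF ι h x) = wF ι h (TF L M ℓ x) := by
  rw [TF, TF, ← wF_beta ι h hℓ]
  exact normAlong_equiv _ (wF ι h) (wF ι (h.mul hℓ)) (wF_alpha ι h hℓ) _

theorem TF_mul (x y : FF L M) : TF L M ℓ (x * y) = TF L M ℓ x * TF L M ℓ y := by
  rw [TF, map_mul, normAlong_mul]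
  rfl

theorem toMer_TF (x : FF L M) : toMer ι M (TF L M ℓ x) =
    ∏ c : Cos M ℓ, compG (heckeDiagMatrix ℓ * mapGL ℝ
      ((rep (Gamma0 (M * ℓ)) c : Gamma0 M) : SL(2, ℤ))) (toMer ι M x) := by
  rw [TF, toMer_norm]
  refine Finset.prod_congr rfl fun c _ => ?_
  rw [compG_mul _ _ (det_heckeDiagMatrix_pos ℓ) (det_mapGL_pos _), compG_mapGL, toMer_beta]

theorem TF_algebraMap (ι : L →+* ℂ) (c : L) : TF L M ℓ (algebraMap L (FF L M) c) =
    algebraMap L (FF L M) c ^ Fintype.card (Cos M ℓ) := by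
  apply (toMer ι M).injective
  rw [toMer_TF, map_pow, toMer_algebraMap]
  rw [← Finset.card_univ, ← Finset.prod_const]
  exact Finset.prod_congr rfl fun c' _ => compG_cM _ _

theorem card_cos (hl : ℓ.Prime) (hlM : ¬ ℓ ∣ M) : Fintype.card (Cos M ℓ) = ℓ + 1 := by
  have h1 := card_cos_mul M ℓ
  have h2 : Nat.card (XN (M * ℓ)) = dedekindPsi (M * ℓ) := Gamma0Comb.card_X (M * ℓ)
  have h3 : Nat.card (XN M) = dedekindPsi M := Gamma0Comb.card_X M
  rw [h2, h3, ModDeg.psi_mul_prime_of_not_dvd hl hlM] at h1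
  have h4 := Nat.eq_of_mul_eq_mul_right (ModDeg.psi_pos (NeZero.ne M)) h1
  rw [← Nat.card_eq_fintype_card]
  exact h4

theorem TF_neg (ι : L →+* ℂ) (hl : ℓ.Prime) (hl2 : ℓ ≠ 2) (hlM : ¬ ℓ ∣ M) (x : FF L M) :
    TF L M ℓ (-x) = TF L M ℓ x := by
  have h1 : -x = algebraMap L (FF L M) (-1) * x := by
    rw [map_neg, map_one, neg_one_mul]
  have h2 : Even (ℓ + 1) := (hl.odd_of_ne_two hl2).add_one
  rw [h1, TF_mul, TF_algebraMap ι, card_cos hl hlM, map_neg, map_one, h2.neg_one_pow, one_mul]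

theorem finrank_beta (hl : ℓ.Prime) (hlM : ¬ ℓ ∣ M) :
    finrankAlong L (heckeBetaBar L M ℓ) = ℓ + 1 := by
  have : Fact ℓ.Prime := ⟨hl⟩
  have hchar : CharZero L := algebraRat.charZero L
  have h1 := finrankAlong_beta (K := L) (N := M) (p := ℓ) (laurentBaseChange_full L M)
    (laurentBaseChange_full L (M * ℓ)) (heckeBetaBar L M ℓ)
    (fun x => coe_heckeBetaBar M ℓ x)
    (by exact_mod_cast Nat.mul_ne_zero (NeZero.ne M) (NeZero.ne ℓ))
  rw [ModDeg.psi_mul_prime_of_not_dvd hl hlM] at h1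
  exact Nat.eq_of_mul_eq_mul_right (ModDeg.psi_pos (NeZero.ne M)) h1

theorem degree_TD (hl : ℓ.Prime) (hlM : ¬ ℓ ∣ M) (D : Divisor L (FF L M)) :
    Divisor.degree (TD L M ℓ D) = ((ℓ + 1 : ℕ) : ℤ) * Divisor.degree D := by
  rw [TD, Divisor.degree_correspondence (heckeBetaBar L M ℓ) (heckeAlphaBar L M ℓ)
    (betaInt L M ℓ) (alphaInt L M ℓ) (fundamentalIdentityAlong _ _ (finiteAlong_of_isFF _)),
    finrank_beta hl hlM]

end Fermat.Agent.ZAL
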