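import Fermat.Agent.ZAL.Rk

/-!
# Compatibilities of Atkin-Lehner involutions
-/

set_option autoImplicit false
set_option linter.unusedSectionVars false
set_option linter.style.haveILetI false

noncomputable section

open ModularCurve AlgebraicCurve CongruenceSubgroup ModularCurve.Period
open scoped MatrixGroups

namespace Fermat.Agent.ZAL

open Fermat.Agent.X0Places Fermat.Agent.FunField Fermat.Agent.FunField.PlaceLemmas
open Fermat.Agent.TorsCmp Fermat.Agent.HeckeRed Fermat.Agent.GalJ Fermat.Agent.Degen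
open AlgebraicCurve.SemilinearAut
open Fermat.Agent.HeckeHom Fermat.Agent.Tate

theorem star_star_eq {k d d' : ℕ} (hk : 0 < k) (hd : 0 < d) (hd' : 0 < d')
    (hc : Nat.Coprime d d') : star (star k d) d' =
      (k / (Nat.gcd k d * Nat.gcd k d')) * ((d / Nat.gcd k d) * (d' / Nat.gcd k d')) := by
  obtain ⟨g, hg⟩ : ∃ g, Nat.gcd k d = g := ⟨_, rfl⟩
  obtain ⟨g', hg'⟩ : ∃ g', Nat.gcd k d' = g' := ⟨_, rfl⟩
  have hg0 : 0 < g := hg ▸ Nat.gcd_pos_of_pos_left _ hk
  have hg0' : 0 < g' := hg' ▸ Nat.gcd_pos_of_pos_left _ hk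
  obtain ⟨e, he⟩ : g ∣ d := hg ▸ Nat.gcd_dvd_right k d
  obtain ⟨e', he'⟩ : g' ∣ d' := hg' ▸ Nat.gcd_dvd_right k d'
  have hgk : g ∣ k := hg ▸ Nat.gcd_dvd_left k d
  have hgk' : g' ∣ k := hg' ▸ Nat.gcd_dvd_left k d'
  have hcg : Nat.Coprime g g' :=
    Nat.Coprime.coprime_dvd_left ⟨e, he⟩ (Nat.Coprime.coprime_dvd_right ⟨e', he'⟩ hc)
  have hce : Nat.Coprime e e' := Nat.Coprime.coprime_dvd_left ⟨g, by rw [he, mul_comm]⟩
    (Nat.Coprime.coprime_dvd_right ⟨g', by rw [he', mul_comm]⟩ hc)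
  obtain ⟨k2, hk2⟩ := hcg.mul_dvd_of_dvd_of_dvd hgk hgk'
  have h1 : Nat.Coprime (g * k2) e' := by
    have h2 : Nat.gcd (g' * (g * k2)) (g' * e') = g' := by
      rw [← he', show g' * (g * k2) = k by rw [hk2]; ring]
      exact hg'
    rw [Nat.gcd_mul_left] at h2
    exact Nat.eq_of_mul_eq_mul_left hg0' (by rw [h2, mul_one])
  have h3 : Nat.Coprime k2 e' := Nat.Coprime.coprime_dvd_left (dvd_mul_left _ _) h1
  have e1 : star k d = g' * (k2 * e) := by
    rw [star, hg]
    have a1 : k / g = g' * k2 := by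
      rw [hk2, mul_assoc]
      exact Nat.mul_div_cancel_left _ hg0
    have a2 : d / g = e := by
      rw [he]
      exact Nat.mul_div_cancel_left _ hg0
    rw [a1, a2]
    ring
  have e2 : Nat.gcd (g' * (k2 * e)) d' = g' := by
    rw [he', Nat.gcd_mul_left]
    have : Nat.Coprime (k2 * e) e' := Nat.Coprime.mul_left h3 hce
    rw [this, mul_one]
  rw [star, e1, e2, hg, hg']
  have a1 : g' * (k2 * e) / g' = k2 * e := Nat.mul_div_cancel_left _ hg0'
  have a2 : k / (g * g') = k2 := by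
    rw [hk2]
    exact Nat.mul_div_cancel_left _ (Nat.mul_pos hg0 hg0')
  have a3 : d / g = e := by
    rw [he]
    exact Nat.mul_div_cancel_left _ hg0
  rw [a1, a2, a3]
  ring

theorem star_star_comm {k d d' : ℕ} (hk : 0 < k) (hd : 0 < d) (hd' : 0 < d')
    (hc : Nat.Coprime d d') : star (star k d) d' = star (star k d') d := by
  rw [star_star_eq hk hd hd' hc, star_star_eq hk hd' hd hc.symm,
    mul_comm (Nat.gcd k d), mul_comm (d / Nat.gcd k d)]

section

variable {L : Type*} [Field L] [Algebra ℚ L] (ι : L →+* ℂ)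
variable {M : ℕ} [NeZero M] {d d' : ℕ}

theorem wF_comm (h : ExDiv d M) (h' : ExDiv d' M) (hc : Nat.Coprime d d') (x : FF L M) :
    wF ι h' (wF ι h x) = wF ι h (wF ι h' x) := by
  have hd0 : 0 < d := Nat.pos_of_ne_zero h.ne_zero
  have hd0' : 0 < d' := Nat.pos_of_ne_zero h'.ne_zero
  apply algEquiv_ext (φ := ((wF ι h' : FF L M →ₐ[L] FF L M).comp (wF ι h : FF L M →ₐ[L] FF L M)))
    (ψ := ((wF ι h : FF L M →ₐ[L] FF L M).comp (wF ι h' : FF L M →ₐ[L] FF L M)))
  intro k _ hk
  have hk0 : 0 < k := Nat.pos_of_ne_zero (NeZero.ne k)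
  have i1 : NeZero (star k d) := ⟨(star_pos hk0 hd0).ne'⟩
  have i2 : NeZero (star k d') := ⟨(star_pos hk0 hd0').ne'⟩
  have i3 : NeZero (star (star k d) d') := ⟨(star_pos (star_pos hk0 hd0) hd0').ne'⟩
  have i4 : NeZero (star (star k d') d) := ⟨(star_pos (star_pos hk0 hd0') hd0).ne'⟩
  show wF ι h' (wF ι h (jdF L M k hk)) = wF ι h (wF ι h' (jdF L M k hk))
  rw [wF_jdF, wF_jdF, wF_jdF, wF_jdF]
  exact jdF_congr (star_star_comm hk0 hd0 hd0' hc) _ _

theorem wS_comm (h : ExDiv d M) (h' : ExDiv d' M) (hc : Nat.Coprime d d') :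
    wS ι h' * wS ι h = wS ι h * wS ι h' := by
  rw [wS, wS, ← map_mul, ← map_mul]
  congr 1
  exact AlgEquiv.ext fun x => wF_comm ι h h' hc x

theorem gal_jdF (σ : L ≃ₐ[ℚ] L) (k : ℕ) [NeZero k] (hk : k ∣ M) :
    arithmeticGalois (modularFunctionFieldFull M) σ • jdF L M k hk = jdF L M k hk := by
  apply Subtype.ext
  rw [coe_arithmeticGalois_smul]
  exact coeffMap_coeffEmb σ _

theorem gal_algebraMap (σ : L ≃ₐ[ℚ] L) (c : L) :
    arithmeticGalois (modularFunctionFieldFull M) σ • algebraMap L (FF L M) c =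
      algebraMap L (FF L M) (σ c) := SemilinearAut.smul_algebraMap _ c

theorem gal_wF (h : ExDiv d M) (σ : L ≃ₐ[ℚ] L) (x : FF L M) :
    wF ι h (arithmeticGalois (modularFunctionFieldFull M) σ • x) =
      (arithmeticGalois (modularFunctionFieldFull M) σ • (wF ι h x) : FF L M) := by
  have h1 : (wF ι h : FF L M →+* FF L M).comp
      ((SemilinearAut.toRingAut (arithmeticGalois (modularFunctionFieldFull M) σ) :
        FF L M ≃+* FF L M) : FF L M →+* FF L M) =
      ((SemilinearAut.toRingAut (arithmeticGalois (modularFunctionFieldFull M) σ) :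
        FF L M ≃+* FF L M) : FF L M →+* FF L M).comp (wF ι h : FF L M →+* FF L M) := by
    apply ff_ringHom_ext_gen
    · intro c
      show wF ι h (arithmeticGalois (modularFunctionFieldFull M) σ • algebraMap L (FF L M) c) =
        (arithmeticGalois (modularFunctionFieldFull M) σ • (wF ι h (algebraMap L (FF L M) c)) :
          FF L M)
      rw [gal_algebraMap, AlgEquiv.commutes, AlgEquiv.commutes, gal_algebraMap]
    · intro k _ hk
      have h2 : NeZero (star k d) := ⟨(star_pos (Nat.pos_of_ne_zero (NeZero.ne k))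
        (Nat.pos_of_ne_zero h.ne_zero)).ne'⟩
      show wF ι h (arithmeticGalois (modularFunctionFieldFull M) σ • jdF L M k hk) =
        (arithmeticGalois (modularFunctionFieldFull M) σ • (wF ι h (jdF L M k hk)) : FF L M)
      rw [gal_jdF, wF_jdF, gal_jdF]
  exact RingHom.congr_fun h1 x

theorem gal_wS (h : ExDiv d M) (σ : L ≃ₐ[ℚ] L) :
    wS ι h * arithmeticGalois (modularFunctionFieldFull M) σ =
      arithmeticGalois (modularFunctionFieldFull M) σ * wS ι h := by
  refine Subtype.ext (Prod.ext (RingEquiv.ext fun x => ?_) (RingEquiv.ext fun x => rfl))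
  exact gal_wF ι h σ x

/-- compatibility with the inclusion of function fields -/
theorem wF_incl {m : ℕ} [NeZero m] (h : ExDiv d M) (h' : ExDiv d m) (hm : m ∣ M)
    (α : FF L m →ₐ[L] FF L M) (hα : ∀ y, ((α y : FF L M) : LaurentSeries L) = y) (x : FF L m) :
    wF ι h (α x) = α (wF ι h' x) := by
  have hj : ∀ (k : ℕ) [NeZero k] (hk : k ∣ m), α (jdF L m k hk) = jdF L M k (hk.trans hm) := by
    intro k _ hk
    apply Subtype.ext
    rw [hα]
    rfl
  have h1 : (wF ι h : FF L M →+* FF L M).comp (α : FF L m →+* FF L M) =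
      (α : FF L m →+* FF L M).comp (wF ι h' : FF L m →+* FF L m) := by
    apply ff_ringHom_ext_gen
    · intro c
      show wF ι h (α (algebraMap L (FF L m) c)) = α (wF ι h' (algebraMap L (FF L m) c))
      rw [AlgHom.commutes, AlgEquiv.commutes, AlgEquiv.commutes, AlgHom.commutes]
    · intro k _ hk
      have h2 : NeZero (star k d) := ⟨(star_pos (Nat.pos_of_ne_zero (NeZero.ne k))
        (Nat.pos_of_ne_zero h.ne_zero)).ne'⟩
      show wF ι h (α (jdF L m k hk)) = α (wF ι h' (jdF L m k hk))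
      rw [hj, wF_jdF, wF_jdF, hj]
  exact RingHom.congr_fun h1 x

end

local notation "Qb" => AlgebraicClosure ℚ
local notation "GQ" => AlgebraicClosure ℚ ≃ₐ[ℚ] AlgebraicClosure ℚ

variable {M : ℕ} [NeZero M] {d d' : ℕ}

theorem gal_wS_pic (h : ExDiv d M) (σ : GQ) (x : JZero M) :
    wS iotaQbar h • (σ • x) = σ • (wS iotaQbar h • x : JZero M) := by
  show wS iotaQbar h • (arithmeticGalois (modularFunctionFieldFull M) σ • x) =
    arithmeticGalois (modularFunctionFieldFull M) σ • (wS iotaQbar h • x : JZero M)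
  rw [← mul_smul, ← mul_smul, gal_wS]

theorem push_wS {m : ℕ} [NeZero m] (h : ExDiv d M) (h' : ExDiv d m) (hm : m ∣ M)
    (α : FF Qb m →ₐ[Qb] FF Qb M) (hα : ∀ y, ((α y : FF Qb M) : LaurentSeries Qb) = y)
    (x : JZero M) : pushPic α (wS iotaQbar h • x) = wS iotaQbar h' • pushPic α x := by
  have h1 : IntertwinesAlong (α : FF Qb m →+* FF Qb M) (wS iotaQbar h') (wS iotaQbar h) :=
    fun y => wF_incl iotaQbar h h' hm α hα y
  exact pushPic_smul α h1 x

theorem push_hecke {m : ℕ} [NeZero m] {l : ℕ} [NeZero l] (hl : l.Prime) (hlM : ¬ l ∣ M)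
    (hm : m ∣ M) (α : FF Qb m →ₐ[Qb] FF Qb M)
    (hα : ∀ y, ((α y : FF Qb M) : LaurentSeries Qb) = y)
    (x : JZero M) : pushPic α (heckeOperatorAlong Qb M l x) =
      heckeOperatorAlong Qb m l (pushPic α x) :=
  pushPic_heckeOperatorAlong (d := 1) hl hlM (by rwa [mul_one]) α
    (fun y => (hα y).trans (qExpand_one_apply _).symm) x

theorem push_gal {m : ℕ} [NeZero m] (α : FF Qb m →ₐ[Qb] FF Qb M)
    (hα : ∀ y, ((α y : FF Qb M) : LaurentSeries Qb) = y)
    (σ : GQ) (x : JZero M) : pushPic α (σ • x : JZero M) = (σ • pushPic α x : JZero m) :=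
  pushPic_galois (d := 1) α (fun y => (hα y).trans (qExpand_one_apply _).symm) σ x

end Fermat.Agent.ZAL
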