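import Fermat.Agent.ZAL.Pts

/-!
# Atkin-Lehner involutions fix no cusps
-/

set_option autoImplicit false
set_option linter.unusedSectionVars false
set_option linter.style.haveILetI false

noncomputable section

open UpperHalfPlane Function ModularCurve Filter ModularForm AlgebraicCurve WithZero
  CongruenceSubgroup
open scoped Manifold MatrixGroups Topology ModularForm

namespace Fermat.Agent.ZAL

open Fermat.Agent.X0Places Fermat.Agent.FunField Fermat.Agent.FunField.PlaceLemmas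
open Fermat.Agent.TorsCmp Fermat.Agent.GalJ
open AlgebraicCurve.SemilinearAut
open Matrix.SpecialLinearGroup (mapGL)

theorem jqModC_ne_zero : jqModC ℂ ≠ 0 := by
  intro h
  have := order_jq
  rw [h] at this
  simp at this

theorem valLaur_qExpand_jq (k : ℕ) [NeZero k] : valLaur (qExpand ℂ k (jqModC ℂ)) = exp (k : ℤ) := by
  have hne' : qExpand ℂ k (jqModC ℂ) ≠ 0 := by
    rw [map_ne_zero_iff _ (qExpand_injective k)]; exact jqModC_ne_zero
  rw [valLaur_apply hne', order_qExpand k _ jqModC_ne_zero, order_jq]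
  congr 1
  ring

/-- order of `j(dτ)` at a cusp -/
theorem exists_order_jd (d : ℕ) (hd : 0 < d) (N : ℕ) [NeZero N] (hdN : d ∣ N) (γ : SL(2, ℤ)) :
    ∃ (y : LaurentSeries ℂ) (A D M : ℕ), HasLaurent N (fun τ => jd d hd (γ • τ)) y ∧ A * D = d ∧
      0 < A ∧ 0 < M ∧ N = D * M ∧ valLaur y = exp ((A * M : ℕ) : ℤ) := by
  obtain ⟨γ', A, D, B, hA, hD, hAD, h⟩ := exists_decomp d hd γ
  obtain ⟨M', hM'⟩ := hdN
  have hN : 0 < N := Nat.pos_of_ne_zero (NeZero.ne N)
  set M := A * M' with hM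
  have hNM : N = D * M := by rw [hM', ← hAD, hM]; ring
  have hMpos : 0 < M := by
    rcases Nat.eq_zero_or_pos M with h0 | h0
    · rw [hNM, h0, mul_zero] at hN; exact absurd hN (lt_irrefl _)
    · exact h0
  have : NeZero (A * M) := ⟨(Nat.mul_pos hA hMpos).ne'⟩
  have h1 := hasLaurent_jInv.subst (h' := (N : ℝ)) (affH A D B hA hD)
    (Units.mk0 (Complex.exp (2 * Real.pi * Complex.I * B / D)) (Complex.exp_ne_zero _)) (A * M)
    (by
      intro τ
      rw [Units.val_mk0, hNM]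
      exact qParam_affH A D B hA hD M τ hMpos)
  have h2 : (fun τ => jd d hd (γ • τ)) = Fermat.Agent.JInv.jInv ∘ affH A D B hA hD := by
    funext τ
    simp only [comp_apply, jd]
    rw [h, Fermat.Agent.JInv.jInv_smul]
  refine ⟨_, A, D, M, h2 ▸ h1, hAD, hA, hMpos, hNM, ?_⟩
  have hne : Fermat.Agent.ModPoly.twist (Units.mk0 (Complex.exp (2 * Real.pi * Complex.I * B / D))
      (Complex.exp_ne_zero _)) (jqModC ℂ) ≠ 0 := by
    rw [map_ne_zero_iff _ (Fermat.Agent.ModPoly.twist_injective _)]; exact jqModC_ne_zero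
  have hne' : qExpand ℂ (A * M) (Fermat.Agent.ModPoly.twist
      (Units.mk0 (Complex.exp (2 * Real.pi * Complex.I * B / D))
      (Complex.exp_ne_zero _)) (jqModC ℂ)) ≠ 0 := by
    rw [map_ne_zero_iff _ (qExpand_injective _)]; exact hne
  have h3 := valLaur_twist (Units.mk0 (Complex.exp (2 * Real.pi * Complex.I * B / D))
      (Complex.exp_ne_zero _)) (jqModC ℂ)
  rw [valLaur_apply hne, valLaur_apply jqModC_ne_zero, order_jq, exp_inj] at h3
  rw [valLaur_apply hne', order_qExpand _ _ hne]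
  congr 1
  rw [neg_inj] at h3
  rw [h3]
  ring

variable {L : Type*} [Field L] [Algebra ℚ L] [IsAlgClosed L] (ι : L →+* ℂ)
variable {M : ℕ} [NeZero M]

theorem jdF_one : jdF L M 1 (one_dvd M) = jF L M := by
  apply Subtype.ext
  show coeffEmb L (qExpand ℚ 1 jq) = coeffEmb L jq
  rw [qExpand_one_apply]

theorem jdF_ne_zero (k : ℕ) [NeZero k] (hk : k ∣ M) (ι : L →+* ℂ) : jdF L M k hk ≠ 0 := by
  intro h
  have h1 := toMer_jdF (ι := ι) M k hk
  rw [h, map_zero] at h1
  have h2 : (⟨jd k (Nat.pos_of_ne_zero (NeZero.ne k)), mdiff_jd k _⟩ : Holo) = 0 := by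
    apply IsFractionRing.injective Holo Mer
    rw [← h1, map_zero]
  have h3 := hasLaurent_jd_one k (Nat.pos_of_ne_zero (NeZero.ne k))
  have h4 : jd k (Nat.pos_of_ne_zero (NeZero.ne k)) = fun _ => 0 := congrArg Subtype.val h2
  rw [h4] at h3
  have h5 := (HasLaurent.zero 1).unique one_pos h3
  have h6 : qExpand ℂ k (jqModC ℂ) ≠ 0 := by
    rw [map_ne_zero_iff _ (qExpand_injective _)]; exact jqModC_ne_zero
  exact h6 h5.symm

/-- no cusp is fixed by `w_d` if `d` is not a square -/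
theorem smul_ne_of_cusp {d : ℕ} (h : ExDiv d M) (hd : ¬ IsSquare d) (v : Place L (FF L M))
    (hv : v.ord (jF L M) < 0) : wS ι h • v ≠ v := by
  intro hfix
  have hd0 : 0 < d := Nat.pos_of_ne_zero h.ne_zero
  have : NeZero d := ⟨hd0.ne'⟩
  have : NeZero (star 1 d) := ⟨(star_pos one_pos hd0).ne'⟩
  have hstar : star 1 d = d := by simp [star]
  have h1 : v.ord (jF L M) = v.ord (jdF L M d h.dvd) := by
    have h2 := SemilinearAut.ord_smul (wS ι h) v (jF L M)
    rw [hfix, wS_smul, ← jdF_one, wF_jdF] at h2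
    rw [← jdF_one, ← h2]
    congr 1
    exact jdF_congr hstar _ _
  obtain ⟨x, hx⟩ := (embCusp (L := L) ι M).exists_place_eq
    (by rw [embCusp_t, finrank_adjoin_inv, finrank_jF]) v (by
      rw [embCusp_t, Place.ord_inv]; omega)
  obtain ⟨g, rfl⟩ := QuotientGroup.mk_surjective x
  have hj0 : jF L M ≠ 0 := by rw [← jdF_one]; exact jdF_ne_zero 1 _ ι
  have hjd0 : jdF L M d h.dvd ≠ 0 := jdF_ne_zero d _ ι
  have e1 := (embCusp (L := L) ι M).w_eq (g : XN M) hj0
  have e2 := (embCusp (L := L) ι M).w_eq (g : XN M) hjd0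
  rw [hx] at e1 e2
  have e3 : valLaur (cuspSigma ι M (g : XN M) (jF L M)) =
    exp (-(((embCusp (L := L) ι M).idx (g : XN M) : ℤ) * v.ord (jF L M))) := e1
  have e4 : valLaur (cuspSigma ι M (g : XN M) (jdF L M d h.dvd)) =
    exp (-(((embCusp (L := L) ι M).idx (g : XN M) : ℤ) * v.ord (jdF L M d h.dvd))) := e2
  rw [← h1, ← e3, valLaur_cuspSigma_jF] at e4
  obtain ⟨y, A, D, M', hy, hAD, hA, hM', hN, hval⟩ := exists_order_jd d hd0 M h.dvd g⁻¹
  have e5 : cuspSigma ι M (g : XN M) (jdF L M d h.dvd) = y := by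
    rw [cuspSigma_mk]
    refine cuspEmb_of_mem _ (isAn_jd d _ h.dvd) ?_ hy
    show HasLaurent 1 _ (coeffMap ι (coeffEmb L (qExpand ℚ d jq)))
    rw [coeffMap_coeffEmb_jd]
    exact hasLaurent_jd_one d _
  rw [e5, hval, exp_inj] at e4
  have e6 : A * M' = D * M' := by rw [← hN]; exact_mod_cast e4
  have e7 : A = D := Nat.eq_of_mul_eq_mul_right hM' e6
  exact hd ⟨A, by rw [← hAD, ← e7]⟩

end Fermat.Agent.ZAL
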