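import Fermat.Agent.ZAL.Invol
import Fermat.Agent.ZAL.CuspFix
import Fermat.Agent.Degen.HeckeEq

/-!
# Hecke operators on invariant and anti-invariant classes
-/

set_option autoImplicit false
set_option linter.unusedSectionVars false
set_option linter.style.haveILetI false

noncomputable section

open UpperHalfPlane Function ModularCurve Filter ModularForm AlgebraicCurve WithZero
  CongruenceSubgroup
open scoped Manifold MatrixGroups Topology ModularForm

namespace Fermat.Agent.ZAL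

open Fermat.Agent.X0Places Fermat.Agent.FunField Fermat.Agent.FunField.PlaceLemmas
open Fermat.Agent.TorsCmp Fermat.Agent.HeckeRed Fermat.Agent.GalJ Fermat.Agent.Degen
open AlgebraicCurve.SemilinearAut
open Matrix.SpecialLinearGroup (mapGL)

variable {L : Type*} [Field L] [Algebra ℚ L] [IsAlgClosed L] (ι : L →+* ℂ)
variable {M : ℕ} [NeZero M] {d : ℕ}

theorem wF_ne (h : ExDiv d M) (hd : d ≠ 1) : ∃ x, wF ι h x ≠ x := by
  have hd0 : 0 < d := Nat.pos_of_ne_zero h.ne_zero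
  have : NeZero d := ⟨hd0.ne'⟩
  have : NeZero (star 1 d) := ⟨(star_pos one_pos hd0).ne'⟩
  have hstar : star 1 d = d := by simp [star]
  refine ⟨jdF L M 1 (one_dvd M), fun hfix => hd ?_⟩
  rw [wF_jdF] at hfix
  have h1 : toMer ι M (jdF L M d h.dvd) = toMer ι M (jdF L M 1 (one_dvd M)) := by
    rw [← hfix]
    congr 1
    exact jdF_congr hstar.symm _ _
  rw [toMer_jdF, toMer_jdF] at h1
  have h2 := IsFractionRing.injective Holo Mer h1
  have h3 : jd d (Nat.pos_of_ne_zero (NeZero.ne d)) = jd 1 (Nat.pos_of_ne_zero (NeZero.ne 1)) :=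
    congrArg Subtype.val h2
  have h4 := hasLaurent_jd_one d (Nat.pos_of_ne_zero (NeZero.ne d))
  have h5 := hasLaurent_jd_one 1 (Nat.pos_of_ne_zero (NeZero.ne 1))
  rw [h3] at h4
  have h6 := congrArg valLaur (h4.unique one_pos h5)
  rw [valLaur_qExpand_jq, valLaur_qExpand_jq, exp_inj] at h6
  exact_mod_cast h6

theorem sl_wF (h : ExDiv d M) : sl (wF ι h) = wS ι h := rfl

variable {ℓ : ℕ} [NeZero ℓ]

theorem coe_TD (D : Divisor.degZero (K := L) (F := FF L M)) :
    ∃ D' : Divisor.degZero (K := L) (F := FF L M), (D' : Divisor L (FF L M)) =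
      TD L M ℓ (D : Divisor L (FF L M)) ∧ heckeOperatorAlong L M ℓ (Pic0.mk D) = Pic0.mk D' := by
  exact ⟨_, rfl, heckeOperatorAlong_mk L M ℓ D⟩

theorem hecke_wS (h : ExDiv d M) (hℓ : Nat.Coprime d ℓ) (x : Pic0 L (FF L M)) :
    heckeOperatorAlong L M ℓ (wS ι h • x) = wS ι h • heckeOperatorAlong L M ℓ x := by
  obtain ⟨D, rfl⟩ := Pic0.mk_surjective x
  obtain ⟨D', hD', e'⟩ := coe_TD (ℓ := ℓ) D
  obtain ⟨E', hE', f'⟩ := coe_TD (ℓ := ℓ) (degZeroSMulHom (wS ι h) D)
  rw [pic0_smul_mk, f', e', pic0_smul_mk]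
  apply congrArg Pic0.mk
  apply Subtype.ext
  rw [hE', coe_degZeroSMulHom, coe_degZeroSMulHom, hD', TD_smul ι h hℓ]

/-- (A3) two Hecke operators map the kernel of `1 + w` to the image of `1 - w` -/
theorem exists_sub_of_add_eq_zero (h : ExDiv d M) (hd : d ≠ 1) {ℓ' : ℕ} [NeZero ℓ']
    (hl : ℓ.Prime) (hl2 : ℓ ≠ 2) (hlM : ¬ ℓ ∣ M) (hl' : ℓ'.Prime) (hl2' : ℓ' ≠ 2)
    (hlM' : ¬ ℓ' ∣ M) {x : Pic0 L (FF L M)} (hx : x + wS ι h • x = 0) :
    ∃ y, heckeOperatorAlong L M ℓ' (heckeOperatorAlong L M ℓ x) = y - wS ι h • y := by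
  have hchar : CharZero L := algebraRat.charZero L
  have hw := wF_wF ι h
  have hcop : Nat.Coprime d ℓ := ((Nat.Prime.coprime_iff_not_dvd hl).2
    fun hdl => hlM (hdl.trans h.dvd)).symm
  have hcop' : Nat.Coprime d ℓ' := ((Nat.Prime.coprime_iff_not_dvd hl').2
    fun hdl => hlM' (hdl.trans h.dvd)).symm
  obtain ⟨D, rfl⟩ := Pic0.mk_surjective x
  have h1 : Pic0.mk (D + degZeroSMulHom (wS ι h) D) = 0 := hx
  rw [Fermat.Agent.TorsInj.pic0_mk_eq_zero_iff] at h1
  obtain ⟨f, hf0, hf⟩ := h1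
  have hwf0 : wF ι h f ≠ 0 := by rwa [Ne, EmbeddingLike.map_eq_zero_iff]
  have hfd : (divOf f : Divisor L (FF L M)) = (D : Divisor L (FF L M)) + wS ι h • (D : Divisor L (FF L M)) := by
    ext v
    rw [divOf_apply, ← hf v]
    rfl
  have h2 : (divOf (wF ι h f) : Divisor L (FF L M)) = divOf f := by
    have h3 : wS ι h • wS ι h • (D : Divisor L (FF L M)) = D := sl_sl_div _ hw _
    rw [divOf_w _ hw, hfd, sl_wF, smul_add, h3, add_comm]
  obtain ⟨c, hc0, hc⟩ := exists_const_of_divOf_eq hwf0 hf0 h2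
  have hcc : c * c = 1 := by
    have h3 : f = algebraMap L (FF L M) (c * c) * f := by
      conv_lhs => rw [← hw f, hc, map_mul, AlgEquiv.commutes, hc]
      rw [map_mul]; ring
    have h4 : algebraMap L (FF L M) (c * c) = 1 := by
      have : (algebraMap L (FF L M) (c * c) - 1) * f = 0 := by linear_combination -h3
      rcases mul_eq_zero.1 this with h5 | h5
      · linear_combination h5
      · exact absurd h5 hf0
    exact (algebraMap L (FF L M)).injective (by rw [h4, map_one])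
  have hTf : wF ι h (TF L M ℓ f) = TF L M ℓ f := by
    rw [← TF_wF ι h hcop]
    rcases mul_self_eq_one_iff.1 hcc with hc1 | hc1
    · rw [hc, hc1, map_one, one_mul]
    · rw [hc, hc1, map_neg, map_one, neg_one_mul, TF_neg ι hl hl2 hlM]
  obtain ⟨g, hg⟩ := Fermat.Agent.Tsen.exists_norm (wF ι h) hw (wF_ne ι h hd) _ hTf
  have hTf0 : TF L M ℓ f ≠ 0 := TF_ne_zero hf0
  have hg0 : g ≠ 0 := by
    intro h0
    rw [h0, zero_mul] at hg
    exact hTf0 hg
  have hwg0 : wF ι h g ≠ 0 := by rwa [Ne, EmbeddingLike.map_eq_zero_iff]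
  obtain ⟨D', hD', e'⟩ := coe_TD (ℓ := ℓ) D
  set D1 : Divisor L (FF L M) := TD L M ℓ (D : Divisor L (FF L M)) - divOf g with hD1
  have h5 : D1 + sl (wF ι h) • D1 = 0 := by
    rw [hD1, smul_sub, sl_wF, ← TD_smul ι h hcop]
    have h6 : TD L M ℓ (D : Divisor L (FF L M)) + TD L M ℓ (wS ι h • (D : Divisor L (FF L M))) =
        divOf g + wS ι h • (divOf g : Divisor L (FF L M)) := by
      rw [← map_add, ← hfd, TD_divOf hf0, ← sl_wF, ← divOf_w _ hw, ← divOf_mul' hg0 hwg0, ← hg]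
    rw [sub_add_sub_comm, h6, sub_self]
  obtain ⟨E, hE⟩ := exists_sub_smul _ hw h5
  have hdeg1 : D1 ∈ Divisor.degZero (K := L) (F := FF L M) := by
    rw [Divisor.mem_degZero, hD1, map_sub, degree_divOf, degree_TD hl hlM,
      Divisor.mem_degZero.1 D.2]
    ring
  have h7 : heckeOperatorAlong L M ℓ (Pic0.mk D) = Pic0.mk ⟨D1, hdeg1⟩ := by
    rw [e']
    rw [← sub_eq_zero]
    have h8 : Pic0.mk (D' - ⟨D1, hdeg1⟩) = Pic0.mk D' - Pic0.mk ⟨D1, hdeg1⟩ := rfl
    rw [← h8, Fermat.Agent.TorsInj.pic0_mk_eq_zero_iff]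
    refine ⟨g, hg0, fun v => ?_⟩
    rw [← divOf_apply]
    have h9 : ((D' - ⟨D1, hdeg1⟩ : Divisor.degZero (K := L) (F := FF L M)) :
        Divisor L (FF L M)) = divOf g := by
      show (D' : Divisor L (FF L M)) - D1 = _
      rw [hD', hD1, sub_sub_cancel]
    rw [h9]
  rw [h7]
  obtain ⟨D2, hD2, e2⟩ := coe_TD (ℓ := ℓ') (⟨D1, hdeg1⟩ : Divisor.degZero (K := L) (F := FF L M))
  -- correct the degree
  obtain ⟨m, hm⟩ : ∃ m : ℤ, Divisor.degree (TD L M ℓ' E) = 2 * m := by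
    rw [degree_TD hl' hlM']
    obtain ⟨k, hk⟩ := (hl'.odd_of_ne_two hl2').add_one
    exact ⟨k * Divisor.degree E, by rw [hk]; push_cast; ring⟩
  obtain ⟨P⟩ : Nonempty (Place L (FF L M)) := exists_place
  have hPdeg : Divisor.degree (Finsupp.single P m : Divisor L (FF L M)) = m := by
    have hfin : Module.Finite L P.ResidueField := inferInstance
    rw [Divisor.degree_single, Place.deg_eq_one_of_isAlgClosed_of_finite]
    simp
  set E0 : Divisor L (FF L M) := TD L M ℓ' E - (Finsupp.single P m + wS ι h • Finsupp.single P m)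
    with hE0
  have hdegE0 : E0 ∈ Divisor.degZero (K := L) (F := FF L M) := by
    rw [Divisor.mem_degZero, hE0, map_sub, map_add, SemilinearAut.degree_smul, hPdeg, hm]
    ring
  refine ⟨Pic0.mk ⟨E0, hdegE0⟩, ?_⟩
  rw [e2, pic0_smul_mk]
  have h10 : Pic0.mk (⟨E0, hdegE0⟩ - degZeroSMulHom (wS ι h) ⟨E0, hdegE0⟩) =
    Pic0.mk ⟨E0, hdegE0⟩ - Pic0.mk (degZeroSMulHom (wS ι h) ⟨E0, hdegE0⟩) := rfl
  rw [← h10]
  apply congrArg Pic0.mk
  apply Subtype.ext
  rw [hD2]
  show TD L M ℓ' D1 = E0 - wS ι h • E0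
  rw [← hE, map_sub, sl_wF, TD_smul ι h hcop', hE0, smul_sub, smul_add]
  have h11 : wS ι h • wS ι h • (Finsupp.single P m : Divisor L (FF L M)) = Finsupp.single P m :=
    sl_sl_div _ hw _
  rw [h11]
  abel

/-! ### coefficients of Hecke correspondences at fixed places -/

theorem push_apply {K F F' : Type*} [Field K] [Field F] [Field F'] [Algebra K F] [Algebra K F']
    [IsAlgClosed K] [IsFF K F] [IsFF K F'] [DecidableEq (Place K F)] (φ : F →ₐ[K] F')
    (D : Divisor K F') (v : Place K F) :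
    push φ D v = ∑ R ∈ D.support with res φ R = v, D R := by
  rw [push_eq_mapDomain, Finsupp.mapDomain, Finsupp.sum_apply, Finsupp.sum, Finset.sum_filter]
  refine Finset.sum_congr rfl fun R _ => ?_
  rw [Finsupp.single_apply]

theorem TD_eq (D : Divisor L (FF L M)) :
    TD L M ℓ D = push (heckeAlphaBar L M ℓ) (pull (heckeBetaBar L M ℓ) D) := rfl

theorem res_alpha_smul (h : ExDiv d M) (hℓ : Nat.Coprime d ℓ) (R : Place L (FF L (M * ℓ))) :
    res (heckeAlphaBar L M ℓ) (wS ι (h.mul hℓ) • R) =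
      wS ι h • res (heckeAlphaBar L M ℓ) R :=
  restrictAlong_smul _ (intertwines_alpha_w ι h hℓ) R

theorem res_beta_smul (h : ExDiv d M) (hℓ : Nat.Coprime d ℓ) (R : Place L (FF L (M * ℓ))) :
    res (heckeBetaBar L M ℓ) (wS ι (h.mul hℓ) • R) =
      wS ι h • res (heckeBetaBar L M ℓ) R :=
  restrictAlong_smul _ (intertwines_beta_w ι h hℓ) R

theorem pull_beta_smul (h : ExDiv d M) (hℓ : Nat.Coprime d ℓ) {D : Divisor L (FF L M)}
    (hD : wS ι h • D = D) (R : Place L (FF L (M * ℓ))) :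
    pull (heckeBetaBar L M ℓ) D (wS ι (h.mul hℓ) • R) = pull (heckeBetaBar L M ℓ) D R := by
  have h1 : pull (heckeBetaBar L M ℓ) (wS ι h • D) =
      wS ι (h.mul hℓ) • pull (heckeBetaBar L M ℓ) D :=
    pullbackAlong_smul _ (intertwines_beta_w ι h hℓ) D
  rw [hD] at h1
  have hchar : CharZero L := algebraRat.charZero L
  have h2 := sl_div_apply _ (wF_wF ι (h.mul hℓ)) (pull (heckeBetaBar L M ℓ) D) R
  rw [sl_wF, ← h1] at h2
  exact h2.symm

theorem sum_involution_two {α : Type*} [DecidableEq α] (S : Finset α) (f : α → ZMod 2)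
    (g : α → α) (hg : ∀ a ∈ S, g a ∈ S) (hgg : ∀ a ∈ S, g (g a) = a)
    (hf : ∀ a ∈ S, f (g a) = f a) : ∑ a ∈ S, f a = ∑ a ∈ S with g a = a, f a := by
  rw [← Finset.sum_filter_add_sum_filter_not S (fun a => g a = a)]
  rw [add_eq_left]
  refine Finset.sum_involution (fun a _ => g a) ?_ ?_ ?_ ?_
  · intro a ha
    rw [hf a (Finset.mem_filter.1 ha).1]
    exact CharTwo.add_self_eq_zero _
  · intro a ha _
    exact (Finset.mem_filter.1 ha).2
  · intro a ha
    obtain ⟨h1, h2⟩ := Finset.mem_filter.1 ha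
    exact Finset.mem_filter.2 ⟨hg a h1, fun h3 => h2 (by
      have := hgg a h1
      rw [h3] at this
      exact this)⟩
  · intro a ha
    exact hgg a (Finset.mem_filter.1 ha).1

open Classical in
/-- parity of the coefficient of a Hecke translate at a fixed place -/
theorem TD_apply_mod_two (h : ExDiv d M) (hℓ : Nat.Coprime d ℓ) {D : Divisor L (FF L M)}
    (hD : wS ι h • D = D) {v : Place L (FF L M)} (hv : wS ι h • v = v) :
    ((TD L M ℓ D v : ℤ) : ZMod 2) =
      ∑ R ∈ {R ∈ (pull (heckeBetaBar L M ℓ) D).support | res (heckeAlphaBar L M ℓ) R = v} with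
        wS ι (h.mul hℓ) • R = R, ((pull (heckeBetaBar L M ℓ) D R : ℤ) : ZMod 2) := by
  rw [TD_eq, push_apply, Int.cast_sum]
  refine sum_involution_two _ _ (fun R => wS ι (h.mul hℓ) • R) ?_ ?_ ?_
  · intro R hR
    rw [Finset.mem_filter, Finsupp.mem_support_iff] at hR ⊢
    rw [pull_beta_smul ι h hℓ hD, res_alpha_smul ι h hℓ, hR.2, hv]
    exact ⟨hR.1, rfl⟩
  · intro R _
    have hchar : CharZero L := algebraRat.charZero L
    exact sl_sl_place _ (wF_wF ι (h.mul hℓ)) R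
  · intro R _
    rw [pull_beta_smul ι h hℓ hD]

/-- if `w` has no fixed place at level `M ℓ` over `v`, the coefficient at `v` is even -/
theorem even_TD_apply (h : ExDiv d M) (hℓ : Nat.Coprime d ℓ) {D : Divisor L (FF L M)}
    (hD : wS ι h • D = D) {v : Place L (FF L M)} (hv : wS ι h • v = v)
    (hfix : ∀ R : Place L (FF L (M * ℓ)), wS ι (h.mul hℓ) • R ≠ R) : Even (TD L M ℓ D v) := by
  classical
  have h1 := TD_apply_mod_two ι h hℓ hD hv
  rw [Finset.filter_false_of_mem (fun R _ => hfix R), Finset.sum_empty,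
    ZMod.intCast_zmod_eq_zero_iff_dvd] at h1
  exact even_iff_two_dvd.2 h1

/-- (A4) if there are no fixed places at level `M ℓ`, `T_ℓ` maps invariant classes to norms -/
theorem exists_add_of_eq (h : ExDiv d M) (hd : d ≠ 1) (hℓ : Nat.Coprime d ℓ)
    (hfix : ∀ R : Place L (FF L (M * ℓ)), wS ι (h.mul hℓ) • R ≠ R) {x : Pic0 L (FF L M)}
    (hx : wS ι h • x = x) : ∃ y, heckeOperatorAlong L M ℓ x = y + wS ι h • y := by
  have hchar : CharZero L := algebraRat.charZero L
  obtain ⟨D, rfl, hD⟩ := exists_invariant_div _ (wF_wF ι h) (wF_ne ι h hd) hx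
  obtain ⟨D', hD', e'⟩ := coe_TD (ℓ := ℓ) D
  rw [e']
  refine exists_pic_add_smul _ (wF_wF ι h) ?_ ?_
  · rw [hD', sl_wF, ← TD_smul ι h hℓ]
    exact congrArg _ hD
  · intro v hv
    rw [hD']
    exact even_TD_apply ι h hℓ hD hv hfix

/-- the same without Hecke operators if there are no fixed places at all -/
theorem exists_add_of_eq' (h : ExDiv d M) (hd : d ≠ 1)
    (hfix : ∀ R : Place L (FF L M), wS ι h • R ≠ R) {x : Pic0 L (FF L M)}
    (hx : wS ι h • x = x) : ∃ y, x = y + wS ι h • y := by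
  have hchar : CharZero L := algebraRat.charZero L
  obtain ⟨D, rfl, hD⟩ := exists_invariant_div _ (wF_wF ι h) (wF_ne ι h hd) hx
  exact exists_pic_add_smul _ (wF_wF ι h) hD fun v hv => absurd hv (hfix v)

end Fermat.Agent.ZAL
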