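import Fermat.Agent.ZAL.CMHecke
import Fermat.Agent.ZCm.CMCL
import Fermat.Agent.ZCm.ClAlg

/-!
# Fixed places of the Fricke involution and ideal classes
-/

set_option autoImplicit false
set_option linter.unusedSectionVars false
set_option linter.style.haveILetI false

noncomputable section

open UpperHalfPlane Function ModularCurve Filter ModularForm AlgebraicCurve WithZero
  CongruenceSubgroup
open scoped Manifold MatrixGroups Topology ModularForm nonZeroDivisors NumberField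

namespace Fermat.Agent.ZAL

open Fermat.Agent.X0Places Fermat.Agent.FunField Fermat.Agent.FunField.PlaceLemmas
open Fermat.Agent.TorsCmp Fermat.Agent.HeckeRed Fermat.Agent.GalJ Fermat.Agent.Degen
open AlgebraicCurve.SemilinearAut
open Matrix.SpecialLinearGroup (mapGL)
open Fermat.Agent.ZCm (Fx Mx cj dl)

theorem not_isSquare_of_squarefree {N : ℕ} (hN : 1 < N) (hsq : Squarefree N) : ¬ IsSquare N := by
  rintro ⟨r, hr⟩
  have h1 := hsq r ⟨1, by rw [hr, mul_one]⟩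
  rw [Nat.isUnit_iff] at h1
  subst h1
  omega

theorem not_isSquare_three_mul {N : ℕ} (hN : 4 < N) (hsq : Squarefree N) :
    ¬ IsSquare (3 * N) := by
  rintro ⟨r, hr⟩
  have h3 : 3 ∣ r := by
    have : 3 ∣ r * r := ⟨N, hr.symm⟩
    exact (Nat.prime_three.dvd_mul.1 this).elim id id
  obtain ⟨m, rfl⟩ := h3
  have h4 : N = m * m * 3 := by nlinarith
  have h1 := hsq m ⟨3, h4⟩
  rw [Nat.isUnit_iff] at h1
  subst h1
  omega

variable {L : Type*} [Field L] [Algebra ℚ L] [IsAlgClosed L]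
variable {N : ℕ} [NeZero N]
variable {K : Type*} [Field K] [NumberField K]

/-- **Fixed places of the Fricke involution are ideal classes.** -/
theorem exists_cm (ι : L →+* ℂ) (hN4 : 4 < N) (hsq : Squarefree N) (lam : 𝓞 K)
    (hlam : lam ^ 2 = -(N : 𝓞 K)) (hgen : ∀ x : 𝓞 K, ∃ a b : ℤ, x = a + b * lam) :
    ∃ pt : ClassGroup (𝓞 K) → Place L (FF L N), Function.Injective pt ∧
      (∀ v, wS ι (exDiv_self N) • v = v ↔ ∃ c, pt c = v) ∧
      (∀ (l : ℕ) [NeZero l], l.Prime → l ≠ 2 → ¬ l ∣ N → ∀ I : (Ideal (𝓞 K))⁰,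
        Ideal.absNorm (I : Ideal (𝓞 K)) = l → ∀ D : Divisor L (FF L N),
          wS ι (exDiv_self N) • D = D → ∀ c,
          ((TD L N l D (pt c) : ℤ) : ZMod 2) = ((D (pt (c * ClassGroup.mk0 I)) : ℤ) : ZMod 2) +
            ((D (pt (c * (ClassGroup.mk0 I)⁻¹)) : ℤ) : ZMod 2)) ∧
      (∀ (l : ℕ) [NeZero l], l.Prime → ¬ l ∣ N → ¬ IsSquare (-(N : ZMod l)) →
        ∀ D : Divisor L (FF L N), wS ι (exDiv_self N) • D = D → ∀ c,
          ((TD L N l D (pt c) : ℤ) : ZMod 2) = 0) := by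
  have hN : 0 < N := NeZero.pos N
  have hs := not_isSquare_of_squarefree (by omega) hsq
  have hs3 := not_isSquare_three_mul hN4 hsq
  obtain ⟨cls, h1, h2, h3⟩ := ZCm.exists_cls hsq lam hlam hgen
  choose A hA hcls using h2
  choose σ hσ using fun c => (isAL_of_fx (hA c)).exists_fixes hN (hA c).pos
  choose pt hpt using fun c => (isAL_of_fx (hA c)).exists_isPt ι (by omega) (hσ c) N
  have hfix : ∀ c, wS ι (exDiv_self N) • pt c = pt c := fun c =>
    (isAL_of_fx (hA c)).fixed (exDiv_self N) (hσ c) (hpt c)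
  -- the place of a matrix
  have key : ∀ (B : Matrix (Fin 2) (Fin 2) ℤ) (σ' : ℍ), Fx N B → Fixes B σ' →
      IsPt ι σ' (pt (cls B)) := by
    intro B σ' hB fB
    obtain ⟨γ, hγ, e⟩ := (h1 (A (cls B)) B (hA _) hB).1 (hcls _)
    have h4 := fixes_cj (hA (cls B)) (hσ _) hγ
    rw [← ZCm.eq_cj e] at h4
    have h5 := (hpt (cls B)).gamma hγ
    rwa [h4.unique fB ((isAL_of_fx hB).ne_zero hN)] at h5
  refine ⟨pt, ?_, ?_, ?_, ?_⟩
  · intro c c' h
    have h4 := hpt c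
    rw [h] at h4
    obtain ⟨γ, hγ, e⟩ := h4.orbit (hpt c')
    have h5 := fixes_cj (hA c) (hσ c) hγ
    rw [e] at h5
    have h6 := (isAL_of_fx ((hA c).cj hN hγ)).unique hN (isAL_of_fx (hA c')) h5 (hσ c')
      ((hA c).cj hN hγ).pos (hA c').pos
    rw [← hcls c, ← hcls c', h1 _ _ (hA c) (hA c')]
    exact ⟨γ, hγ, by rw [ZCm.mul_eq_cj_mul, h6]⟩
  · intro v
    constructor
    · intro hv
      obtain ⟨σ', B, hσ', hB, pB, fB⟩ := exists_fix (exDiv_self N) hN4 hs hv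
      exact ⟨cls B, (key B σ' (fx_of_isAL hB pB) fB).unique hσ'⟩
    · rintro ⟨c, rfl⟩
      exact hfix c
  · intro l _ hl hl2 hlN I hI D hD c
    obtain ⟨c₁, c₂, hne, A₁, A₂, hA₁, hA₂, e₁, e₂, g₁, g₂, hu⟩ := h3 l hl hl2 hlN I hI (A c) (hA c)
    obtain ⟨σ₁, f₁⟩ := (isAL_of_fx hA₁).exists_fixes hN hA₁.pos
    obtain ⟨σ₂, f₂⟩ := (isAL_of_fx hA₂).exists_fixes hN hA₂.pos
    have k₁ := key A₁ σ₁ hA₁ f₁
    have k₂ := key A₂ σ₂ hA₂ f₂
    rw [g₁, hcls] at k₁
    rw [g₂, hcls] at k₂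
    exact TD_apply_CM hN4 hs hs3 ((Nat.Prime.coprime_iff_not_dvd hl).2 hlN).symm (hA c) hA₁ hA₂
      hne e₁ e₂ hu (hσ c) f₁ f₂ (hpt c) k₁ k₂ hD
  · intro l _ hl hlN hns D hD c
    have h4 := even_TD_apply ι (exDiv_self N) ((Nat.Prime.coprime_iff_not_dvd hl).2 hlN).symm hD
      (hfix c) (fun R => smul_ne_of_not_isSquare _ hN4 hs hl dvd_rfl hns R)
    rw [ZMod.intCast_zmod_eq_zero_iff_dvd]
    exact even_iff_two_dvd.1 h4

end Fermat.Agent.ZAL
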