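import Fermat.Agent.ZAL.Lnw
import Fermat.Agent.ZAL.CMData

/-!
# Assembly: the hypotheses of the degeneracy theorem
-/

set_option autoImplicit false
set_option linter.unusedSectionVars false
set_option linter.style.haveILetI false

noncomputable section

open ModularCurve AlgebraicCurve CongruenceSubgroup ModularCurve.Period
open scoped MatrixGroups nonZeroDivisors NumberField

namespace Fermat.Agent.ZAL

open Fermat.Agent.X0Places Fermat.Agent.FunField Fermat.Agent.FunField.PlaceLemmas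
open Fermat.Agent.TorsCmp Fermat.Agent.HeckeRed Fermat.Agent.GalJ Fermat.Agent.Degen
open AlgebraicCurve.SemilinearAut
open Fermat.Agent.HeckeHom Fermat.Agent.Tate

local notation "Qb" => AlgebraicClosure ℚ
local notation "GQ" => AlgebraicClosure ℚ ≃ₐ[ℚ] AlgebraicClosure ℚ

/-- primes outside the level -/
abbrev Sg (M : ℕ) : Type := {l : ℕ // l.Prime ∧ ¬ l ∣ M}

theorem parHecke_comm {m : ℕ} [NeZero m] {l l' : ℕ} (hl : l.Prime) (hlm : ¬ l ∣ m)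
    (hl' : l'.Prime) (hlm' : ¬ l' ∣ m) :
    parHecke ℤ_[2] ℤ_[2] hl hlm * parHecke ℤ_[2] ℤ_[2] hl' hlm' =
      parHecke ℤ_[2] ℤ_[2] hl' hlm' * parHecke ℤ_[2] ℤ_[2] hl hlm := by
  rw [← thetaF_T' (S := ∅) (Fermat.Agent.S21.result m) ℤ_[2] hl hlm (Set.notMem_empty _),
    ← thetaF_T' (S := ∅) (Fermat.Agent.S21.result m) ℤ_[2] hl' hlm' (Set.notMem_empty _),
    ← map_mul, ← map_mul, mul_comm]

/-- the action of polynomials in Hecke operators at levels dividing `M` -/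
def act (M m : ℕ) [NeZero m] (hm : m ∣ M) :
    MvPolynomial (Sg M) ℤ_[2] →ₐ[ℤ_[2]] Module.End ℤ_[2] (Lm m) :=
  TW.polyEnd (fun l : Sg M => parHecke ℤ_[2] ℤ_[2] l.2.1 (fun h => l.2.2 (h.trans hm)))
    (fun _ _ => parHecke_comm _ _ _ _)

theorem act_X {M m : ℕ} [NeZero m] (hm : m ∣ M) (l : Sg M) : act M m hm (MvPolynomial.X l) =
    parHecke ℤ_[2] ℤ_[2] l.2.1 (fun h => l.2.2 (h.trans hm)) :=
  TW.polyEnd_X _ _ l

/-- **the idempotent of a residual system of eigenvalues**, at all levels dividing `M` -/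
theorem exists_e (M : ℕ) [hM : NeZero M] (t : Sg M → ZMod 2) :
    ∃ e : MvPolynomial (Sg M) ℤ_[2], 1 - e ∈ resId t ∧ ∀ (m : ℕ) [NeZero m] (hm : m ∣ M),
      act M m hm (e * e) = act M m hm e ∧
      ∀ s ∉ resId t, ∃ r, act M m hm (e * (s * r)) = act M m hm e := by
  have hnz : ∀ m : {m : ℕ // m ∣ M}, NeZero m.1 := fun m =>
    ⟨fun h0 => hM.out (Nat.eq_zero_of_zero_dvd (h0 ▸ m.2))⟩
  have hfin : Finite {m : ℕ // m ∣ M} := by
    refine Set.Finite.to_subtype (s := {m : ℕ | m ∣ M}) ?_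
    refine (Set.finite_Iic M).subset fun m hm => ?_
    exact Nat.le_of_dvd (Nat.pos_of_ne_zero hM.out) hm
  have hf : ∀ m : {m : ℕ // m ∣ M}, Module.Finite ℤ_[2] (Module.End ℤ_[2] (Lm m.1)) := by
    intro m
    have := hnz m
    have h1 := finite_lm m.1
    have h2 := free_lm m.1
    infer_instance
  have hf' : Module.Finite ℤ_[2] (∀ m : {m : ℕ // m ∣ M}, Module.End ℤ_[2] (Lm m.1)) :=
    Module.Finite.pi
  let φ : MvPolynomial (Sg M) ℤ_[2] →ₐ[ℤ_[2]] (∀ m : {m : ℕ // m ∣ M},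
      Module.End ℤ_[2] (Lm m.1)) := AlgHom.pi fun m => act M m.1 m.2
  have hφ : ∀ r m, φ r m = act M m.1 m.2 r := fun _ _ => rfl
  have hpi : IsNoetherian ℤ_[2] (∀ m : {m : ℕ // m ∣ M}, Module.End ℤ_[2] (Lm m.1)) :=
    isNoetherian_of_isNoetherianRing_of_finite ℤ_[2]
      (∀ m : {m : ℕ // m ∣ M}, Module.End ℤ_[2] (Lm m.1))
  obtain ⟨e, h1, h2, h3⟩ := exists_idem (O := ℤ_[2]) (R := MvPolynomial (Sg M) ℤ_[2])
    (B := ∀ m : {m : ℕ // m ∣ M}, Module.End ℤ_[2] (Lm m.1)) φ (resId t)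
  refine ⟨e, h1, fun m hm0 hm => ⟨?_, fun s hs => ?_⟩⟩
  · have := congrFun h2 ⟨m, hm⟩
    rw [hφ, hφ] at this
    exact this
  · obtain ⟨r, hr⟩ := h3 s hs
    refine ⟨r, ?_⟩
    have := congrFun hr ⟨m, hm⟩
    rw [hφ, hφ] at this
    exact this

/-- joint eigenspaces -/
def eig {m : ℕ} (f w : Module.End ℤ_[2] (Lm m)) (s : ℤ_[2]) : Submodule ℤ_[2] (Lm m) :=
  LinearMap.ker (f - 1) ⊓ LinearMap.ker (w - s • (1 : Module.End ℤ_[2] (Lm m)))

theorem mem_eig {m : ℕ} {f w : Module.End ℤ_[2] (Lm m)} {s : ℤ_[2]} {x : Lm m} :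
    x ∈ eig f w s ↔ f x = x ∧ w x = s • x := by
  rw [eig, Submodule.mem_inf, LinearMap.mem_ker, LinearMap.mem_ker, LinearMap.sub_apply,
    LinearMap.sub_apply, sub_eq_zero, sub_eq_zero]
  rfl

theorem mem_eig_one {m : ℕ} {f w : Module.End ℤ_[2] (Lm m)} {x : Lm m} :
    x ∈ eig f w 1 ↔ f x = x ∧ w x = x := by
  rw [mem_eig, one_smul]

theorem mem_eig_neg_one {m : ℕ} {f w : Module.End ℤ_[2] (Lm m)} {x : Lm m} :
    x ∈ eig f w (-1) ↔ f x = x ∧ w x = -x := by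
  rw [mem_eig]
  have : (-1 : ℤ_[2]) • x = -x := _root_.neg_one_smul ℤ_[2] x
  rw [this]

section Arith

variable {M N : ℕ} [hM0 : NeZero M] [NeZero N] (hM : Squarefree M) (hM2 : 2 ∣ M) (hN4 : 4 < N)
  (t : ℕ → ZMod 2)
  (ht3 : ∃ l, l.Prime ∧ ¬ l ∣ M ∧ t l = 1)
  (ht4 : ∀ d, N ∣ d → d ∣ M → d ≠ N → ∃ l, l.Prime ∧ ¬ l ∣ M ∧ t l = 1 ∧
    ¬ IsSquare (-(d : ZMod l)))
  (hin : ∀ q, q.Prime → N * q ∣ M → ¬ IsSquare (-(N : ZMod q)))
  {e : MvPolynomial (Sg M) ℤ_[2]} (he1 : 1 - e ∈ resId (fun l : Sg M => t l))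
  (he2 : ∀ (m : ℕ) [NeZero m] (hm : m ∣ M), act M m hm (e * e) = act M m hm e)
  (he3 : ∀ (m : ℕ) [NeZero m] (hm : m ∣ M), ∀ s ∉ resId (fun l : Sg M => t l),
    ∃ r, act M m hm (e * (s * r)) = act M m hm e)

include hM hM2 hN4 ht3 ht4 hin he2 he3

/-- **equality of ranks at the levels different from `N`** -/
theorem finrank_eig_eq (m : ℕ) [NeZero m] (hm : m ∣ M) (d : ℕ) (h : ExDiv d m) (hNd : N ∣ d)
    (hmN : m ≠ N) : Module.finrank ℤ_[2] (eig (act M m hm e) (wLm h) 1) =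
      Module.finrank ℤ_[2] (eig (act M m hm e) (wLm h) (-1)) := by
  have hd0 : 0 < d := Nat.pos_of_ne_zero h.ne_zero
  have hNd' : N ≤ d := Nat.le_of_dvd hd0 hNd
  have hd1 : d ≠ 1 := by omega
  have hdM : d ∣ M := h.dvd.trans hm
  have hdsq : ¬ IsSquare d := not_isSquare_of_squarefree (by omega) (hM.squarefree_of_dvd hdM)
  let lp : Sg M → ℕ := fun l => l.1
  have hlp : ∀ i : Sg M, (lp i).Prime := fun i => i.2.1
  have hlpm : ∀ i : Sg M, ¬ lp i ∣ m := fun i h => i.2.2 (h.trans hm)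
  have hlp2 : ∀ i : Sg M, lp i ≠ 2 := fun i h2 => i.2.2 (by rw [show i.1 = 2 from h2]; exact hM2)
  have hρ : ∀ i : Sg M, act M m hm (MvPolynomial.X i) =
    parHecke ℤ_[2] ℤ_[2] (hlp i) (hlpm i) := fun i => act_X hm i
  have hw := isW_wLm h
  obtain ⟨l₀, hl₀, hl₀M, ht₀⟩ := ht3
  refine finrank_eq_of hlp hlpm hρ hw (he2 m hm) (he3 m hm) _ _ (fun x => mem_eig_one)
    (fun x => mem_eig_neg_one) ?_ ?_
  · intro x hx hwx
    exact exists_add_e hlp hlpm hlp2 hρ hw (he2 m hm) (he3 m hm) hd1 (i₀ := ⟨l₀, hl₀, hl₀M⟩)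
      ht₀ hx hwx
  · intro x hx hwx
    by_cases hdN : d = N
    · subst hdN
      obtain ⟨c, hc⟩ := h.dvd
      have hc1 : c ≠ 1 := by
        rintro rfl
        exact hmN (by rw [hc, mul_one])
      obtain ⟨q, hq, hqc⟩ := Nat.exists_prime_and_dvd hc1
      have hdq : d * q ∣ m := by
        rw [hc]
        exact Nat.mul_dvd_mul_left d hqc
      exact exists_sub_e' hlp hlpm hρ hw (he2 m hm) hd1
        (smul_ne_of_not_isSquare h (by omega) hdsq hq hdq (hin q hq (hdq.trans hm))) hx hwx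
    · obtain ⟨l, hl, hlM, htl, hns⟩ := ht4 d hNd hdM hdN
      have hl0 : NeZero l := ⟨hl.ne_zero⟩
      have hcop : Nat.Coprime d l := ((Nat.Prime.coprime_iff_not_dvd hl).2
        fun hdl => hlM (hdl.trans hdM)).symm
      have hfix := smul_ne_of_not_isSquare (L := Qb) (ι := iotaQbar) (h.mul hcop) (by omega) hdsq hl
        (Nat.mul_dvd_mul_right h.dvd l) hns
      have : NeZero (lp ⟨l, hl, hlM⟩) := hl0
      exact exists_sub_e hlp hlpm hρ hw (he2 m hm) (he3 m hm) hd1 (i₁ := ⟨l, hl, hlM⟩) htl hcop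
        hfix hx hwx

end Arith

section LevelN

variable {M N : ℕ} [hM0 : NeZero M] [NeZero N] (hM : Squarefree M) (hM2 : 2 ∣ M) (hNM : N ∣ M)
  (hN4 : 4 < N) {K : Type} [Field K] [NumberField K] (lam : 𝓞 K)
  (hlam : lam ^ 2 = -(N : 𝓞 K)) (hgen : ∀ x : 𝓞 K, ∃ a b : ℤ, x = a + b * lam)
  (ψ : ClassGroup (𝓞 K) →* Multiplicative (ZMod 3)) (hψ : Function.Surjective ψ)
  (t : ℕ → ZMod 2)
  (ht1 : ∀ l, l.Prime → ¬ l ∣ M → ∀ I : (Ideal (𝓞 K))⁰, Ideal.absNorm (I : Ideal (𝓞 K)) = l →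
    t l = ZCm.t ψ (ClassGroup.mk0 I))
  (ht2 : ∀ l, l.Prime → ¬ l ∣ M → ¬ IsSquare (-(N : ZMod l)) → t l = 0)
  (ht3 : ∃ l, l.Prime ∧ ¬ l ∣ M ∧ t l = 1)
  {e : MvPolynomial (Sg M) ℤ_[2]} (he1 : 1 - e ∈ resId (fun l : Sg M => t l))
  (he2 : ∀ (m : ℕ) [NeZero m] (hm : m ∣ M), act M m hm (e * e) = act M m hm e)
  (he3 : ∀ (m : ℕ) [NeZero m] (hm : m ∣ M), ∀ s ∉ resId (fun l : Sg M => t l),
    ∃ r, act M m hm (e * (s * r)) = act M m hm e)

theorem E_comm {G : Type} [CommGroup G] (g h : G) : ZCm.E g * ZCm.E h = ZCm.E h * ZCm.E g := by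
  have h1 := fun a b : G => (ZCm.L_comm a b).eq
  rw [ZCm.E, ZCm.E, add_mul, mul_add, mul_add, add_mul, mul_add, mul_add, h1 g h, h1 g h⁻¹,
    h1 g⁻¹ h, h1 g⁻¹ h⁻¹]
  abel

include hM hM2 hNM hN4 hlam hgen hψ ht1 ht2 ht3 he1 he2 he3

/-- **the inequality at level `N`** -/
theorem finrank_eig_add_le : 2 * Nat.card {g : ClassGroup (𝓞 K) // ∃ k : ℕ, g ^ (2 ^ k) = 1} +
      Module.finrank ℤ_[2] (eig (act M N hNM e) (wLm (exDiv_self N)) 1) ≤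
      Module.finrank ℤ_[2] (eig (act M N hNM e) (wLm (exDiv_self N)) (-1)) := by
  classical
  have hN1 : N ≠ 1 := by omega
  obtain ⟨pt, hinj, hpt, hsplit, hinert⟩ := exists_cm (L := Qb) iotaQbar hN4
    (hM.squarefree_of_dvd hNM) lam hlam hgen
  obtain ⟨V, hVdim, -, hV0, n, hVn⟩ := ZCm.clalg (ClassGroup (𝓞 K)) ψ hψ
  let lp : Sg M → ℕ := fun l => l.1
  have hlp : ∀ i : Sg M, (lp i).Prime := fun i => i.2.1
  have hlpm : ∀ i : Sg M, ¬ lp i ∣ N := fun i h => i.2.2 (h.trans hNM)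
  have hlp2 : ∀ i : Sg M, lp i ≠ 2 := fun i h2 => i.2.2 (by rw [show i.1 = 2 from h2]; exact hM2)
  have hρ : ∀ i : Sg M, act M N hNM (MvPolynomial.X i) =
    parHecke ℤ_[2] ℤ_[2] (hlp i) (hlpm i) := fun i => act_X hNM i
  -- the operators on functions on the class group
  let T : Sg M → Module.End (ZMod 2) (ClassGroup (𝓞 K) → ZMod 2) := fun l =>
    if h : ∃ I : (Ideal (𝓞 K))⁰, Ideal.absNorm (I : Ideal (𝓞 K)) = l.1 then
      ZCm.E (ClassGroup.mk0 h.choose) else 0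
  have hTpos : ∀ l : Sg M, (∃ I : (Ideal (𝓞 K))⁰, Ideal.absNorm (I : Ideal (𝓞 K)) = l.1 ∧
      T l = ZCm.E (ClassGroup.mk0 I)) ∨ ((¬ ∃ I : (Ideal (𝓞 K))⁰,
      Ideal.absNorm (I : Ideal (𝓞 K)) = l.1) ∧ T l = 0) := by
    intro l
    by_cases h : ∃ I : (Ideal (𝓞 K))⁰, Ideal.absNorm (I : Ideal (𝓞 K)) = l.1
    · exact Or.inl ⟨h.choose, h.choose_spec, dif_pos h⟩
    · exact Or.inr ⟨h, dif_neg h⟩
  have hns : ∀ l : Sg M, (¬ ∃ I : (Ideal (𝓞 K))⁰, Ideal.absNorm (I : Ideal (𝓞 K)) = l.1) →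
      ¬ IsSquare (-(N : ZMod l.1)) := by
    intro l h hsq
    apply h
    obtain ⟨I, hI⟩ := ZCm.exists_absNorm_eq (NeZero.pos N) lam hlam hgen l.1 l.2.1 (by
      push_cast
      exact hsq)
    have hI0 : I ≠ ⊥ := by
      rintro rfl
      rw [Ideal.absNorm_bot] at hI
      exact l.2.1.ne_zero hI.symm
    exact ⟨⟨I, mem_nonZeroDivisors_of_ne_zero hI0⟩, hI⟩
  have hT : ∀ i j, T i * T j = T j * T i := by
    intro i j
    rcases hTpos i with ⟨I, -, hi⟩ | ⟨-, hi⟩ <;> rcases hTpos j with ⟨J, -, hj⟩ | ⟨-, hj⟩ <;>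
      rw [hi, hj]
    · exact E_comm _ _
    · rw [mul_zero, zero_mul]
    · rw [mul_zero, zero_mul]
  have hT1 : ∀ i, T i 1 = 0 := by
    intro i
    rcases hTpos i with ⟨I, -, hi⟩ | ⟨-, hi⟩
    · rw [hi]
      ext c
      rw [ZCm.E_apply]
      exact CharTwo.add_self_eq_zero _
    · rw [hi]
      rfl
  have hTD : ∀ (i : Sg M) [NeZero (lp i)] (D : Divisor Qb (FF Qb N)), frk N • D = D →
      par pt (TD Qb N (lp i) D) = T i (par pt D) := by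
    intro i _ D hD
    rcases hTpos i with ⟨I, hI, hi⟩ | ⟨hI, hi⟩
    · rw [hi]
      ext c
      rw [ZCm.E_apply, mul_comm _ c, mul_comm _ c]
      exact hsplit (lp i) (hlp i) (hlp2 i) (hlpm i) I hI D hD c
    · rw [hi]
      ext c
      exact hinert (lp i) (hlp i) (hlpm i) (hns i hI) D hD c
  obtain ⟨a, ha⟩ : ∃ a : ℕ, n ≤ 2 ^ a := ⟨n, Nat.lt_two_pow_self.le⟩
  have hnil : ∀ l : Sg M, ∀ F ∈ V, ((T l - (t l) •
      (1 : Module.End (ZMod 2) (ClassGroup (𝓞 K) → ZMod 2))) ^ (2 ^ a)) F = 0 := by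
    intro l F hF
    rcases hTpos l with ⟨I, hI, hl⟩ | ⟨hI, hl⟩
    · rw [hl, ht1 l.1 l.2.1 l.2.2 I hI]
      obtain ⟨b, hb⟩ := Nat.exists_eq_add_of_le ha
      rw [hb, add_comm, pow_add, Module.End.mul_apply, hVn _ F hF, map_zero]
    · rw [hl, ht2 l.1 l.2.1 l.2.2 (hns l hI), zero_smul, sub_zero, zero_pow (by positivity)]
      rfl
  obtain ⟨l₀, hl₀, hl₀M, ht₀⟩ := ht3
  have := finrank_add_le hlp hlpm hlp2 hρ (isW_wLm (exDiv_self N)) hinj hpt T hT hTD hT1 he1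
    (he2 N hNM) (he3 N hNM) hN1 (i₀ := ⟨l₀, hl₀, hl₀M⟩) ht₀ V hnil hV0 _ _ (fun x => mem_eig_one)
    (fun x => mem_eig_neg_one)
  omega

end LevelN

end Fermat.Agent.ZAL
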