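import Fermat.Agent.ZAL.CMPts
import Fermat.Agent.ZCm.Final

/-!
# Hecke operators and fixed places of the Fricke involution
-/

set_option autoImplicit false
set_option linter.unusedSectionVars false
set_option linter.style.haveILetI false

noncomputable section

open UpperHalfPlane Function ModularCurve Filter ModularForm AlgebraicCurve WithZero
  CongruenceSubgroup
open scoped Manifold MatrixGroups Topology ModularForm

namespace Fermat.Agent.ZAL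

open Fermat.Agent.X0Places Fermat.Agent.FunField Fermat.Agent.FunField.PlaceLemmas
open Fermat.Agent.TorsCmp Fermat.Agent.HeckeRed Fermat.Agent.GalJ Fermat.Agent.Degen
open AlgebraicCurve.SemilinearAut
open Matrix.SpecialLinearGroup (mapGL)
open Fermat.Agent.ZCm (Fx Mx cj dl)

variable {L : Type*} [Field L] [Algebra ℚ L] [IsAlgClosed L] {ι : L →+* ℂ}
variable {N : ℕ} [NeZero N] {ℓ : ℕ} [NeZero ℓ]

theorem isAL_of_fx {A : Matrix (Fin 2) (Fin 2) ℤ} (h : Fx N A) : IsAL N N A :=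
  ⟨h.tr, h.det, h.d0, h.d1⟩

theorem fx_of_isAL {A : Matrix (Fin 2) (Fin 2) ℤ} (h : IsAL N N A) (p : 0 < A 1 0) : Fx N A :=
  ⟨h.tr, h.det, h.d0, h.m1, p⟩

theorem dl_det_pos (c : Cos N ℓ) : 0 < (dl N ℓ c).det := by
  rw [dl, Matrix.det_mul, Matrix.SpecialLinearGroup.det_coe, mul_one, Matrix.det_fin_two]
  have : 0 < ℓ := NeZero.pos ℓ
  simpa using this

theorem glZ_dl (c : Cos N ℓ) : glZ (dl N ℓ c) (dl_det_pos c) =
    heckeDiagMatrix ℓ * mapGL ℝ ((rep (Gamma0 (N * ℓ)) c : Gamma0 N) : SL(2, ℤ)) := by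
  have hℓ : ℓ ≠ 0 := NeZero.ne ℓ
  rw [mapGL_eq, heckeDiag_eq hℓ, glZ_mul]
  exact glZ_congr rfl _ _

/-- the representative -/
abbrev rp (c : Cos N ℓ) : SL(2, ℤ) := ((rep (Gamma0 (N * ℓ)) c : Gamma0 N) : SL(2, ℤ))

theorem rp_mem (c : Cos N ℓ) : rp c ∈ Gamma0 N := (rep (Gamma0 (N * ℓ)) c).2

theorem isAL_cj {A A' : Matrix (Fin 2) (Fin 2) ℤ} (hA : Fx N A) (hA' : Fx N A') {c : Cos N ℓ}
    (h : dl N ℓ c * A = A' * dl N ℓ c) : IsAL N (N * ℓ) (cj (rp c) A) := by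
  have hN : 0 < N := NeZero.pos N
  have h1 := hA.cj hN (rp_mem c)
  have h2 := ZCm.delta_entries ((ZCm.delta_iff (rp c)).1 h)
  refine ⟨h1.tr, h1.det, h1.d0, ?_⟩
  rw [h2.1]
  obtain ⟨k, hk⟩ := hA'.d1
  rw [hk]
  push_cast
  exact ⟨k, by ring⟩

theorem fixes_cj {A : Matrix (Fin 2) (Fin 2) ℤ} (hA : Fx N A) {σ : ℍ} (fA : Fixes A σ)
    {γ : SL(2, ℤ)} (hγ : γ ∈ Gamma0 N) : Fixes (cj γ A) (γ • σ) := by
  have hN : 0 < N := NeZero.pos N
  have hApos : 0 < A.det := by rw [hA.det]; exact_mod_cast hN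
  have hBpos : 0 < (cj γ A).det := by rw [(hA.cj hN hγ).det]; exact_mod_cast hN
  have h1 := Fixes.conj hApos hBpos (det_SL_pos γ) (ZCm.mul_eq_cj_mul γ A) fA
  rw [← mapGL_eq] at h1
  exact h1

/-- the place of level `N ℓ` above -/
structure Nb (ι : L →+* ℂ) (v : Place L (FF L N)) (c : Cos N ℓ) (A' : Matrix (Fin 2) (Fin 2) ℤ)
    (σ : ℍ) (R : Place L (FF L (N * ℓ))) : Prop where
  pt : IsPt ι (rp c • σ) R
  alpha : res (heckeAlphaBar L N ℓ) R = v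
  fixed : ∀ (h : ExDiv N (N * ℓ)), wS ι h • R = R
  beta : ∀ v', ∀ σ', Fixes A' σ' → IsPt ι σ' v' → res (heckeBetaBar L N ℓ) R = v'
  ram : Place.ramificationIndexAlong (heckeBetaBar L N ℓ) R = 1

theorem exists_nb (hN1 : N ≠ 1) (hs : ¬ IsSquare N) (hs3 : ¬ IsSquare (3 * N))
    {A A' : Matrix (Fin 2) (Fin 2) ℤ}
    (hA : Fx N A) (hA' : Fx N A') {c : Cos N ℓ} (h : dl N ℓ c * A = A' * dl N ℓ c) {σ : ℍ}
    (fA : Fixes A σ) {v : Place L (FF L N)} (hv : IsPt ι σ v) : ∃ R, Nb ι v c A' σ R := by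
  have hN : 0 < N := NeZero.pos N
  have hApos : 0 < A.det := by rw [hA.det]; exact_mod_cast hN
  have hA'pos : 0 < A'.det := by rw [hA'.det]; exact_mod_cast hN
  obtain ⟨R, hR⟩ := isPt_smul_jInv (L := L) ι hN1 (isAL_of_fx hA) fA (N * ℓ) (rp c)
  have hf := fixes_cj hA fA (rp_mem c)
  have hAL := isAL_cj hA hA' h
  have hfd : Fixes A' (heckeDiagMatrix ℓ • rp c • σ) := by
    have h1 := Fixes.conj hApos hA'pos (dl_det_pos c) h fA
    rw [glZ_dl, mul_smul] at h1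
    exact h1
  have hres := isPt_res_beta hR
  refine ⟨R, hR, (isPt_res_alpha hR).unique (hv.gamma (rp_mem c)), ?_, ?_, ?_⟩
  · intro h'
    exact hAL.fixed h' hf hR
  · intro v' σ' hσ' hv'
    have h2 : heckeDiagMatrix ℓ • rp c • σ = σ' := hfd.unique hσ' ((isAL_of_fx hA').ne_zero hN)
    rw [h2] at hres
    exact hres.unique hv'
  · obtain ⟨x, hx0, hx⟩ := exists_ord_one (res (heckeBetaBar L N ℓ) R)
    have h1 := ord_res (heckeBetaBar L N ℓ) R x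
    rw [hx, mul_one] at h1
    obtain ⟨e, -, he, he1⟩ := hR.exists_ram
    obtain ⟨e', -, he', he1'⟩ := hres.exists_ram
    have g1 := hAL.generic hN hs hs3 hf
    have g2 := (isAL_of_fx hA').generic hN hs hs3 hfd
    rw [he1 g1.1 g1.2] at he
    rw [he1' g2.1 g2.2] at he'
    have hβ0 : heckeBetaBar L N ℓ x ≠ 0 := by rwa [map_ne_zero]
    have h3 := he _ hβ0
    rw [toMer_beta, valMer_compG _ (det_heckeDiagMatrix_pos ℓ), he' _ hx0, hx, h1, exp_inj] at h3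
    push_cast at h3
    omega

theorem Nb.inj (hs : ¬ IsSquare N) (hs3 : ¬ IsSquare (3 * N)) {A A₁ A₂ : Matrix (Fin 2) (Fin 2) ℤ}
    (hA : Fx N A) {c₁ c₂ : Cos N ℓ} {σ : ℍ} (fA : Fixes A σ) {v : Place L (FF L N)}
    {R : Place L (FF L (N * ℓ))} (h₁ : Nb ι v c₁ A₁ σ R) (h₂ : Nb ι v c₂ A₂ σ R) : c₁ = c₂ := by
  have hN : 0 < N := NeZero.pos N
  obtain ⟨γ, hγ, e⟩ := h₁.pt.orbit h₂.pt
  rw [← mul_smul] at e
  have e' : ((rp c₂)⁻¹ * (γ * rp c₁)) • σ = σ := by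
    rw [mul_smul, e, inv_smul_smul]
  symm
  rw [← rep_mul_inv_mem_iff (Gamma0 (N * ℓ))]
  show rp c₂ * (rp c₁)⁻¹ ∈ Gamma0 (N * ℓ)
  rcases (isAL_of_fx hA).stab hN hs hs3 fA e' with h | h
  · have h3 : rp c₂ * (rp c₁)⁻¹ = γ := by
      rw [inv_mul_eq_one] at h
      rw [h, mul_inv_cancel_right]
    rw [h3]
    exact hγ
  · have h3 : rp c₂ * (rp c₁)⁻¹ = -γ := by
      rw [inv_mul_eq_iff_eq_mul] at h
      have h4 : γ * rp c₁ = -rp c₂ := by rw [h, mul_neg, mul_one]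
      have h5 : rp c₂ = -(γ * rp c₁) := by rw [h4, neg_neg]
      rw [h5, neg_mul, mul_inv_cancel_right]
    rw [h3]
    rw [mem_Gamma0_iff] at hγ ⊢
    rw [Matrix.SpecialLinearGroup.coe_neg, Matrix.neg_apply]
    exact (dvd_neg).2 hγ

/-- a fixed place over `v` gives a solution -/
theorem exists_of_fixed (hN4 : 4 < N) (hs : ¬ IsSquare N) (h' : ExDiv N (N * ℓ))
    {A : Matrix (Fin 2) (Fin 2) ℤ}
    (hA : Fx N A) {σ : ℍ} (fA : Fixes A σ) {v : Place L (FF L N)} (hv : IsPt ι σ v)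
    {R : Place L (FF L (N * ℓ))} (hR : wS ι h' • R = R) (hRv : res (heckeAlphaBar L N ℓ) R = v) :
    ∃ (c : Cos N ℓ) (A' : Matrix (Fin 2) (Fin 2) ℤ), dl N ℓ c * A = A' * dl N ℓ c ∧
      IsPt ι (rp c • σ) R := by
  have hN : 0 < N := NeZero.pos N
  obtain ⟨σ', B, hσ', hB, pB, fB⟩ := exists_fix h' hN4 hs hR
  have h1 := isPt_res_alpha hσ'
  rw [hRv] at h1
  obtain ⟨γ, hγ, hγσ⟩ := hv.orbit h1
  have hB' : cj γ A = B := by
    have h2 := fixes_cj hA fA hγ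
    rw [hγσ] at h2
    exact (isAL_of_fx (hA.cj hN hγ)).unique hN hB h2 fB (hA.cj hN hγ).pos pB
  set c : Cos N ℓ := (((⟨γ, hγ⟩ : Gamma0 N)⁻¹ : Gamma0 N) : Cos N ℓ) with hc
  have hε : rp c * γ⁻¹ ∈ Gamma0 (N * ℓ) := by
    have h2 := mk_rep_inv (Γ' := Gamma0 N) (Gamma0 (N * ℓ)) c
    rw [hc, QuotientGroup.eq, inv_inv, Subgroup.mem_subgroupOf] at h2
    exact h2
  obtain ⟨ε, hε', hεγ⟩ : ∃ ε ∈ Gamma0 (N * ℓ), rp c = ε * γ := ⟨_, hε, by group⟩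
  refine ⟨c, ZCm.nb ℓ (cj (rp c) A), ?_, ?_⟩
  · rw [dl, ZCm.delta_iff (rp c)]
    apply ZCm.nb_delta
    rw [hεγ, ZCm.cj_mul, hB']
    have hB11 : B 1 1 = -B 0 0 := by have := hB.tr; omega
    rw [ZCm.cj_10 ε hB11]
    obtain ⟨k, hk⟩ := mem_Gamma0_iff.1 hε'
    obtain ⟨k', hk'⟩ := hB.m1
    rw [hk, hk']
    push_cast
    exact ⟨2 * B 0 0 * (N * k) * ε 1 1 + N * k' * ε 1 1 ^ 2 - B 0 1 * (N * k) ^ 2 * ℓ, by ring⟩
  · rw [hεγ, mul_smul, hγσ]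
    exact hσ'.gamma hε'

/-- **the Hecke operator modulo two at the fixed places of the Fricke involution** -/
theorem TD_apply_CM (hN4 : 4 < N) (hs : ¬ IsSquare N) (hs3 : ¬ IsSquare (3 * N))
    (hℓ : Nat.Coprime N ℓ)
    {A A₁ A₂ : Matrix (Fin 2) (Fin 2) ℤ} (hA : Fx N A) (hA₁ : Fx N A₁) (hA₂ : Fx N A₂)
    {c₁ c₂ : Cos N ℓ} (hne : c₁ ≠ c₂)
    (e₁ : dl N ℓ c₁ * A = A₁ * dl N ℓ c₁) (e₂ : dl N ℓ c₂ * A = A₂ * dl N ℓ c₂)
    (hu : ∀ c A', dl N ℓ c * A = A' * dl N ℓ c → c = c₁ ∨ c = c₂)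
    {σ σ₁ σ₂ : ℍ} (fA : Fixes A σ) (f₁ : Fixes A₁ σ₁) (f₂ : Fixes A₂ σ₂)
    {v v₁ v₂ : Place L (FF L N)} (hv : IsPt ι σ v) (hv₁ : IsPt ι σ₁ v₁) (hv₂ : IsPt ι σ₂ v₂)
    {D : Divisor L (FF L N)} (hD : wS ι (exDiv_self N) • D = D) :
    ((TD L N ℓ D v : ℤ) : ZMod 2) = ((D v₁ : ℤ) : ZMod 2) + ((D v₂ : ℤ) : ZMod 2) := by
  classical
  obtain ⟨R₁, h₁⟩ := exists_nb (by omega) hs hs3 hA hA₁ e₁ fA hv
  obtain ⟨R₂, h₂⟩ := exists_nb (by omega) hs hs3 hA hA₂ e₂ fA hv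
  have hR : R₁ ≠ R₂ := fun h => by
    subst h
    exact hne (h₁.inj hs hs3 hA fA h₂)
  rw [TD_apply_mod_two ι (exDiv_self N) hℓ hD ((isAL_of_fx hA).fixed (exDiv_self N) fA hv)]
  have key : ∀ R, R ∈ Finset.filter (fun R => wS ι ((exDiv_self N).mul hℓ) • R = R)
      {R ∈ (pull (heckeBetaBar L N ℓ) D).support | res (heckeAlphaBar L N ℓ) R = v} →
      R ∈ ({R₁, R₂} : Finset (Place L (FF L (N * ℓ)))) := by
    intro R hR'
    rw [Finset.mem_filter, Finset.mem_filter] at hR'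
    obtain ⟨⟨-, hRv⟩, hRf⟩ := hR'
    obtain ⟨c, A', hc, hpt⟩ := exists_of_fixed hN4 hs _ hA fA hv hRf hRv
    rw [Finset.mem_insert, Finset.mem_singleton]
    rcases hu c A' hc with rfl | rfl
    · exact Or.inl (hpt.unique h₁.pt)
    · exact Or.inr (hpt.unique h₂.pt)
  rw [Finset.sum_subset key]
  · rw [Finset.sum_pair hR, pull_apply, pull_apply, h₁.ram, h₂.ram, h₁.beta v₁ σ₁ f₁ hv₁,
      h₂.beta v₂ σ₂ f₂ hv₂]
    push_cast
    ring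
  · intro R hR' hR''
    rw [Finset.mem_filter, Finset.mem_filter, not_and_or, not_and_or] at hR''
    rw [Finset.mem_insert, Finset.mem_singleton] at hR'
    have h3 : res (heckeAlphaBar L N ℓ) R = v ∧ wS ι ((exDiv_self N).mul hℓ) • R = R := by
      rcases hR' with rfl | rfl
      · exact ⟨h₁.alpha, h₁.fixed _⟩
      · exact ⟨h₂.alpha, h₂.fixed _⟩
    rcases hR'' with (h4 | h4) | h4
    · rw [Finsupp.notMem_support_iff] at h4
      rw [h4]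
      simp
    · exact absurd h3.1 h4
    · exact absurd h3.2 h4

end Fermat.Agent.ZAL
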