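import Fermat.Agent.ZAL.FixPt
import Fermat.Agent.ZAL.THecke

/-!
# Fixed points of `w_N` on `X₀(N)` and Hecke neighbours
-/

set_option autoImplicit false
set_option linter.unusedSectionVars false
set_option linter.style.haveILetI false

noncomputable section

open UpperHalfPlane Function ModularCurve Filter ModularForm AlgebraicCurve WithZero
  CongruenceSubgroup
open scoped Manifold MatrixGroups Topology ModularForm

namespace Fermat.Agent.ZAL

open Fermat.Agent.X0Places Fermat.Agent.FunField Fermat.Agent.FunField.PlaceLemmas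
open Fermat.Agent.TorsCmp Fermat.Agent.HeckeRed Fermat.Agent.GalJ Fermat.Agent.Degen
open AlgebraicCurve.SemilinearAut
open Matrix.SpecialLinearGroup (mapGL)

/-- existence of the fixed point -/
theorem IsAL.exists_fixes {d M : ℕ} (hd : 0 < d) {A : Matrix (Fin 2) (Fin 2) ℤ}
    (hA : IsAL d M A) (pA : 0 < A 1 0) : ∃ σ : ℍ, Fixes A σ := by
  have pA' : (0 : ℝ) < A 1 0 := by exact_mod_cast pA
  have hd' : (0 : ℝ) < √(d : ℝ) := Real.sqrt_pos.2 (by exact_mod_cast hd)
  refine ⟨⟨⟨(A 0 0 : ℝ) / A 1 0, √(d : ℝ) / A 1 0⟩, by positivity⟩, ?_⟩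
  have h1 : A 1 1 = - A 0 0 := by have := hA.tr; omega
  have h2 := hA.det
  rw [Matrix.det_fin_two, h1] at h2
  have hs : (√(d : ℝ)) ^ 2 = d := Real.sq_sqrt (by positivity)
  have h3 : -(A 0 0 : ℝ) ^ 2 - (A 0 1 : ℝ) * A 1 0 = d := by
    have : ((-(A 0 0) ^ 2 - A 0 1 * A 1 0 : ℤ) : ℝ) = ((d : ℤ) : ℝ) := by
      congr 1
      linear_combination h2
    push_cast at this
    exact this
  set x : ℝ := (A 0 0 : ℝ) / A 1 0 with hx
  set y : ℝ := √(d : ℝ) / A 1 0 with hy
  have hx' : (A 1 0 : ℝ) * x = A 0 0 := by rw [hx]; field_simp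
  have hy' : (A 1 0 : ℝ) * y = √(d : ℝ) := by rw [hy]; field_simp
  have e1 : (A 1 0 : ℝ) * (x ^ 2 - y ^ 2) - 2 * A 0 0 * x - A 0 1 = 0 := by
    have : (A 1 0 : ℝ) * ((A 1 0 : ℝ) * (x ^ 2 - y ^ 2) - 2 * A 0 0 * x - A 0 1) = 0 := by
      linear_combination ((A 1 0 : ℝ) * x + A 0 0) * hx' - ((A 1 0 : ℝ) * y + √(d : ℝ)) * hy' - hs
        + h3 - 2 * (A 0 0 : ℝ) * hx'
    rcases mul_eq_zero.1 this with h4 | h4
    · exact absurd h4 pA'.ne'
    · exact h4
  have e2 : (A 1 0 : ℝ) * (2 * x * y) - 2 * A 0 0 * y = 0 := by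
    linear_combination 2 * y * hx'
  have hσ : ((⟨⟨x, y⟩, by show 0 < y; positivity⟩ : ℍ) : ℂ) = ⟨x, y⟩ := rfl
  rw [Fixes, h1, hσ]
  apply Complex.ext
  · simp only [Complex.add_re, Complex.sub_re, Complex.mul_re, Complex.intCast_re,
      Complex.intCast_im, pow_two, Complex.zero_re, Complex.neg_re, Complex.neg_im,
      Complex.mul_im, Complex.sub_im, Int.cast_neg]
    linear_combination e1
  · simp only [Complex.add_im, Complex.sub_im, Complex.mul_im, Complex.intCast_re,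
      Complex.intCast_im, pow_two, Complex.zero_im, Complex.neg_re, Complex.neg_im,
      Complex.mul_re, Complex.sub_re, Int.cast_neg]
    linear_combination e2

theorem Fixes.unique {A : Matrix (Fin 2) (Fin 2) ℤ} {σ σ' : ℍ} (h : Fixes A σ) (h' : Fixes A σ')
    (h0 : A 1 0 ≠ 0) : σ = σ' := by
  obtain ⟨a1, a2⟩ := h.re_im h0
  obtain ⟨b1, b2⟩ := h'.re_im h0
  have h0' : (A 1 0 : ℝ) ≠ 0 := by exact_mod_cast h0
  have e1 : σ.re = σ'.re := by
    have : 2 * (A 1 0 : ℝ) * σ.re = 2 * (A 1 0 : ℝ) * σ'.re := by rw [a1, b1]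
    exact mul_left_cancel₀ (mul_ne_zero two_ne_zero h0') this
  have e2 : σ.im ^ 2 = σ'.im ^ 2 := by
    have : 4 * (A 1 0 : ℝ) ^ 2 * σ.im ^ 2 = 4 * (A 1 0 : ℝ) ^ 2 * σ'.im ^ 2 := by rw [a2, b2]
    exact mul_left_cancel₀ (mul_ne_zero four_ne_zero (pow_ne_zero 2 h0')) this
  have e3 : σ.im = σ'.im := (pow_left_inj₀ σ.im_pos.le σ'.im_pos.le two_ne_zero).1 e2
  exact UpperHalfPlane.ext_re_im e1 e3

variable {L : Type*} [Field L] [Algebra ℚ L] [IsAlgClosed L] {ι : L →+* ℂ}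
variable {M : ℕ} [NeZero M] {d : ℕ}

/-- the matrix `w_d` and a trace zero matrix of the same type differ by `Γ₀(M)` -/
theorem IsAL.exists_gamma (h : ExDiv d M) {A : Matrix (Fin 2) (Fin 2) ℤ} (hA : IsAL d M A) :
    ∃ γ : SL(2, ℤ), γ ∈ Gamma0 M ∧ h.mat = (γ : Matrix (Fin 2) (Fin 2) ℤ) * A := by
  have hd0 : (d : ℤ) ≠ 0 := by exact_mod_cast h.ne_zero
  obtain ⟨a, ha⟩ := hA.d0
  obtain ⟨c, hc⟩ := hA.m1
  have h11 : A 1 1 = - (d * a) := by have := hA.tr; omega
  have hdet := hA.det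
  rw [Matrix.det_fin_two, h11, ha, hc] at hdet
  have hMd := h.mul_div'
  set m : ℤ := ((M / d : ℕ) : ℤ)
  obtain ⟨b, hb⟩ : ∃ b : ℤ, h.mat 0 1 = b := ⟨_, rfl⟩
  obtain ⟨e, he⟩ : ∃ e : ℤ, h.mat 1 1 = d * e := ⟨_, rfl⟩
  have e00 : h.mat 0 0 = (d : ℤ) := rfl
  have e10 : h.mat 1 0 = (M : ℤ) := rfl
  have hmdet := h.mat_det
  rw [Matrix.det_fin_two, hb, he, e00, e10] at hmdet
  rw [hMd] at hdet hmdet
  have r1 : d * e - b * m = 1 := by
    have : (d : ℤ) * (d * e - b * m) = d * 1 := by linear_combination hmdet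
    exact mul_left_cancel₀ hd0 this
  have r2 : -(d * a ^ 2) - A 0 1 * m * c = 1 := by
    have : (d : ℤ) * (-(d * a ^ 2) - A 0 1 * m * c) = d * 1 := by linear_combination hdet
    exact mul_left_cancel₀ hd0 this
  refine ⟨mkSL (-(d * a) - b * m * c) (-(A 0 1) + b * a) (-(M * a) - e * M * c)
    (-(m * A 0 1) + d * e * a) ?_, ?_, ?_⟩
  · rw [hMd]
    linear_combination (-(d * a ^ 2) - A 0 1 * m * c) * r1 + r2
  · rw [mem_Gamma0_iff, mkSL_10]
    exact ⟨-a - e * c, by ring⟩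
  · ext i j
    fin_cases i <;> fin_cases j
    · show h.mat 0 0 = _
      rw [e00, Matrix.mul_apply, Fin.sum_univ_two]
      show (d : ℤ) = (-(d * a) - b * m * c) * A 0 0 + (-(A 0 1) + b * a) * A 1 0
      rw [ha, hc, hMd]
      linear_combination (-(d : ℤ)) * r2
    · show h.mat 0 1 = _
      rw [hb, Matrix.mul_apply, Fin.sum_univ_two]
      show b = (-(d * a) - b * m * c) * A 0 1 + (-(A 0 1) + b * a) * A 1 1
      rw [h11]
      linear_combination (-b) * r2
    · show h.mat 1 0 = _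
      rw [e10, Matrix.mul_apply, Fin.sum_univ_two]
      show (M : ℤ) = (-(M * a) - e * M * c) * A 0 0 + (-(m * A 0 1) + d * e * a) * A 1 0
      rw [ha, hc]
      linear_combination (-(M : ℤ)) * r2
    · show h.mat 1 1 = _
      rw [he, Matrix.mul_apply, Fin.sum_univ_two]
      show (d : ℤ) * e = (-(M * a) - e * M * c) * A 0 1 + (-(m * A 0 1) + d * e * a) * A 1 1
      rw [h11, hMd]
      linear_combination (-(d * e : ℤ)) * r2

theorem IsAL.gl_smul (h : ExDiv d M) {A : Matrix (Fin 2) (Fin 2) ℤ} (hA : IsAL d M A) {σ : ℍ}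
    (fA : Fixes A σ) : ∃ γ : SL(2, ℤ), γ ∈ Gamma0 M ∧ h.gl • σ = γ • σ := by
  have hd0 : 0 < d := Nat.pos_of_ne_zero h.ne_zero
  have hApos : 0 < A.det := by rw [hA.det]; exact_mod_cast hd0
  obtain ⟨γ, hγ, hγA⟩ := hA.exists_gamma h
  refine ⟨γ, hγ, ?_⟩
  have h2 : h.gl = mapGL ℝ γ * glZ A hApos := by
    rw [mapGL_eq, ExDiv.gl, glZ_mul]
    exact glZ_congr hγA _ _
  rw [h2, mul_smul, smul_of_fixes hApos fA]
  rfl

/-- the point of a trace zero matrix is a fixed place -/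
theorem IsAL.fixed (h : ExDiv d M) {A : Matrix (Fin 2) (Fin 2) ℤ} (hA : IsAL d M A) {σ : ℍ}
    (fA : Fixes A σ) {v : Place L (FF L M)} (hv : IsPt ι σ v) : wS ι h • v = v := by
  obtain ⟨γ, hγ, h1⟩ := hA.gl_smul h fA
  have h3 := hv.w h
  rw [h1] at h3
  exact h3.unique (hv.gamma hγ)

/-! ### algebraicity -/

section Gen

variable {K F : Type*} [Field K] [Field F] [Algebra K F] {Γ₀ : Type*}
  [LinearOrderedCommGroupWithZero Γ₀]

theorem exists_poly_lt {j x : F} (halg : IsAlgebraic (Algebra.adjoin K {j}) x) (hx : x ≠ 0)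
    (v : Valuation F Γ₀) (hj : v j ≤ 1) (hc : ∀ c : K, v (algebraMap K F c) ≤ 1)
    (hxv : v x < 1) : ∃ P : Polynomial K, P ≠ 0 ∧ v (Polynomial.aeval j P) < 1 := by
  have hpoly : ∀ c ∈ Algebra.adjoin K {j}, ∃ P : Polynomial K, Polynomial.aeval j P = c := by
    intro c hc
    rw [Algebra.adjoin_singleton_eq_range_aeval] at hc
    exact hc
  have hadj : ∀ c ∈ Algebra.adjoin K {j}, v c ≤ 1 := by
    intro c hc
    induction hc using Algebra.adjoin_induction with
    | mem x hx =>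
      rw [Set.mem_singleton_iff.1 hx]
      exact hj
    | algebraMap r => exact hc r
    | add x y _ _ hx hy => exact (Valuation.map_add _ _ _).trans (max_le hx hy)
    | mul x y _ _ hx hy =>
      rw [map_mul]
      exact mul_le_one' hx hy
  obtain ⟨q, hq0, hq⟩ := halg.exists_nonzero_coeff_and_aeval_eq_zero
    (mem_nonZeroDivisors_of_ne_zero hx)
  have hle : ∀ p : Polynomial (Algebra.adjoin K {j}), v (Polynomial.aeval x p) ≤ 1 := by
    intro p
    induction p using Polynomial.induction_on' with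
    | add p q hp hq =>
      rw [map_add]
      exact (Valuation.map_add _ _ _).trans (max_le hp hq)
    | monomial n a =>
      rw [Polynomial.aeval_monomial, map_mul, map_pow]
      exact mul_le_one' (hadj _ a.2) (pow_le_one' hxv.le n)
  have h2 : x * Polynomial.aeval x (Polynomial.divX q) + ((q.coeff 0 : Algebra.adjoin K {j}) : F) = 0 := by
    rw [← hq]
    conv_rhs => rw [← Polynomial.X_mul_divX_add q]
    rw [map_add, map_mul, Polynomial.aeval_X, Polynomial.aeval_C]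
    rfl
  have h3 : v ((q.coeff 0 : Algebra.adjoin K {j}) : F) < 1 := by
    have h4 : ((q.coeff 0 : Algebra.adjoin K {j}) : F) =
        -(x * Polynomial.aeval x (Polynomial.divX q)) := by linear_combination h2
    rw [h4, Valuation.map_neg, map_mul]
    exact mul_lt_one_of_lt_of_le hxv (hle _)
  obtain ⟨P, hP⟩ := hpoly _ (q.coeff 0).2
  refine ⟨P, ?_, by rw [hP]; exact h3⟩
  rintro rfl
  rw [map_zero] at hP
  exact hq0 (Subtype.ext hP.symm)

theorem exists_root_lt [IsAlgClosed K] {j : F} (v : Valuation F Γ₀)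
    (hc : ∀ c : K, v (algebraMap K F c) ≤ 1) {P : Polynomial K} (hP0 : P ≠ 0)
    (hP : v (Polynomial.aeval j P) < 1) : ∃ a : K, v (j - algebraMap K F a) < 1 := by
  have h6 := (IsAlgClosed.splits P).eq_prod_roots
  have h7 : Polynomial.aeval j P = algebraMap K F P.leadingCoeff *
        (P.roots.map fun a => j - algebraMap K F a).prod := by
    conv_lhs => rw [h6]
    rw [map_mul, Polynomial.aeval_C, map_multiset_prod, Multiset.map_map]
    congr 2
    refine Multiset.map_congr rfl fun a _ => ?_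
    simp
  rw [h7, map_mul] at hP
  have h8 : v (algebraMap K F P.leadingCoeff) = 1 := by
    have hlc : P.leadingCoeff ≠ 0 := Polynomial.leadingCoeff_ne_zero.2 hP0
    have e2 := hc P.leadingCoeff⁻¹
    rw [map_inv₀, map_inv₀] at e2
    apply le_antisymm (hc _)
    by_contra hlt
    push Not at hlt
    have h0 : v (algebraMap K F P.leadingCoeff) ≠ 0 := by
      rw [Valuation.ne_zero_iff]
      simpa using hlc
    have e3 := (one_lt_inv₀ (zero_lt_iff.2 h0)).2 hlt
    exact absurd e2 (not_le.2 e3)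
  rw [h8, one_mul] at hP
  have key : ∀ s : Multiset K, v ((s.map fun a => j - algebraMap K F a).prod) < 1 →
      ∃ a : K, v (j - algebraMap K F a) < 1 := by
    intro s hs
    induction s using Multiset.induction with
    | empty => simp at hs
    | cons a s ih =>
      rw [Multiset.map_cons, Multiset.prod_cons, map_mul] at hs
      by_cases h1 : v (j - algebraMap K F a) < 1
      · exact ⟨a, h1⟩
      · apply ih
        push Not at h1
        exact lt_of_le_of_lt (le_mul_of_one_le_left' h1) hs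
  exact key _ hP

end Gen

theorem jdF_inj (ι : L →+* ℂ) {k k' : ℕ} [NeZero k] [NeZero k'] {hk : k ∣ M} {hk' : k' ∣ M}
    (h : jdF L M k hk = jdF L M k' hk') : k = k' := by
  have h1 : toMer ι M (jdF L M k hk) = toMer ι M (jdF L M k' hk') := by rw [h]
  rw [toMer_jdF, toMer_jdF] at h1
  have h2 := IsFractionRing.injective Holo Mer h1
  have h3 : jd k (Nat.pos_of_ne_zero (NeZero.ne k)) = jd k' (Nat.pos_of_ne_zero (NeZero.ne k')) :=
    congrArg Subtype.val h2
  have h4 := hasLaurent_jd_one k (Nat.pos_of_ne_zero (NeZero.ne k))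
  have h5 := hasLaurent_jd_one k' (Nat.pos_of_ne_zero (NeZero.ne k'))
  rw [h3] at h4
  have h6 := congrArg valLaur (h4.unique one_pos h5)
  rw [valLaur_qExpand_jq, valLaur_qExpand_jq, exp_inj] at h6
  exact_mod_cast h6

/-- `j` of a point with `j(Nσ) = j(σ)` is algebraic -/
theorem exists_jInv_eq (ι : L →+* ℂ) {N : ℕ} [NeZero N] (hN : N ≠ 1) {σ : ℍ}
    (hσ : jd N (Nat.pos_of_ne_zero (NeZero.ne N)) σ = Fermat.Agent.JInv.jInv σ) :
    ∃ a : L, Fermat.Agent.JInv.jInv σ = ι a := by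
  set x : FF L N := jdF L N N dvd_rfl - X0Places.jF L N with hx
  have hx0 : x ≠ 0 := by
    intro h0
    rw [hx, sub_eq_zero, ← jdF_one] at h0
    exact hN (jdF_inj ι h0)
  have hxlt : valMer σ (toMer ι N x) < 1 := by
    have h1 : toMer ι N x = algebraMap Holo Mer
        (⟨jd N (Nat.pos_of_ne_zero (NeZero.ne N)), mdiff_jd N _⟩ - jHolo) := by
      rw [hx, map_sub, toMer_jdF, toMer_jF, map_sub]
    rw [h1, valMer_algebraMap, valHolo_lt_one_iff]
    show jd N _ σ - Fermat.Agent.JInv.jInv σ = 0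
    rw [hσ, sub_self]
  have htr : Transcendental L (X0Places.jF L N) := jF_transcendental_aux ι N
  have halg : IsAlgebraic (Algebra.adjoin L {X0Places.jF L N}) x := by
    have h1 := isAlgebraic_adjoin_of_isFF (K := L) htr
    exact IntermediateField.isAlgebraic_adjoin_iff.1 (h1.isAlgebraic x)
  have hc : ∀ c : L, ((valMer σ).comap (toMer ι N)) (algebraMap L (FF L N) c) ≤ 1 := by
    intro c
    rw [Valuation.comap_apply, toMer_algebraMap, valMer_algebraMap]
    exact valHolo_le_one _ _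
  obtain ⟨P, hP0, hP⟩ := exists_poly_lt halg hx0 ((valMer σ).comap (toMer ι N)) (by
    rw [Valuation.comap_apply, toMer_jF, valMer_algebraMap]
    exact valHolo_le_one _ _) hc hxlt
  obtain ⟨a, ha⟩ := exists_root_lt _ hc hP0 hP
  exact ⟨a, (valMer_toMer_jF_sub σ a).1 ha⟩

/-! ### level `N`, `d = N` -/

theorem exDiv_self (N : ℕ) [NeZero N] : ExDiv N N :=
  ⟨dvd_rfl, by
    rw [Nat.div_self (Nat.pos_of_ne_zero (NeZero.ne N))]
    exact Nat.coprime_one_right N⟩

variable {N : ℕ} [NeZero N]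

theorem IsAL.jd_eq {A : Matrix (Fin 2) (Fin 2) ℤ} (hA : IsAL N N A) {σ : ℍ}
    (fA : Fixes A σ) : jd N (Nat.pos_of_ne_zero (NeZero.ne N)) σ = Fermat.Agent.JInv.jInv σ := by
  have hN : 0 < N := Nat.pos_of_ne_zero (NeZero.ne N)
  obtain ⟨γ, -, hγ⟩ := hA.gl_smul (exDiv_self N) fA
  have hs : star 1 N = N := by simp [star]
  have h1 := (exDiv_self N).jd_star (one_dvd N) one_pos (star_pos one_pos hN) σ
  have h2 : jd (star 1 N) (star_pos one_pos hN) σ = jd N hN σ := by
    simp only [hs]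
  rw [← h2, ← h1, hγ, ← jInv_eq_jd]
  exact Fermat.Agent.JInv.jInv_smul γ σ

/-- the place of a fixed point -/
theorem IsAL.exists_isPt (ι : L →+* ℂ) (hN : N ≠ 1) {A : Matrix (Fin 2) (Fin 2) ℤ}
    (hA : IsAL N N A) {σ : ℍ} (fA : Fixes A σ) (M : ℕ) [NeZero M] :
    ∃ v : Place L (FF L M), IsPt ι σ v := by
  obtain ⟨a, ha⟩ := exists_jInv_eq ι hN (hA.jd_eq fA)
  exact ⟨_, isPt_place ha⟩

theorem isPt_smul_jInv (ι : L →+* ℂ) (hN : N ≠ 1) {A : Matrix (Fin 2) (Fin 2) ℤ}
    (hA : IsAL N N A) {σ : ℍ} (fA : Fixes A σ) (M : ℕ) [NeZero M] (g : SL(2, ℤ)) :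
    ∃ v : Place L (FF L M), IsPt ι (g • σ) v := by
  obtain ⟨a, ha⟩ := exists_jInv_eq ι hN (hA.jd_eq fA)
  exact ⟨_, isPt_place (a := a) (by rw [Fermat.Agent.JInv.jInv_smul]; exact ha)⟩

/-! ### the fibre of `X₀(Nℓ) → X₀(N)` -/

variable {ℓ : ℕ} [NeZero ℓ]

theorem isPt_res_alpha {σ : ℍ} {R : Place L (FF L (M * ℓ))} (hR : IsPt ι σ R) :
    IsPt ι σ (res (heckeAlphaBar L M ℓ) R) := by
  intro x
  rw [mem_res_iff, hR, toMer_alpha]

theorem isPt_res_beta {σ : ℍ} {R : Place L (FF L (M * ℓ))} (hR : IsPt ι σ R) :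
    IsPt ι (heckeDiagMatrix ℓ • σ) (res (heckeBetaBar L M ℓ) R) := by
  intro x
  rw [mem_res_iff, hR, toMer_beta, valMer_compG _ (det_heckeDiagMatrix_pos ℓ)]

theorem Fixes.conj {A B : Matrix (Fin 2) (Fin 2) ℤ} (hA : 0 < A.det) (hB : 0 < B.det)
    {δ : Matrix (Fin 2) (Fin 2) ℤ} (hδ : 0 < δ.det) (h : δ * A = B * δ) {σ : ℍ}
    (fA : Fixes A σ) : Fixes B (glZ δ hδ • σ) := by
  apply fixes_of_smul hB
  rw [← mul_smul, glZ_mul]
  have h1 : glZ (B * δ) (det_mul_pos hB hδ) = glZ δ hδ * glZ A hA := by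
    rw [glZ_mul]
    exact glZ_congr h.symm _ _
  rw [h1, mul_smul, smul_of_fixes hA fA]

/-- the stabiliser of a generic point -/
theorem IsAL.stab {d M : ℕ} (hd : 0 < d) (h1 : ¬ IsSquare d) (h3 : ¬ IsSquare (3 * d))
    {A : Matrix (Fin 2) (Fin 2) ℤ} (hA : IsAL d M A) {σ : ℍ} (fA : Fixes A σ)
    {g : SL(2, ℤ)} (hg : g • σ = σ) : g = 1 ∨ g = -1 := by
  set B : Matrix (Fin 2) (Fin 2) ℤ := (g : Matrix (Fin 2) (Fin 2) ℤ) with hB
  have hBdet : B.det = 1 := g.det_coe
  have fB : Fixes B σ := by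
    apply fixes_of_smul (det_SL_pos g)
    rw [← mapGL_eq]
    exact hg
  have hB0 : B 1 0 = 0 := by
    by_contra hB0
    have h4 := hA.rel hd fA hBdet fB hB0
    have h5 := (fB.re_im hB0).2
    rw [hBdet] at h5
    have h6 : (0 : ℝ) < 4 * (B 1 0 : ℝ) ^ 2 * σ.im ^ 2 := by
      have h7 : (B 1 0 : ℝ) ≠ 0 := by exact_mod_cast hB0
      have him := σ.im_pos
      positivity
    rw [h5] at h6
    have h7 : (B 0 0 + B 1 1) ^ 2 < 4 := by
      have : (((B 0 0 + B 1 1) ^ 2 : ℤ) : ℝ) < ((4 : ℤ) : ℝ) := by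
        push_cast at h6 ⊢
        linarith
      exact_mod_cast this
    set t := B 0 0 + B 1 1
    have ht : t ^ 2 = 0 ∨ t ^ 2 = 1 := by
      have : -2 < t ∧ t < 2 := by constructor <;> nlinarith
      have h8 : t = -1 ∨ t = 0 ∨ t = 1 := by omega
      rcases h8 with h8 | h8 | h8 <;> rw [h8] <;> norm_num
    rcases ht with ht | ht
    · rw [ht] at h4
      apply h1
      apply isSquare_of_mul hB0 (a := A 1 0)
      linarith
    · rw [ht] at h4
      apply h3
      apply isSquare_of_mul (b := 2 * B 1 0) (a := 3 * A 1 0) (mul_ne_zero two_ne_zero hB0)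
      push_cast
      linear_combination 3 * h4
  have hfix := fB
  rw [Fixes, hB0] at hfix
  have him := σ.im_pos
  have hI := congrArg Complex.im hfix
  have hRe := congrArg Complex.re hfix
  simp only [Complex.add_im, Complex.sub_im, Complex.mul_im, Complex.intCast_re,
    Complex.intCast_im, pow_two, Complex.zero_im, Int.cast_zero, Complex.zero_re,
    UpperHalfPlane.coe_im, UpperHalfPlane.coe_re, Complex.sub_re, Complex.add_re,
    Complex.mul_re] at hI hRe
  have h4 : (B 1 1 : ℝ) = B 0 0 := by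
    have h3 : ((B 1 1 : ℝ) - B 0 0) * σ.im = 0 := by linear_combination hI
    rcases mul_eq_zero.1 h3 with h5 | h5
    · linarith
    · exact absurd h5 him.ne'
  have h5 : B 1 1 = B 0 0 := by exact_mod_cast h4
  have h6 : (B 0 1 : ℝ) = 0 := by
    rw [h4] at hRe
    linear_combination -hRe
  have h7 : B 0 1 = 0 := by exact_mod_cast h6
  rw [Matrix.det_fin_two, hB0, mul_zero, sub_zero, h5] at hBdet
  rcases Int.mul_eq_one_iff_eq_one_or_neg_one.1 hBdet with ⟨h8, -⟩ | ⟨h8, -⟩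
  · left
    ext i j
    fin_cases i <;> fin_cases j
    · exact h8
    · exact h7
    · exact hB0
    · exact h5.trans h8
  · right
    ext i j
    fin_cases i <;> fin_cases j
    · exact h8
    · exact h7
    · exact hB0
    · exact h5.trans h8

end Fermat.Agent.ZAL
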