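import Mathlib.RingTheory.Localization.AtPrime.Basic
import Mathlib.RingTheory.Noetherian.Basic
import Mathlib.RingTheory.Finiteness.Cardinality
import Mathlib.NumberTheory.Padics.RingHoms
import Fermat.Prelude.Thm_Algebra_finite_maximalSpectrum_and_bijective_localization_of_module_finite

/-!
# The idempotent attached to a maximal ideal of a commutative algebra of operators
-/

set_option autoImplicit false

noncomputable section

namespace Fermat.Agent.ZAL

section Idem

variable {O R : Type} [CommRing O] [IsLocalRing O] [IsNoetherianRing O]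
  [IsAdicComplete (IsLocalRing.maximalIdeal O) O] [CommRing R] [Algebra O R]

/-- the idempotent of a maximal ideal in a finite algebra of operators -/
theorem exists_idem {B : Type} [Ring B] [Algebra O B] [IsNoetherian O B] (φ : R →ₐ[O] B)
    (𝔪 : Ideal R) [h𝔪 : 𝔪.IsMaximal] :
    ∃ e : R, 1 - e ∈ 𝔪 ∧ φ (e * e) = φ e ∧ ∀ s ∉ 𝔪, ∃ t, φ (e * (s * t)) = φ e := by
  classical
  let I₀ : Ideal R := RingHom.ker φ
  by_cases hle : I₀ ≤ 𝔪
  · let C := R ⧸ I₀
    have hfin : Module.Finite O C := by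
      exact Module.Finite.of_injective (Ideal.kerLiftAlg φ).toLinearMap (Ideal.kerLiftAlg_injective φ)
    obtain ⟨-, hbij, -, -⟩ :=
      Algebra.finite_maximalSpectrum_and_bijective_localization_of_module_finite (𝒪 := O) C
    let 𝔪' : Ideal C := 𝔪.map (Ideal.Quotient.mk I₀)
    have hcomap : 𝔪'.comap (Ideal.Quotient.mk I₀) = 𝔪 := by
      rw [Ideal.comap_map_of_surjective _ Ideal.Quotient.mk_surjective, ← RingHom.ker_eq_comap_bot,
        Ideal.mk_ker, sup_eq_left]
      exact hle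
    have hmax : 𝔪'.IsMaximal := by
      refine (Ideal.map_eq_top_or_isMaximal_of_surjective _ Ideal.Quotient.mk_surjective
        h𝔪).resolve_left fun htop => h𝔪.ne_top ?_
      rw [← hcomap]
      change Ideal.comap _ 𝔪' = ⊤
      rw [show 𝔪' = ⊤ from htop, Ideal.comap_top]
    have hmem : ∀ s, s ∉ 𝔪 → Ideal.Quotient.mk I₀ s ∉ 𝔪' := by
      intro s hs h
      apply hs
      rw [← hcomap]
      exact h
    obtain ⟨e', he'⟩ := hbij.2 (Function.update 0 ⟨𝔪', hmax⟩ 1)
    have he'1 : ∀ I : MaximalSpectrum C, algebraMap C (Localization.AtPrime I.asIdeal) e' =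
        (Function.update 0 ⟨𝔪', hmax⟩ 1 : ∀ I : MaximalSpectrum C,
          Localization.AtPrime I.asIdeal) I := fun I => congrFun he' I
    obtain ⟨e, rfl⟩ := Ideal.Quotient.mk_surjective e'
    have lift : ∀ x y : R, Ideal.Quotient.mk I₀ x = Ideal.Quotient.mk I₀ y → φ x = φ y := by
      intro x y h
      rw [Ideal.Quotient.eq] at h
      have h1 : φ (x - y) = 0 := h
      rwa [map_sub, sub_eq_zero] at h1
    have hinj : ∀ x y : C, (∀ I : MaximalSpectrum C,
        algebraMap C (Localization.AtPrime I.asIdeal) x =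
        algebraMap C (Localization.AtPrime I.asIdeal) y) → x = y := by
      intro x y h
      exact hbij.1 (funext h)
    refine ⟨e, ?_, ?_, ?_⟩
    · rw [← hcomap]
      change Ideal.Quotient.mk I₀ (1 - e) ∈ 𝔪'
      have h1 : algebraMap C (Localization.AtPrime 𝔪') (Ideal.Quotient.mk I₀ (1 - e)) = 0 := by
        have h2 := he'1 ⟨𝔪', hmax⟩
        rw [Function.update_self] at h2
        rw [map_sub, map_one, map_sub, map_one]
        exact sub_eq_zero.2 h2.symm
      rw [IsLocalization.map_eq_zero_iff 𝔪'.primeCompl] at h1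
      obtain ⟨⟨u, hu⟩, h2⟩ := h1
      have h3 : u * Ideal.Quotient.mk I₀ (1 - e) ∈ 𝔪' := by
        change u * Ideal.Quotient.mk I₀ (1 - e) = 0 at h2
        rw [h2]
        exact 𝔪'.zero_mem
      exact (hmax.isPrime.mem_or_mem h3).resolve_left hu
    · apply lift
      apply hinj
      intro I
      rw [map_mul, map_mul, he'1]
      by_cases hI : I = ⟨𝔪', hmax⟩
      · subst hI
        rw [Function.update_self, one_mul]
      · rw [Function.update_of_ne hI]
        simp
    · intro s hs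
      have hs' := hmem s hs
      obtain ⟨b, hb⟩ := hbij.2 (Function.update 0 ⟨𝔪', hmax⟩
        (IsLocalization.mk' (Localization.AtPrime 𝔪') (1 : C)
          (⟨Ideal.Quotient.mk I₀ s, hs'⟩ : 𝔪'.primeCompl)))
      obtain ⟨t, rfl⟩ := Ideal.Quotient.mk_surjective b
      refine ⟨t, ?_⟩
      apply lift
      apply hinj
      intro I
      rw [map_mul, map_mul, map_mul, map_mul, he'1]
      by_cases hI : I = ⟨𝔪', hmax⟩
      · subst hI
        have hb' := congrFun hb ⟨𝔪', hmax⟩
        rw [Function.update_self] at hb'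
        change algebraMap C (Localization.AtPrime 𝔪') (Ideal.Quotient.mk I₀ t) = _ at hb'
        rw [Function.update_self, one_mul]
        change algebraMap C (Localization.AtPrime 𝔪') (Ideal.Quotient.mk I₀ s) *
          algebraMap C (Localization.AtPrime 𝔪') (Ideal.Quotient.mk I₀ t) = 1
        rw [hb']
        exact (IsLocalization.mk'_spec' (Localization.AtPrime 𝔪') (1 : C)
          (⟨Ideal.Quotient.mk I₀ s, hs'⟩ : 𝔪'.primeCompl)).trans (map_one _)
      · rw [Function.update_of_ne hI]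
        simp
  · obtain ⟨r, hr, hr'⟩ := SetLike.not_le_iff_exists.mp hle
    obtain ⟨a, i, hi, hai⟩ := h𝔪.exists_inv hr'
    have h0 : φ (a * r) = 0 := by
      rw [map_mul, show φ r = 0 from hr, mul_zero]
    refine ⟨a * r, ?_, ?_, fun s _ => ⟨0, ?_⟩⟩
    · rw [← hai, add_sub_cancel_left]
      exact hi
    · rw [map_mul, h0, mul_zero]
    · rw [map_mul, h0, zero_mul]

end Idem

/-- finiteness modulo two -/
theorem exists_finset_mod_two (Λ : Type*) [AddCommGroup Λ] [Module ℤ_[2] Λ]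
    [Module.Finite ℤ_[2] Λ] : ∃ S : Finset Λ, ∀ x : Λ, ∃ s ∈ S, ∃ y : Λ, x = s + (2 : ℤ_[2]) • y := by
  classical
  obtain ⟨n, w, hw⟩ := Module.Finite.exists_fin (R := ℤ_[2]) (M := Λ)
  refine ⟨Finset.univ.image (fun T : Finset (Fin n) => ∑ i ∈ T, w i), fun x => ?_⟩
  have hx : x ∈ Submodule.span ℤ_[2] (Set.range w) := by rw [hw]; trivial
  obtain ⟨c, rfl⟩ := (Submodule.mem_span_range_iff_exists_fun ℤ_[2]).1 hx
  have key : ∀ a : ℤ_[2], ∃ b : ℤ_[2], a = 2 * b ∨ a = 1 + 2 * b := by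
    intro a
    have h1 : PadicInt.toZMod a = 0 ∨ PadicInt.toZMod a = 1 := by
      generalize PadicInt.toZMod a = z
      revert z
      decide
    rcases h1 with h1 | h1
    · have h2 : a ∈ IsLocalRing.maximalIdeal ℤ_[2] := by
        rw [← PadicInt.ker_toZMod]; exact h1
      rw [PadicInt.maximalIdeal_eq_span_p, Ideal.mem_span_singleton] at h2
      obtain ⟨b, hb⟩ := h2
      exact ⟨b, Or.inl (by rw [hb]; push_cast; ring)⟩
    · have h2 : a - 1 ∈ IsLocalRing.maximalIdeal ℤ_[2] := by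
        rw [← PadicInt.ker_toZMod, RingHom.mem_ker, map_sub, h1, map_one, sub_self]
      rw [PadicInt.maximalIdeal_eq_span_p, Ideal.mem_span_singleton] at h2
      obtain ⟨b, hb⟩ := h2
      exact ⟨b, Or.inr (by rw [← sub_eq_iff_eq_add', hb]; push_cast; ring)⟩
  choose b hb using key
  refine ⟨∑ i with c i = 1 + 2 * b (c i), w i, Finset.mem_image.2 ⟨_, Finset.mem_univ _, rfl⟩,
    ∑ i, b (c i) • w i, ?_⟩
  rw [Finset.smul_sum, Finset.sum_filter, ← Finset.sum_add_distrib]
  refine Finset.sum_congr rfl fun i _ => ?_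
  split_ifs with h
  · conv_lhs => rw [h, add_smul, one_smul, mul_smul]
  · have h2 := (hb (c i)).resolve_right h
    conv_lhs => rw [h2, mul_smul]
    rw [zero_add]

/-- elements of the maximal ideal are topologically nilpotent on the part cut out by the
idempotent -/
theorem exists_pow_mem {R : Type*} [CommRing R] [Algebra ℤ_[2] R] {Λ : Type*} [AddCommGroup Λ]
    [Module ℤ_[2] Λ] [Module.Finite ℤ_[2] Λ] (ρ : R →ₐ[ℤ_[2]] Module.End ℤ_[2] Λ) (𝔪 : Ideal R)
    (h1 : 𝔪 ≠ ⊤) (e : R) (he : ∀ s ∉ 𝔪, ∃ t, ρ (e * (s * t)) = ρ e) {r : R} (hr : r ∈ 𝔪) :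
    ∃ n : ℕ, ∀ x, ∃ y, ρ (e * r ^ n) x = (2 : ℤ_[2]) • y := by
  classical
  obtain ⟨S, hS⟩ := exists_finset_mod_two Λ
  choose s hs y hy using hS
  -- powers on the finite set
  let f : ℕ → (S → S) := fun n x => ⟨s (ρ (r ^ n) x), hs _⟩
  obtain ⟨a, b, hab, hf⟩ := Finite.exists_ne_map_eq_of_infinite f
  wlog hlt : a < b generalizing a b
  · exact this b a hab.symm hf.symm (lt_of_le_of_ne (not_lt.1 hlt) hab.symm)
  have hdiff : ∀ x : Λ, ∃ z, ρ (r ^ a - r ^ b) x = (2 : ℤ_[2]) • z := by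
    intro x
    have e1 := hy x
    have e2 : s (ρ (r ^ a) (s x)) = s (ρ (r ^ b) (s x)) :=
      congrArg Subtype.val (congrFun hf ⟨s x, hs x⟩)
    have e3 := hy (ρ (r ^ a) (s x))
    have e4 := hy (ρ (r ^ b) (s x))
    rw [e2] at e3
    have e5 : ρ (r ^ a - r ^ b) (s x) = (2 : ℤ_[2]) • (y (ρ (r ^ a) (s x)) - y (ρ (r ^ b) (s x))) := by
      rw [map_sub, LinearMap.sub_apply, smul_sub]
      generalize y (ρ (r ^ a) (s x)) = p at *
      generalize y (ρ (r ^ b) (s x)) = q at *
      rw [e3]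
      nth_rewrite 2 [e4]
      abel
    refine ⟨(y (ρ (r ^ a) (s x)) - y (ρ (r ^ b) (s x))) + ρ (r ^ a - r ^ b) (y x), ?_⟩
    conv_lhs => rw [e1]
    rw [map_add, e5, map_smul, smul_add]
  have hns : 1 - r ^ (b - a) ∉ 𝔪 := by
    intro h
    apply h1
    rw [Ideal.eq_top_iff_one]
    have h2 : r ^ (b - a) ∈ 𝔪 := Ideal.pow_mem_of_mem 𝔪 hr _ (by omega)
    have := 𝔪.add_mem h h2
    rwa [sub_add_cancel] at this
  obtain ⟨t, ht⟩ := he _ hns
  refine ⟨a, fun x => ?_⟩
  obtain ⟨z, hz⟩ := hdiff x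
  refine ⟨ρ (e * t) z, ?_⟩
  have h3 : ρ (e * r ^ a) = ρ (e * t) * ρ (r ^ a - r ^ b) := by
    rw [map_mul ρ e, ← ht, ← map_mul, ← map_mul]
    congr 1
    have : r ^ b = r ^ (b - a) * r ^ a := by rw [← pow_add]; congr 1; omega
    rw [this]
    ring
  rw [h3, Module.End.mul_apply, hz, map_smul]

end Fermat.Agent.ZAL
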