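import Fermat.Agent.ZAL.Theta
import Fermat.Agent.ZAL.Idem
import Fermat.Agent.TW.Poly
import Mathlib.Algebra.CharP.Lemmas
import Mathlib.Algebra.MvPolynomial.CommRing

/-!
# Polynomials in Hecke operators
-/

set_option autoImplicit false
set_option linter.unusedSectionVars false
set_option linter.style.haveILetI false

noncomputable section

open ModularCurve AlgebraicCurve CongruenceSubgroup ModularCurve.Period
open scoped MatrixGroups

namespace Fermat.Agent.ZAL

open Fermat.Agent.X0Places Fermat.Agent.FunField Fermat.Agent.FunField.PlaceLemmas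
open Fermat.Agent.TorsCmp Fermat.Agent.HeckeRed Fermat.Agent.GalJ Fermat.Agent.Degen
open AlgebraicCurve.SemilinearAut
open Fermat.Agent.HeckeHom Fermat.Agent.Tate

local notation "Qb" => AlgebraicClosure ℚ

section Abs

variable {σ W : Type} [AddCommGroup W] [Module (ZMod 2) W]
  (T : σ → Module.End (ZMod 2) W) (hT : ∀ i j, T i * T j = T j * T i)

/-- polynomials acting in characteristic two -/
def ev : MvPolynomial σ ℤ_[2] →+* Module.End (ZMod 2) W :=
  ((TW.polyEnd T hT : MvPolynomial σ (ZMod 2) →ₐ[ZMod 2] Module.End (ZMod 2) W) :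
    MvPolynomial σ (ZMod 2) →+* Module.End (ZMod 2) W).comp (MvPolynomial.map PadicInt.toZMod)

theorem ev_X (i : σ) : ev T hT (MvPolynomial.X i) = T i := by
  rw [ev, RingHom.comp_apply, MvPolynomial.map_X]
  exact TW.polyEnd_X T hT i

theorem ev_C (a : ℤ_[2]) (F : W) : ev T hT (MvPolynomial.C a) F = PadicInt.toZMod a • F := by
  rw [ev, RingHom.comp_apply, MvPolynomial.map_C]
  change (TW.polyEnd T hT (MvPolynomial.C _)) F = _
  rw [TW.polyEnd_C]
  rfl

/-- the maximal ideal of a system of residual eigenvalues -/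
def resId (t : σ → ZMod 2) : Ideal (MvPolynomial σ ℤ_[2]) :=
  RingHom.ker (MvPolynomial.eval₂Hom (PadicInt.toZMod : ℤ_[2] →+* ZMod 2) t)

instance resId_isMaximal (t : σ → ZMod 2) : (resId t).IsMaximal := by
  apply RingHom.ker_isMaximal_of_surjective
  intro x
  refine ⟨MvPolynomial.C ((x.val : ℕ) : ℤ_[2]), ?_⟩
  rw [MvPolynomial.eval₂Hom_C, map_natCast, ZMod.natCast_val, ZMod.cast_id', id]

theorem mem_resId {t : σ → ZMod 2} {r : MvPolynomial σ ℤ_[2]} :
    r ∈ resId t ↔ MvPolynomial.eval t (MvPolynomial.map PadicInt.toZMod r) = 0 := by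
  rw [resId, RingHom.mem_ker]
  rw [MvPolynomial.coe_eval₂Hom, MvPolynomial.eval_map]

theorem X_notMem_resId {t : σ → ZMod 2} {l : σ} (ht : t l = 1) :
    (MvPolynomial.X l : MvPolynomial σ ℤ_[2]) ∉ resId t := by
  rw [mem_resId, MvPolynomial.map_X, MvPolynomial.eval_X, ht]
  exact one_ne_zero

theorem X_sub_C_mem_resId {t : σ → ZMod 2} {l : σ} {a : ℤ_[2]} (ha : PadicInt.toZMod a = t l) :
    (MvPolynomial.X l - MvPolynomial.C a : MvPolynomial σ ℤ_[2]) ∈ resId t := by
  rw [mem_resId, map_sub, MvPolynomial.map_X, MvPolynomial.map_C, map_sub, MvPolynomial.eval_X,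
    MvPolynomial.eval_C, ha, sub_self]

theorem polyEnd_pow {t : σ → ZMod 2} (V : Submodule (ZMod 2) W) {a : ℕ}
    (hnil : ∀ l, ∀ F ∈ V, ((T l - t l • (1 : Module.End (ZMod 2) W)) ^ (2 ^ a)) F = 0)
    (r : MvPolynomial σ (ZMod 2)) : ∀ F ∈ V, TW.polyEnd T hT (r ^ (2 ^ a)) F =
      MvPolynomial.eval t r • F := by
  have : CharP (MvPolynomial σ (ZMod 2)) 2 := inferInstance
  have : Fact (Nat.Prime 2) := ⟨Nat.prime_two⟩
  induction r using MvPolynomial.induction_on with
  | C c =>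
    intro F _
    rw [← map_pow, ZMod.pow_card_pow, TW.polyEnd_C, MvPolynomial.eval_C]
    rfl
  | add p q hp hq =>
    intro F hF
    rw [add_pow_char_pow, map_add, LinearMap.add_apply, hp F hF, hq F hF, map_add, add_smul]
  | mul_X p l hp =>
    intro F hF
    have h1 : TW.polyEnd T hT ((MvPolynomial.X l - MvPolynomial.C (t l)) ^ (2 ^ a)) F = 0 := by
      rw [map_pow, map_sub, TW.polyEnd_X, TW.polyEnd_C]
      exact hnil l F hF
    rw [sub_pow_char_pow, map_sub, LinearMap.sub_apply, sub_eq_zero, ← map_pow MvPolynomial.C,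
      ZMod.pow_card_pow, TW.polyEnd_C] at h1
    rw [mul_pow, map_mul, Module.End.mul_apply, h1]
    change TW.polyEnd T hT (p ^ 2 ^ a) (t l • F) = _
    rw [map_smul, hp F hF, map_mul, MvPolynomial.eval_X, smul_smul, mul_comm]

theorem ev_pow_eq_zero {t : σ → ZMod 2} (V : Submodule (ZMod 2) W) {a : ℕ}
    (hnil : ∀ l, ∀ F ∈ V, ((T l - t l • (1 : Module.End (ZMod 2) W)) ^ (2 ^ a)) F = 0)
    {r : MvPolynomial σ ℤ_[2]} (hr : r ∈ resId t) {F : W} (hF : F ∈ V) :
    ev T hT (r ^ (2 ^ a)) F = 0 := by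
  rw [mem_resId] at hr
  rw [ev, RingHom.comp_apply, map_pow (MvPolynomial.map _)]
  exact (polyEnd_pow T hT V hnil _ F hF).trans (by rw [hr, zero_smul])

end Abs

section Th

variable {N : ℕ} [NeZero N] {G σ : Type} {pt : G → Place Qb (FF Qb N)}
  (hpt : ∀ v, frk N • v = v ↔ ∃ c, pt c = v)
  (T : σ → Module.End (ZMod 2) (G → ZMod 2)) (hT : ∀ i j, T i * T j = T j * T i)
  (ρ : MvPolynomial σ ℤ_[2] →ₐ[ℤ_[2]] Module.End ℤ_[2] (Lm N))

/-- parities of components -/
def ThL (pt : G → Place Qb (FF Qb N)) (φ : Lm N) (F : G → ZMod 2) : Prop :=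
  IsTh pt (pjn N 1 φ) F

theorem ThL.zero : ThL pt (0 : Lm N) 0 := by
  rw [ThL, map_zero]
  exact IsTh.zero

theorem ThL.add {φ φ' : Lm N} {F F' : G → ZMod 2} (h : ThL pt φ F) (h' : ThL pt φ' F') :
    ThL pt (φ + φ') (F + F') := by
  rw [ThL, map_add]
  exact IsTh.add h h'

theorem pjn_one_two_smul (φ : Lm N) : pjn N 1 ((2 : ℤ_[2]) • φ) = 0 := by
  rw [two_zsmul_eq, map_nsmul]
  exact (latData N).pow_pj 1 φ

theorem ThL.two_smul (φ : Lm N) : ThL pt ((2 : ℤ_[2]) • φ) 0 := by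
  rw [ThL, pjn_one_two_smul]
  exact IsTh.zero

theorem padic_two (a : ℤ_[2]) : ∃ b : ℤ_[2], (a = 2 * b ∧ PadicInt.toZMod a = 0) ∨
    (a = 1 + 2 * b ∧ PadicInt.toZMod a = 1) := by
  have h1 : PadicInt.toZMod a = 0 ∨ PadicInt.toZMod a = 1 := by
    generalize PadicInt.toZMod a = z
    revert z
    decide
  rcases h1 with h1 | h1
  · have h2 : a ∈ IsLocalRing.maximalIdeal ℤ_[2] := by
      rw [← PadicInt.ker_toZMod]; exact h1
    rw [PadicInt.maximalIdeal_eq_span_p, Ideal.mem_span_singleton] at h2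
    obtain ⟨b, hb⟩ := h2
    exact ⟨b, Or.inl ⟨by rw [hb]; push_cast; ring, h1⟩⟩
  · have h2 : a - 1 ∈ IsLocalRing.maximalIdeal ℤ_[2] := by
      rw [← PadicInt.ker_toZMod, RingHom.mem_ker, map_sub, h1, map_one, sub_self]
    rw [PadicInt.maximalIdeal_eq_span_p, Ideal.mem_span_singleton] at h2
    obtain ⟨b, hb⟩ := h2
    exact ⟨b, Or.inr ⟨by rw [← sub_eq_iff_eq_add', hb]; push_cast; ring, h1⟩⟩

theorem ThL.smul {φ : Lm N} {F : G → ZMod 2} (h : ThL pt φ F) (a : ℤ_[2]) :
    ThL pt (a • φ) (PadicInt.toZMod a • F) := by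
  obtain ⟨b, ⟨hb, h0⟩ | ⟨hb, h0⟩⟩ := padic_two a
  · rw [h0, zero_smul, hb, mul_smul]
    exact ThL.two_smul _
  · rw [h0, one_smul, hb, add_smul, one_smul, mul_smul]
    have := h.add (ThL.two_smul (pt := pt) (b • φ))
    rwa [add_zero] at this

theorem ThL.sum {ι : Type*} (s : Finset ι) (φ : ι → Lm N) (F : ι → G → ZMod 2)
    (h : ∀ i ∈ s, ThL pt (φ i) (F i)) : ThL pt (∑ i ∈ s, φ i) (∑ i ∈ s, F i) := by
  classical
  induction s using Finset.induction_on with
  | empty =>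
    rw [Finset.sum_empty, Finset.sum_empty]
    exact ThL.zero
  | insert i s hi ih =>
    rw [Finset.sum_insert hi, Finset.sum_insert hi]
    exact (h i (Finset.mem_insert_self i s)).add (ih fun j hj => h j (Finset.mem_insert_of_mem hj))

/-- polynomials in Hecke operators -/
theorem ThL.poly
    (hρ : ∀ i φ F, ThL pt φ F → ThL pt (ρ (MvPolynomial.X i) φ) (T i F))
    (r : MvPolynomial σ ℤ_[2]) : ∀ (φ : Lm N) (F : G → ZMod 2), ThL pt φ F →
      ThL pt (ρ r φ) (ev T hT r F) := by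
  induction r using MvPolynomial.induction_on with
  | C c =>
    intro φ F h
    have h1 : ρ (MvPolynomial.C c) φ = c • φ := by
      have : ρ (MvPolynomial.C c) = algebraMap ℤ_[2] _ c := ρ.commutes c
      rw [this]
      rfl
    rw [h1, ev_C]
    exact h.smul c
  | add p q hp hq =>
    intro φ F h
    rw [map_add, map_add, LinearMap.add_apply, LinearMap.add_apply]
    exact (hp φ F h).add (hq φ F h)
  | mul_X p i hp =>
    intro φ F h
    rw [map_mul, map_mul, Module.End.mul_apply, Module.End.mul_apply, ev_X]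
    exact hp _ _ (hρ i φ F h)

include hpt in
theorem ThL.sub_w {w : Lm N →+ Lm N} (hw : IsW (exDiv_self N) w) (ψ : Lm N) :
    ThL pt (ψ - w ψ) 0 := by
  have h1 : pjn N 1 (ψ - w ψ) = pjn N 1 ψ + frk N • pjn N 1 ψ := by
    rw [map_sub, hw, sub_eq_add_neg, add_right_inj]
    have h2 : (2 : ℕ) • (frk N • pjn N 1 ψ) = 0 := by
      have h3 : (2 : ℕ) • pjn N 1 ψ = 0 := by
        have := (latData N).pow_pj 1 ψ
        rwa [pow_one] at this
      have h4 : (2 : ℕ) • wJ (exDiv_self N) (pjn N 1 ψ) = wJ (exDiv_self N) ((2 : ℕ) • pjn N 1 ψ) :=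
        (map_nsmul _ _ _).symm
      rw [h3, map_zero] at h4
      exact h4
    rw [two_nsmul] at h2
    exact neg_eq_of_add_eq_zero_left h2
  rw [ThL, h1]
  exact IsTh.norm hpt _

end Th

end Fermat.Agent.ZAL
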