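import Fermat.Agent.ZAL.CuspFix

/-!
# Fixed points of Atkin-Lehner involutions
-/

set_option autoImplicit false
set_option linter.unusedSectionVars false
set_option linter.style.haveILetI false

noncomputable section

open UpperHalfPlane Function ModularCurve Filter ModularForm AlgebraicCurve WithZero
  CongruenceSubgroup
open scoped Manifold MatrixGroups Topology ModularForm

namespace Fermat.Agent.ZAL

open Fermat.Agent.X0Places Fermat.Agent.FunField Fermat.Agent.FunField.PlaceLemmas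
open Fermat.Agent.TorsCmp Fermat.Agent.GalJ
open AlgebraicCurve.SemilinearAut
open Matrix.SpecialLinearGroup (mapGL)

/-- integral matrices of Atkin-Lehner type and trace zero -/
structure IsAL (d M : ℕ) (A : Matrix (Fin 2) (Fin 2) ℤ) : Prop where
  tr : A 0 0 + A 1 1 = 0
  det : A.det = d
  d0 : (d : ℤ) ∣ A 0 0
  m1 : (M : ℤ) ∣ A 1 0

/-- `A` fixes `σ` -/
def Fixes (A : Matrix (Fin 2) (Fin 2) ℤ) (σ : ℍ) : Prop :=
  (A 1 0 : ℂ) * (σ : ℂ) ^ 2 + ((A 1 1 : ℂ) - A 0 0) * σ - A 0 1 = 0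

theorem fixes_of_smul {A : Matrix (Fin 2) (Fin 2) ℤ} (h : 0 < A.det) {σ : ℍ}
    (hs : glZ A h • σ = σ) : Fixes A σ := by
  have h1 : ((glZ A h • σ : ℍ) : ℂ) = σ := by rw [hs]
  rw [coe_glZ_smul, div_eq_iff (denom_glZ A h σ)] at h1
  rw [Fixes]
  linear_combination -h1

theorem smul_of_fixes {A : Matrix (Fin 2) (Fin 2) ℤ} (h : 0 < A.det) {σ : ℍ}
    (hs : Fixes A σ) : glZ A h • σ = σ := by
  apply UpperHalfPlane.ext
  rw [coe_glZ_smul, div_eq_iff (denom_glZ A h σ)]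
  rw [Fixes] at hs
  linear_combination -hs

theorem Fixes.neg {A : Matrix (Fin 2) (Fin 2) ℤ} {σ : ℍ} (h : Fixes A σ) : Fixes (-A) σ := by
  rw [Fixes] at h ⊢
  simp only [Matrix.neg_apply, Int.cast_neg]
  linear_combination -h

theorem IsAL.neg {d M : ℕ} {A : Matrix (Fin 2) (Fin 2) ℤ} (h : IsAL d M A) : IsAL d M (-A) where
  tr := by
    have := h.tr
    simp only [Matrix.neg_apply]
    omega
  det := by
    rw [Matrix.det_neg]
    simp [h.det]
  d0 := by simpa using h.d0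
  m1 := by simpa using h.m1

/-- real and imaginary part of the fixed point -/
theorem Fixes.re_im {A : Matrix (Fin 2) (Fin 2) ℤ} {σ : ℍ} (h : Fixes A σ)
    (h10 : A 1 0 ≠ 0) : 2 * (A 1 0 : ℝ) * σ.re = (A 0 0 : ℝ) - A 1 1 ∧
      4 * (A 1 0 : ℝ) ^ 2 * σ.im ^ 2 = 4 * (A.det : ℝ) - ((A 0 0 : ℝ) + A 1 1) ^ 2 := by
  have h10' : (A 1 0 : ℝ) ≠ 0 := by exact_mod_cast h10
  have him := σ.im_pos
  rw [Fixes] at h
  have hre := congrArg Complex.re h
  have hI := congrArg Complex.im h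
  simp only [Complex.add_re, Complex.sub_re, Complex.mul_re, Complex.add_im, Complex.sub_im,
    Complex.mul_im, Complex.intCast_re, Complex.intCast_im, pow_two, Complex.zero_re,
    Complex.zero_im, UpperHalfPlane.coe_re, UpperHalfPlane.coe_im] at hre hI
  have h1 : 2 * (A 1 0 : ℝ) * σ.re = (A 0 0 : ℝ) - A 1 1 := by
    have h2 : σ.im * (2 * (A 1 0 : ℝ) * σ.re - ((A 0 0 : ℝ) - A 1 1)) = 0 := by
      linear_combination hI
    rcases mul_eq_zero.1 h2 with h3 | h3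
    · exact absurd h3 him.ne'
    · linear_combination h3
  refine ⟨h1, ?_⟩
  have hdet : (A.det : ℝ) = (A 0 0 : ℝ) * A 1 1 - A 0 1 * A 1 0 := by
    rw [Matrix.det_fin_two]
    push_cast
    ring
  rw [hdet]
  linear_combination -4 * (A 1 0 : ℝ) * hre + (2 * (A 1 0 : ℝ) * σ.re + ((A 1 1 : ℝ) - A 0 0)) * h1

theorem IsAL.ne_zero {d M : ℕ} (hd : 0 < d) {A : Matrix (Fin 2) (Fin 2) ℤ} (h : IsAL d M A) :
    A 1 0 ≠ 0 := by
  intro h0
  have h1 := h.det
  rw [Matrix.det_fin_two, h0] at h1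
  have h2 := h.tr
  have h3 : A 1 1 = - A 0 0 := by omega
  rw [h3] at h1
  have h4 : (0 : ℤ) < d := by exact_mod_cast hd
  nlinarith [sq_nonneg (A 0 0)]

/-- uniqueness of the matrix -/
theorem IsAL.unique {d M M' : ℕ} (hd : 0 < d) {A B : Matrix (Fin 2) (Fin 2) ℤ} (hA : IsAL d M A)
    (hB : IsAL d M' B) {σ : ℍ} (fA : Fixes A σ) (fB : Fixes B σ) (pA : 0 < A 1 0)
    (pB : 0 < B 1 0) : A = B := by
  obtain ⟨a1, a2⟩ := fA.re_im (hA.ne_zero hd)
  obtain ⟨b1, b2⟩ := fB.re_im (hB.ne_zero hd)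
  have ta : (A 1 1 : ℝ) = - A 0 0 := by
    have := hA.tr
    have h1 : A 1 1 = - A 0 0 := by omega
    rw [h1]; push_cast; ring
  have tb : (B 1 1 : ℝ) = - B 0 0 := by
    have := hB.tr
    have h1 : B 1 1 = - B 0 0 := by omega
    rw [h1]; push_cast; ring
  rw [ta] at a1 a2
  rw [tb] at b1 b2
  rw [hA.det] at a2
  rw [hB.det] at b2
  have him := σ.im_pos
  have e1 : (A 1 0 : ℝ) ^ 2 * σ.im ^ 2 = (B 1 0 : ℝ) ^ 2 * σ.im ^ 2 := by linarith
  have e2 : (A 1 0 : ℝ) ^ 2 = (B 1 0 : ℝ) ^ 2 := mul_right_cancel₀ (pow_ne_zero 2 him.ne') e1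
  have pA' : (0 : ℝ) < A 1 0 := by exact_mod_cast pA
  have pB' : (0 : ℝ) < B 1 0 := by exact_mod_cast pB
  have e3 : (A 1 0 : ℝ) = B 1 0 := by
    rw [pow_left_inj₀ pA'.le pB'.le two_ne_zero] at e2
    exact e2
  have e4 : (A 0 0 : ℝ) = B 0 0 := by
    rw [e3] at a1
    linarith
  have f3 : A 1 0 = B 1 0 := by exact_mod_cast e3
  have f4 : A 0 0 = B 0 0 := by exact_mod_cast e4
  have f5 : A 1 1 = B 1 1 := by
    have h1 := hA.tr
    have h2 := hB.tr
    omega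
  have f6 : A 0 1 = B 0 1 := by
    have h1 := hA.det
    have h2 := hB.det
    rw [Matrix.det_fin_two] at h1 h2
    rw [f3, f4, f5] at h1
    have h3 : (A 0 1 - B 0 1) * B 1 0 = 0 := by linear_combination h2 - h1
    rcases mul_eq_zero.1 h3 with h4 | h4
    · omega
    · omega
  ext i j
  fin_cases i <;> fin_cases j
  · exact f4
  · exact f6
  · exact f3
  · exact f5

/-- a fixed matrix in `SL₂(ℤ)` with trace `t` forces `(4 - t²) d` to be a square -/
theorem IsAL.rel {d M : ℕ} (hd : 0 < d) {A B : Matrix (Fin 2) (Fin 2) ℤ} (hA : IsAL d M A)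
    {σ : ℍ} (fA : Fixes A σ) (hB : B.det = 1) (fB : Fixes B σ) (hB0 : B 1 0 ≠ 0) :
    4 * (B 1 0) ^ 2 * d = (4 - (B 0 0 + B 1 1) ^ 2) * (A 1 0) ^ 2 := by
  obtain ⟨a1, a2⟩ := fA.re_im (hA.ne_zero hd)
  obtain ⟨b1, b2⟩ := fB.re_im hB0
  have ta : (A 1 1 : ℝ) = - A 0 0 := by
    have := hA.tr
    have h1 : A 1 1 = - A 0 0 := by omega
    rw [h1]; push_cast; ring
  rw [ta, hA.det] at a2
  rw [hB] at b2
  have him := σ.im_pos
  have e1 : (A 1 0 : ℝ) ^ 2 * σ.im ^ 2 = d := by push_cast at a2; linarith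
  have e2 : σ.im ^ 2 * (4 * (B 1 0 : ℝ) ^ 2 * d) =
      σ.im ^ 2 * ((4 - ((B 0 0 : ℝ) + B 1 1) ^ 2) * (A 1 0 : ℝ) ^ 2) := by
    push_cast at b2
    linear_combination (d : ℝ) * b2 - (4 - ((B 0 0 : ℝ) + B 1 1) ^ 2) * e1
  have e3 := mul_left_cancel₀ (pow_ne_zero 2 him.ne') e2
  exact_mod_cast e3

theorem isSquare_of_mul {b a : ℤ} {d : ℕ} (hb : b ≠ 0) (h : b ^ 2 * d = a ^ 2) : IsSquare d := by
  have h1 : b ^ 2 ∣ a ^ 2 := ⟨d, h.symm⟩
  rw [Int.pow_dvd_pow_iff two_ne_zero] at h1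
  obtain ⟨k, rfl⟩ := h1
  have h2 : (d : ℤ) = k ^ 2 := by
    have h3 : b ^ 2 * (d : ℤ) = b ^ 2 * k ^ 2 := by rw [h]; ring
    exact mul_left_cancel₀ (pow_ne_zero 2 hb) h3
  refine ⟨k.natAbs, ?_⟩
  have h4 : ((k.natAbs * k.natAbs : ℕ) : ℤ) = d := by
    rw [h2]; push_cast; rw [← pow_two, sq_abs]
  exact_mod_cast h4.symm

/-- fixed points of trace zero matrices of determinant `d` are not elliptic -/
theorem IsAL.generic {d M : ℕ} (hd : 0 < d) (h1 : ¬ IsSquare d) (h3 : ¬ IsSquare (3 * d))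
    {A : Matrix (Fin 2) (Fin 2) ℤ} (hA : IsAL d M A) {σ : ℍ} (fA : Fixes A σ) :
    Fermat.Agent.JInv.jInv σ ≠ 0 ∧ Fermat.Agent.JInv.jInv σ ≠ 1728 := by
  -- a fixing element of `SL₂(ℤ)`
  have key : ∀ (τ : ℍ) (g : SL(2, ℤ)), g • τ = τ → Fermat.Agent.JInv.jInv τ =
      Fermat.Agent.JInv.jInv σ → (g 0 0 + g 1 1) ^ 2 < 4 →
      ∃ b a : ℤ, b ≠ 0 ∧ 4 * b ^ 2 * d = (4 - (g 0 0 + g 1 1) ^ 2) * a ^ 2 := by
    intro τ g hg hj hlt
    obtain ⟨k, hk⟩ := Fermat.Agent.JInv.jInv_eq_iff.1 hj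
    set B : Matrix (Fin 2) (Fin 2) ℤ := ((k * g * k⁻¹ : SL(2, ℤ)) : Matrix (Fin 2) (Fin 2) ℤ)
    have hBdet : B.det = 1 := (k * g * k⁻¹).det_coe
    have fB : Fixes B σ := by
      apply fixes_of_smul (det_SL_pos _)
      rw [← mapGL_eq]
      show (k * g * k⁻¹ : SL(2, ℤ)) • σ = σ
      rw [mul_smul, mul_smul, ← hk, inv_smul_smul, hg]
    have htr : B 0 0 + B 1 1 = g 0 0 + g 1 1 := by
      have h5 : B.trace = (g : Matrix (Fin 2) (Fin 2) ℤ).trace := by
        show ((k * g * k⁻¹ : SL(2, ℤ)) : Matrix (Fin 2) (Fin 2) ℤ).trace = _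
        rw [Matrix.SpecialLinearGroup.coe_mul, Matrix.SpecialLinearGroup.coe_mul,
          Matrix.mul_assoc, Matrix.trace_mul_comm, Matrix.mul_assoc,
          ← Matrix.SpecialLinearGroup.coe_mul, inv_mul_cancel,
          Matrix.SpecialLinearGroup.coe_one, Matrix.mul_one]
      rw [Matrix.trace_fin_two, Matrix.trace_fin_two] at h5
      exact h5
    have hB0 : B 1 0 ≠ 0 := by
      intro h0
      rw [Matrix.det_fin_two, h0, mul_zero, sub_zero] at hBdet
      rw [← htr] at hlt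
      rcases Int.mul_eq_one_iff_eq_one_or_neg_one.1 hBdet with ⟨h5, h6⟩ | ⟨h5, h6⟩
      · rw [h5, h6] at hlt
        norm_num at hlt
      · rw [h5, h6] at hlt
        norm_num at hlt
    refine ⟨B 1 0, A 1 0, hB0, ?_⟩
    rw [← htr]
    exact hA.rel hd fA hBdet fB hB0
  constructor
  · intro h0
    obtain ⟨b, a, hb, hba⟩ := key Fermat.Agent.JInv.rho (ModularGroup.S * ModularGroup.T)
      ST_smul_rho (Fermat.Agent.JInv.jInv_rho.trans h0.symm) (by decide)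
    have h5 : (ModularGroup.S * ModularGroup.T) 0 0 + (ModularGroup.S * ModularGroup.T) 1 1 = 1 := by
      decide
    rw [h5] at hba
    apply h3
    apply isSquare_of_mul (b := 2 * b) (a := 3 * a) (mul_ne_zero two_ne_zero hb)
    push_cast
    linear_combination 3 * hba
  · intro h0
    obtain ⟨b, a, hb, hba⟩ := key UpperHalfPlane.I ModularGroup.S (by
        rw [UpperHalfPlane.modular_S_smul]
        apply UpperHalfPlane.ext
        simp) (Fermat.Agent.JInv.jInv_I.trans h0.symm) (by decide)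
    have h5 : ModularGroup.S 0 0 + ModularGroup.S 1 1 = 0 := by decide
    rw [h5] at hba
    apply h1
    apply isSquare_of_mul hb (a := a)
    linarith

/-- a matrix of Atkin-Lehner type at level `d q ∣ M` makes `-d` a square modulo `q` -/
theorem IsAL.isSquare {d M q : ℕ} (hd : 0 < d) (hq : q.Prime) (hdq : d * q ∣ M)
    {A : Matrix (Fin 2) (Fin 2) ℤ} (hA : IsAL d M A) : IsSquare (-(d : ZMod q)) := by
  have : Fact q.Prime := ⟨hq⟩
  obtain ⟨a, ha⟩ := hA.d0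
  obtain ⟨r, hr⟩ := hA.m1
  obtain ⟨m, hm⟩ := hdq
  have h1 := hA.det
  have h2 : A 1 1 = - A 0 0 := by have := hA.tr; omega
  rw [Matrix.det_fin_two, h2, ha, hr, hm] at h1
  push_cast at h1
  have hd' : (d : ℤ) ≠ 0 := by exact_mod_cast hd.ne'
  have h3 : -(d : ℤ) * a ^ 2 = 1 + q * (A 0 1 * m * r) := by
    have h4 : (d : ℤ) * (-(d : ℤ) * a ^ 2) = d * (1 + q * (A 0 1 * m * r)) := by
      linear_combination h1
    exact mul_left_cancel₀ hd' h4
  have h5 : -(d : ZMod q) * (a : ZMod q) ^ 2 = 1 := by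
    have := congrArg (Int.cast : ℤ → ZMod q) h3
    push_cast at this
    rw [ZMod.natCast_self, zero_mul, add_zero] at this
    exact this
  have ha0 : (a : ZMod q) ≠ 0 := by
    intro h0
    rw [h0] at h5
    simp at h5
  refine ⟨(a : ZMod q)⁻¹, ?_⟩
  field_simp
  linear_combination h5

variable {L : Type*} [Field L] [Algebra ℚ L] [IsAlgClosed L] {ι : L →+* ℂ}
variable {M : ℕ} [NeZero M] {d : ℕ}

/-- **Fixed places of `w_d`** -/
theorem exists_fix (h : ExDiv d M) (hd : 4 < d) (hsq : ¬ IsSquare d) {v : Place L (FF L M)}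
    (hv : wS ι h • v = v) :
    ∃ (σ : ℍ) (A : Matrix (Fin 2) (Fin 2) ℤ), IsPt ι σ v ∧ IsAL d M A ∧ 0 < A 1 0 ∧ Fixes A σ := by
  have hcusp : 0 ≤ v.ord (jF L M) := by
    by_contra hlt
    push Not at hlt
    exact smul_ne_of_cusp ι h hsq v hlt hv
  obtain ⟨σ, hσ⟩ := exists_isPt ι v hcusp
  have h1 := hσ.w h
  rw [hv] at h1
  obtain ⟨γ, hγ, hγσ⟩ := h1.orbit hσ
  set B : Matrix (Fin 2) (Fin 2) ℤ := (γ : Matrix (Fin 2) (Fin 2) ℤ) * h.mat with hB
  have hBdet : B.det = d := by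
    rw [hB, Matrix.det_mul, γ.det_coe, h.mat_det, one_mul]
  have hBpos : 0 < B.det := by rw [hBdet]; exact_mod_cast (by omega : 0 < d)
  have fB : Fixes B σ := by
    apply fixes_of_smul hBpos
    have h2 : glZ B hBpos = mapGL ℝ γ * h.gl := by
      rw [mapGL_eq, ExDiv.gl, glZ_mul]
    rw [h2, mul_smul]
    exact hγσ
  have e00 : h.mat 0 0 = (d : ℤ) := rfl
  have e10 : h.mat 1 0 = (M : ℤ) := rfl
  obtain ⟨e, he⟩ : ∃ e : ℤ, h.mat 1 1 = d * e := ⟨_, rfl⟩
  obtain ⟨r, hr⟩ := mem_Gamma0_iff.1 hγ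
  have b00 : B 0 0 = γ 0 0 * d + γ 0 1 * M := by
    rw [hB, Matrix.mul_apply, Fin.sum_univ_two, e00, e10]
  have b10 : B 1 0 = M * (r * d + γ 1 1) := by
    rw [hB, Matrix.mul_apply, Fin.sum_univ_two, e00, e10, hr]
    ring
  have b11 : B 1 1 = M * r * h.mat 0 1 + γ 1 1 * (d * e) := by
    rw [hB, Matrix.mul_apply, Fin.sum_univ_two, he, hr]
  have hdM : (d : ℤ) ∣ M := by exact_mod_cast h.dvd
  have d00 : (d : ℤ) ∣ B 0 0 := by
    rw [b00]
    exact dvd_add (dvd_mul_left _ _) (hdM.mul_left _)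
  have d11 : (d : ℤ) ∣ B 1 1 := by
    rw [b11]
    exact dvd_add ((hdM.mul_right _).mul_right _) (Dvd.intro (γ 1 1 * e) (by ring))
  have hB10 : B 1 0 ≠ 0 := by
    intro h0
    have h2 := fB
    rw [Fixes, h0] at h2
    have him := σ.im_pos
    have hI := congrArg Complex.im h2
    simp only [Complex.add_im, Complex.sub_im, Complex.mul_im, Complex.intCast_re,
      Complex.intCast_im, pow_two, Complex.zero_im, Int.cast_zero, Complex.zero_re,
      UpperHalfPlane.coe_im, UpperHalfPlane.coe_re, Complex.sub_re] at hI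
    have h3 : ((B 1 1 : ℝ) - B 0 0) * σ.im = 0 := by linear_combination hI
    have h4 : (B 1 1 : ℝ) = B 0 0 := by
      rcases mul_eq_zero.1 h3 with h5 | h5
      · linarith
      · exact absurd h5 him.ne'
    have h5 : B 1 1 = B 0 0 := by exact_mod_cast h4
    rw [Matrix.det_fin_two, h0, h5] at hBdet
    apply hsq
    apply isSquare_of_mul (b := 1) (a := B 0 0) one_ne_zero
    linear_combination -hBdet
  have htr : B 0 0 + B 1 1 = 0 := by
    obtain ⟨t, ht⟩ := dvd_add d00 d11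
    have h2 := (fB.re_im hB10).2
    have h3 : (0 : ℝ) < 4 * (B 1 0 : ℝ) ^ 2 * σ.im ^ 2 := by
      have h4 : (B 1 0 : ℝ) ≠ 0 := by exact_mod_cast hB10
      have him := σ.im_pos
      positivity
    rw [h2, hBdet] at h3
    have h4 : (B 0 0 + B 1 1) ^ 2 < 4 * d := by
      have h5 : (((B 0 0 + B 1 1) ^ 2 : ℤ) : ℝ) < ((4 * d : ℤ) : ℝ) := by
        push_cast at h3 ⊢
        linarith
      exact_mod_cast h5
    rw [ht] at h4 ⊢
    have hd' : (4 : ℤ) < d := by exact_mod_cast hd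
    by_contra hne
    have ht0 : t ≠ 0 := by
      rintro rfl
      exact hne (mul_zero _)
    have ht2 : 1 ≤ t ^ 2 := by
      have : 0 < t ^ 2 := by positivity
      omega
    have e1 : (d : ℤ) * d * 1 ≤ (d : ℤ) * d * t ^ 2 :=
      mul_le_mul_of_nonneg_left ht2 (by positivity)
    have e2 : (4 : ℤ) * d < d * d := mul_lt_mul_of_pos_right hd' (by omega)
    have e3 : ((d : ℤ) * t) ^ 2 = d * d * t ^ 2 := by ring
    rw [e3] at h4
    linarith
  have hAL : IsAL d M B := ⟨htr, hBdet, d00, by rw [b10]; exact dvd_mul_right _ _⟩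
  rcases lt_or_gt_of_ne hB10 with h2 | h2
  · exact ⟨σ, -B, hσ, hAL.neg, by simp only [Matrix.neg_apply]; omega, fB.neg⟩
  · exact ⟨σ, B, hσ, hAL, h2, fB⟩

/-- no fixed places of `w_d` at level `M` if `-d` is not a square modulo a prime dividing `M/d` -/
theorem smul_ne_of_not_isSquare (h : ExDiv d M) (hd : 4 < d) (hsq : ¬ IsSquare d) {q : ℕ}
    (hq : q.Prime) (hdq : d * q ∣ M) (hns : ¬ IsSquare (-(d : ZMod q))) (v : Place L (FF L M)) :
    wS ι h • v ≠ v := by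
  intro hv
  obtain ⟨σ, A, -, hA, -, -⟩ := exists_fix h hd hsq hv
  exact hns (hA.isSquare (by omega) hq hdq)

end Fermat.Agent.ZAL
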