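import Mathlib.NumberTheory.Padics.RingHoms
import Mathlib.LinearAlgebra.FreeModule.PID
import Mathlib.LinearAlgebra.Dimension.Finrank
import Mathlib.LinearAlgebra.Dimension.Finite

/-!
# Ranks of the eigenspaces of an involution on a `ℤ₂`-lattice
-/

set_option autoImplicit false

noncomputable section

namespace Fermat.Agent.ZAL

variable {Λ : Type*} [AddCommGroup Λ] [Module ℤ_[2] Λ]

theorem eq_zero_of_forall_two_pow_dvd (c : ℤ_[2]) (h : ∀ n : ℕ, (2 : ℤ_[2]) ^ n ∣ c) : c = 0 := by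
  refine PadicInt.ext_of_toZModPow.mp fun n => ?_
  rw [map_zero]
  rw [← RingHom.mem_ker, PadicInt.ker_toZModPow, Ideal.mem_span_singleton]
  exact_mod_cast h n

theorem two_ne_zero' : (2 : ℤ_[2]) ≠ 0 := by
  have := (Fact.out : Nat.Prime 2).ne_zero
  exact_mod_cast (Nat.cast_ne_zero (R := ℤ_[2])).2 this

/-- families independent modulo two are independent -/
theorem linearIndependent_of_mod_two (hΛ : ∀ x : Λ, (2 : ℤ_[2]) • x = 0 → x = 0) {κ : Type*}
    [Fintype κ] (f : κ → Λ)
    (h : ∀ (c : κ → ℤ_[2]) (y : Λ), ∑ k, c k • f k = (2 : ℤ_[2]) • y → ∀ k, (2 : ℤ_[2]) ∣ c k) :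
    LinearIndependent ℤ_[2] f := by
  rw [Fintype.linearIndependent_iff]
  intro c hc
  have key : ∀ n : ℕ, ∀ k, (2 : ℤ_[2]) ^ n ∣ c k := by
    intro n
    induction n with
    | zero => intro k; simp
    | succ n ih =>
      choose d hd using ih
      have h1 : (2 : ℤ_[2]) ^ n • ∑ k, d k • f k = 0 := by
        rw [Finset.smul_sum, ← hc]
        refine Finset.sum_congr rfl fun k _ => ?_
        rw [smul_smul, ← hd]
      have h2 : ∀ m : ℕ, ∀ x : Λ, (2 : ℤ_[2]) ^ m • x = 0 → x = 0 := by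
        intro m
        induction m with
        | zero => intro x hx; simpa using hx
        | succ m ih =>
          intro x hx
          apply hΛ
          apply ih
          rw [smul_smul, ← pow_succ, hx]
      have h3 := h d 0 (by rw [h2 _ _ h1, smul_zero])
      intro k
      rw [hd k, pow_succ]
      exact mul_dvd_mul_left _ (h3 k)
  intro k
  exact eq_zero_of_forall_two_pow_dvd _ fun n => key n k

/-- **Ranks of the eigenspaces of an involution.** -/
theorem herb [Module.Finite ℤ_[2] Λ] [Module.IsTorsionFree ℤ_[2] Λ]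
    (w : Module.End ℤ_[2] Λ) (hw : ∀ x, w (w x) = x) (L : Submodule ℤ_[2] Λ)
    (hL : ∀ x ∈ L, w x ∈ L) (P Q : Submodule ℤ_[2] Λ) (hP : ∀ x, x ∈ P ↔ x ∈ L ∧ w x = x)
    (hQ : ∀ x, x ∈ Q ↔ x ∈ L ∧ w x = -x) (h0 : ∀ x ∈ P, ∃ y ∈ L, x = y + w y)
    {κ : Type*} [Fintype κ] (f : κ → Λ) (hf : ∀ k, f k ∈ Q)
    (hind : ∀ (c : κ → ℤ_[2]), ∀ y ∈ L, ∑ k, c k • f k = y - w y → ∀ k, (2 : ℤ_[2]) ∣ c k) :
    Fintype.card κ + Module.finrank ℤ_[2] P ≤ Module.finrank ℤ_[2] Q := by
  have hΛ : ∀ x : Λ, (2 : ℤ_[2]) • x = 0 → x = 0 := fun x hx =>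
    (smul_eq_zero.1 hx).resolve_left two_ne_zero'
  have hPfree : Module.Free ℤ_[2] P := inferInstance
  let b := Module.finBasis ℤ_[2] P
  let r := Module.finrank ℤ_[2] P
  choose ψ hψL hψ using fun j : Fin r => h0 (b j) (b j).2
  have hgQ : ∀ j, ψ j - w (ψ j) ∈ Q := by
    intro j
    rw [hQ]
    refine ⟨L.sub_mem (hψL j) (hL _ (hψL j)), ?_⟩
    rw [map_sub, hw, neg_sub]
  let F : κ ⊕ Fin r → Q := Sum.elim (fun k => ⟨f k, hf k⟩) (fun j => ⟨ψ j - w (ψ j), hgQ j⟩)
  have hlin : LinearIndependent ℤ_[2] F := by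
    refine linearIndependent_of_mod_two (fun x hx => ?_) F fun c y hcy => ?_
    · apply Subtype.ext
      apply hΛ
      have := congrArg Subtype.val hx
      exact this
    · obtain ⟨y, hy⟩ := y
      have hwy : w y = -y := ((hQ y).1 hy).2
      have hyL : y ∈ L := ((hQ y).1 hy).1
      have e1 : ∑ k, c (Sum.inl k) • f k + ∑ j, c (Sum.inr j) • (ψ j - w (ψ j)) =
          (2 : ℤ_[2]) • y := by
        have h1 := congrArg Subtype.val hcy
        rw [Fintype.sum_sum_type] at h1
        simpa [F] using h1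
      set Ψ : Λ := ∑ j, c (Sum.inr j) • ψ j with hΨ
      have hΨL : Ψ ∈ L := L.sum_mem fun j _ => L.smul_mem _ (hψL j)
      have e2 : ∑ j, c (Sum.inr j) • (ψ j - w (ψ j)) = Ψ - w Ψ := by
        rw [hΨ, map_sum, ← Finset.sum_sub_distrib]
        refine Finset.sum_congr rfl fun j _ => ?_
        rw [smul_sub, map_smul]
      rw [e2] at e1
      have e3 : ∑ k, c (Sum.inl k) • f k = (y - Ψ) - w (y - Ψ) := by
        rw [map_sub, hwy]
        rw [two_smul] at e1
        have : ∑ k, c (Sum.inl k) • f k = y + y - (Ψ - w Ψ) := by rw [← e1]; abel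
        rw [this]
        abel
      have h4 := hind (fun k => c (Sum.inl k)) (y - Ψ) (L.sub_mem hyL hΨL) e3
      choose d hd using h4
      set z : Λ := ∑ k, d k • f k with hz
      have hzQ : z ∈ Q := Q.sum_mem fun k _ => Q.smul_mem _ (hf k)
      have hwz : w z = -z := ((hQ z).1 hzQ).2
      have e4 : ∑ k, c (Sum.inl k) • f k = (2 : ℤ_[2]) • z := by
        rw [hz, Finset.smul_sum]
        refine Finset.sum_congr rfl fun k _ => ?_
        rw [hd k, mul_smul]
      rw [e4] at e1
      -- `Ψ - w Ψ = 2 (y - z)`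
      set χ : Λ := y - z with hχ
      have hwχ : w χ = -χ := by rw [hχ, map_sub, hwy, hwz]; abel
      have e5 : Ψ - w Ψ = (2 : ℤ_[2]) • χ := by rw [hχ, smul_sub, ← e1]; abel
      have hη : w (Ψ - χ) = Ψ - χ := by
        rw [map_sub, hwχ, sub_neg_eq_add]
        rw [two_smul] at e5
        have : w Ψ = Ψ - (χ + χ) := by rw [← e5]; abel
        rw [this]
        abel
      have hηP : Ψ - χ ∈ P := by
        rw [hP]
        refine ⟨L.sub_mem hΨL (L.sub_mem hyL ((hQ z).1 hzQ).1), hη⟩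
      have e6 : Ψ + w Ψ = (2 : ℤ_[2]) • (Ψ - χ) := by
        have : w Ψ = Ψ - (χ + χ) := by rw [← two_smul ℤ_[2] χ, ← e5]; abel
        rw [this, two_smul]
        abel
      have e7 : ∑ j, c (Sum.inr j) • b j = (2 : ℤ_[2]) • (⟨Ψ - χ, hηP⟩ : P) := by
        apply Subtype.ext
        have h5 : ((∑ j, c (Sum.inr j) • b j : P) : Λ) = ∑ j, c (Sum.inr j) • (ψ j + w (ψ j)) := by
          rw [Submodule.coe_sum]
          refine Finset.sum_congr rfl fun j _ => ?_
          rw [Submodule.coe_smul, hψ j]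
        rw [h5]
        change _ = (2 : ℤ_[2]) • (Ψ - χ)
        rw [← e6, hΨ, map_sum, ← Finset.sum_add_distrib]
        refine Finset.sum_congr rfl fun j _ => ?_
        rw [smul_add, map_smul]
      have h6 : ∀ j, (2 : ℤ_[2]) ∣ c (Sum.inr j) := by
        intro j
        have h7 := congrArg (fun v => b.repr v j) e7
        simp only [map_sum, map_smul, Module.Basis.repr_self, Finsupp.coe_finsetSum,
          Finset.sum_apply, Finsupp.smul_apply, smul_eq_mul] at h7
        rw [Finset.sum_eq_single j] at h7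
        · rw [Finsupp.single_eq_same, mul_one] at h7
          exact ⟨_, h7⟩
        · intro i _ hij
          rw [Finsupp.single_eq_of_ne hij.symm, mul_zero]
        · intro h; exact absurd (Finset.mem_univ j) h
      rintro (k | j)
      · exact ⟨d k, hd k⟩
      · exact h6 j
  have h8 := LinearIndependent.fintype_card_le_finrank hlin
  rw [Fintype.card_sum, Fintype.card_fin] at h8
  exact h8

end Fermat.Agent.ZAL
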