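import Fermat.Agent.Tsen.Norm
import Fermat.Agent.Degen.Pic
import Fermat.Agent.BaseChangeFF.Divisible
import Fermat.Agent.TorsInj.S18Core

/-!
# Involutions of function fields: invariant divisor classes
-/

set_option autoImplicit false
set_option linter.unusedSectionVars false
set_option linter.style.haveILetI false

noncomputable section

open AlgebraicCurve AlgebraicCurve.SemilinearAut

namespace Fermat.Agent.ZAL

open Fermat.Agent.FunField Fermat.Agent.FunField.PlaceLemmas

section Inv

variable {K F : Type*} [Field K] [Field F] [Algebra K F] [IsAlgClosed K] [CharZero K] [IsFF K F]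

/-- the semilinear automorphism -/
abbrev sl (w : F ≃ₐ[K] F) : SemilinearAut K F := SemilinearAut.ofAlgAut w

variable (w : F ≃ₐ[K] F) (hw : ∀ x, w (w x) = x)

include hw

theorem sl_mul_self : sl w * sl w = 1 := by
  rw [← map_mul]
  have : w * w = 1 := AlgEquiv.ext fun x => hw x
  rw [this, map_one]

theorem sl_inv : (sl w)⁻¹ = sl w := inv_eq_of_mul_eq_one_left (sl_mul_self w hw)

theorem sl_sl_place (v : Place K F) : sl w • sl w • v = v := by
  rw [← mul_smul, sl_mul_self w hw, one_smul]

theorem sl_sl_div (D : Divisor K F) : sl w • sl w • D = D := by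
  rw [← mul_smul, sl_mul_self w hw, one_smul]

theorem sl_sl_pic (x : Pic0 K F) : sl w • sl w • x = x := by
  rw [← mul_smul, sl_mul_self w hw, one_smul]

theorem sl_div_apply (D : Divisor K F) (v : Place K F) : (sl w • D) v = D (sl w • v) := by
  rw [divisor_smul_apply, sl_inv w hw]

theorem sl_ord (v : Place K F) (f : F) : (sl w • v).ord f = v.ord (w f) := by
  have h := SemilinearAut.ord_smul (sl w) v (w f)
  rw [SemilinearAut.ofAlgAut_smul, hw] at h
  exact h

theorem divOf_w (f : F) : divOf (w f) = sl w • (divOf f : Divisor K F) := by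
  ext v
  rw [sl_div_apply w hw, divOf_apply, divOf_apply, sl_ord w hw]

omit hw in
theorem divOf_mul' {f g : F} (hf : f ≠ 0) (hg : g ≠ 0) :
    (divOf (f * g) : Divisor K F) = divOf f + divOf g := by
  ext v
  rw [Finsupp.add_apply, divOf_apply, divOf_apply, divOf_apply, v.ord_mul hf hg]

omit hw in
theorem divOf_inv' (f : F) : (divOf f⁻¹ : Divisor K F) = - divOf f := by
  ext v
  rw [Finsupp.neg_apply, divOf_apply, divOf_apply, Place.ord_inv]

omit hw in
/-- functions with the same divisor are proportional -/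
theorem exists_const_of_divOf_eq {f g : F} (hf : f ≠ 0) (hg : g ≠ 0)
    (h : (divOf f : Divisor K F) = divOf g) : ∃ c : K, c ≠ 0 ∧ f = algebraMap K F c * g := by
  have h1 : ∀ v : Place K F, 0 ≤ v.ord (f / g) := by
    intro v
    rw [ord_div v hf hg]
    have := DFunLike.congr_fun h v
    rw [divOf_apply, divOf_apply] at this
    omega
  obtain ⟨c, hc⟩ := exists_eq_algebraMap_of_forall_ord_nonneg h1
  have h2 : f = algebraMap K F c * g := by rw [hc]; field_simp
  refine ⟨c, ?_, h2⟩
  rintro rfl
  rw [map_zero, zero_mul] at h2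
  exact hf h2

omit hw in
theorem exists_sqrt (c : K) : ∃ a : K, a ^ 2 = c := IsAlgClosed.exists_pow_nat_eq c two_pos

/-- Hilbert 90 -/
theorem hilbert90 (hne : ∃ x, w x ≠ x) {f : F} (hf : f * w f = 1) : ∃ h : F, h ≠ 0 ∧ f * w h = h := by
  have key : ∀ c, f * w (c + f * w c) = c + f * w c := by
    intro c
    rw [map_add, map_mul, hw]
    linear_combination c * hf
  by_contra hcon
  push Not at hcon
  have h0 : ∀ c, c + f * w c = 0 := by
    intro c
    by_contra hc
    exact hcon _ hc (key c)
  obtain ⟨x, hx⟩ := hne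
  have h1 := h0 1
  rw [map_one, mul_one] at h1
  have h2 := h0 x
  apply hx
  have h3 : f = -1 := by linear_combination h1
  rw [h3] at h2
  linear_combination -h2

/-- invariant divisor classes come from invariant divisors -/
theorem exists_invariant_div (hne : ∃ x, w x ≠ x) {x : Pic0 K F} (hx : sl w • x = x) :
    ∃ D : Divisor.degZero (K := K) (F := F), Pic0.mk D = x ∧
      sl w • (D : Divisor K F) = (D : Divisor K F) := by
  obtain ⟨D, rfl⟩ := Pic0.mk_surjective x
  have h1 : Pic0.mk (degZeroSMulHom (sl w) D - D) = 0 := by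
    have h2 : Pic0.mk (degZeroSMulHom (sl w) D - D) = Pic0.mk (degZeroSMulHom (sl w) D) - Pic0.mk D := rfl
    rw [h2, ← pic0_smul_mk, hx, sub_self]
  rw [Fermat.Agent.TorsInj.pic0_mk_eq_zero_iff] at h1
  obtain ⟨f, hf0, hf⟩ := h1
  have hfd : (divOf f : Divisor K F) = sl w • (D : Divisor K F) - D := by
    ext v
    rw [divOf_apply, ← hf v]
    rfl
  have hwf0 : w f ≠ 0 := by rwa [Ne, EmbeddingLike.map_eq_zero_iff]
  have h3 : (divOf (f * w f) : Divisor K F) = divOf (1 : F) := by
    rw [divOf_mul' hf0 hwf0, divOf_w w hw, hfd, smul_sub, sl_sl_div w hw]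
    have : (divOf (1 : F) : Divisor K F) = 0 := by
      ext v; rw [divOf_apply, Place.ord_one]; rfl
    rw [this]
    abel
  obtain ⟨c, hc0, hc⟩ := exists_const_of_divOf_eq (mul_ne_zero hf0 hwf0) one_ne_zero h3
  rw [mul_one] at hc
  obtain ⟨a, ha⟩ := exists_sqrt (K := K) c
  have ha0 : a ≠ 0 := by rintro rfl; apply hc0; rw [← ha]; ring
  have ha0' : algebraMap K F a ≠ 0 := by simpa using ha0
  obtain ⟨h, hh0, hh⟩ := hilbert90 w hw hne (f := f / algebraMap K F a) (by
    rw [map_div₀, AlgEquiv.commutes]
    field_simp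
    rw [hc, ← ha, map_pow])
  have hwh0 : w h ≠ 0 := by rwa [Ne, EmbeddingLike.map_eq_zero_iff]
  have h4 : (divOf f : Divisor K F) + sl w • divOf h = divOf h := by
    rw [← divOf_w w hw, ← divOf_mul' hf0 hwh0]
    have h5 : f * w h = algebraMap K F a * h := by
      rw [div_mul_eq_mul_div, div_eq_iff ha0'] at hh
      rw [hh, mul_comm]
    rw [h5, divOf_mul' ha0' hh0]
    have : (divOf (algebraMap K F a) : Divisor K F) = 0 := by
      ext v; rw [divOf_apply, ord_algebraMap]; rfl
    rw [this, zero_add]
  have hdeg : (D : Divisor K F) + divOf h ∈ Divisor.degZero (K := K) (F := F) := by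
    rw [Divisor.mem_degZero, map_add, degree_divOf, add_zero]
    exact D.2
  refine ⟨⟨(D : Divisor K F) + divOf h, hdeg⟩, ?_, ?_⟩
  · have h6 : Pic0.mk (⟨(D : Divisor K F) + divOf h, hdeg⟩ - D) = 0 := by
      rw [Fermat.Agent.TorsInj.pic0_mk_eq_zero_iff]
      refine ⟨h, hh0, fun v => ?_⟩
      rw [← divOf_apply]
      have h9 : ((⟨(D : Divisor K F) + divOf h, hdeg⟩ - D :
          Divisor.degZero (K := K) (F := F)) : Divisor K F) = divOf h := by
        show (D : Divisor K F) + divOf h - (D : Divisor K F) = _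
        rw [add_sub_cancel_left]
      rw [h9]
    have h7 : Pic0.mk (⟨(D : Divisor K F) + divOf h, hdeg⟩ - D) =
      Pic0.mk ⟨(D : Divisor K F) + divOf h, hdeg⟩ - Pic0.mk D := rfl
    rw [h7, sub_eq_zero] at h6
    exact h6
  · show sl w • ((D : Divisor K F) + divOf h) = (D : Divisor K F) + divOf h
    rw [smul_add]
    rw [hfd] at h4
    have h8 := h4
    rw [sub_add_eq_add_sub, sub_eq_iff_eq_add] at h8
    rw [h8, add_comm]

/-! ### orders at fixed places -/

omit hw in
theorem exists_value' (v : Place K F) {x : F} (hx : 0 ≤ v.ord x) :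
    ∃ a : K, x = algebraMap K F a ∨ 0 < v.ord (x - algebraMap K F a) := by
  by_cases h : IsAlgebraic K x
  · obtain ⟨c, hc⟩ := mem_range_algebraMap_of_isAlgebraic h
    exact ⟨c, Or.inl hc.symm⟩
  · obtain ⟨a, ha⟩ := Fermat.Agent.BaseChangeFF.exists_value v x hx h
    exact ⟨a, Or.inr ha⟩

theorem ord_ne_zero_of_neg {v : Place K F} (hv : sl w • v = v) {g : F} (hg0 : g ≠ 0)
    (hg : w g = -g) : v.ord g ≠ 0 := by
  have hcF : CharZero F := charZero_of_injective_algebraMap (algebraMap K F).injective
  intro h0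
  obtain ⟨a, ha⟩ := exists_value' v h0.ge
  have hne : g ≠ algebraMap K F a := by
    intro h
    rw [h, AlgEquiv.commutes] at hg
    have h2 : (2 : F) * algebraMap K F a = 0 := by linear_combination hg
    rcases mul_eq_zero.1 h2 with h3 | h3
    · exact two_ne_zero h3
    · exact hg0 (h.trans h3)
  have ha1 : 0 < v.ord (g - algebraMap K F a) := by
    rcases ha with ha | ha
    · exact absurd ha hne
    · exact ha
  have ha0 : a ≠ 0 := by
    rintro rfl
    rw [map_zero, sub_zero, h0] at ha1
    exact lt_irrefl _ ha1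
  have ha2 : 0 < v.ord (g + algebraMap K F a) := by
    have h1 := sl_ord w hw v (g - algebraMap K F a)
    rw [hv, map_sub, hg, AlgEquiv.commutes] at h1
    have h2 : -g - algebraMap K F a = -(g + algebraMap K F a) := by ring
    rw [h2, ord_neg] at h1
    rw [← h1]
    exact ha1
  have hne2 : g + algebraMap K F a ≠ 0 := by
    intro h
    rw [h, Place.ord_zero] at ha2
    exact lt_irrefl _ ha2
  have h3 : v.ord (algebraMap K F (2 * a)) = 0 := ord_algebraMap v _
  have h4 : algebraMap K F (2 * a) = (g + algebraMap K F a) + -(g - algebraMap K F a) := by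
    rw [map_mul, map_ofNat]; ring
  have h5 : algebraMap K F (2 * a) ≠ 0 := by
    simpa using ha0
  rw [h4] at h3 h5
  have h6 := min_ord_le_ord_add v hne2 (neg_ne_zero.2 (sub_ne_zero.2 hne)) h5
  rw [ord_neg, h3] at h6
  have := lt_min ha2 ha1
  omega

/-- a uniformizer which is anti-invariant -/
theorem exists_unif (hne : ∃ x, w x ≠ x) {v : Place K F} (hv : sl w • v = v) :
    ∃ t : F, t ≠ 0 ∧ w t = -t ∧ v.ord t = 1 := by
  have hcF : CharZero F := charZero_of_injective_algebraMap (algebraMap K F).injective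
  obtain ⟨u, hu0, hu⟩ := Fermat.Agent.Degen.exists_ord_one v
  have hwu : v.ord (w u) = 1 := by rw [← sl_ord w hw, hv, hu]
  have hwu0 : w u ≠ 0 := by rwa [Ne, EmbeddingLike.map_eq_zero_iff]
  -- an anti-invariant element
  obtain ⟨x, hx⟩ := hne
  set g := x - w x with hgdef
  have hg0 : g ≠ 0 := fun h => hx (sub_eq_zero.1 h).symm
  have hg : w g = -g := by rw [hgdef, map_sub, hw]; ring
  by_cases hs0 : u + w u = 0
  · exact ⟨u, hu0, by linear_combination hs0, hu⟩
  by_cases hd0 : u - w u = 0
  · -- `u` is invariant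
    exfalso
    have hwu' : w u = u := by linear_combination -hd0
    have h1 := ord_ne_zero_of_neg w hw hv (g := g * u ^ (-(v.ord g)))
      (mul_ne_zero hg0 (zpow_ne_zero _ hu0)) (by rw [map_mul, map_zpow₀, hg, hwu']; ring)
    apply h1
    rw [v.ord_mul hg0 (zpow_ne_zero _ hu0), Place.ord_zpow, hu]
    ring
  · have e1 : 1 ≤ v.ord (u + w u) := by
      have := min_ord_le_ord_add v hu0 hwu0 hs0
      rw [hu, hwu, min_self] at this
      exact this
    have e2 : 1 ≤ v.ord (u - w u) := by
      have := min_ord_le_ord_add v hu0 (neg_ne_zero.2 hwu0) (by rwa [← sub_eq_add_neg])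
      rw [hu, ord_neg, hwu, min_self, ← sub_eq_add_neg] at this
      exact this
    by_cases e3 : v.ord (u - w u) = 1
    · exact ⟨u - w u, hd0, by rw [map_sub, hw]; ring, e3⟩
    · exfalso
      have e4 : v.ord (u + w u) = 1 := by
        by_contra e5
        have h2 : (u + w u) + (u - w u) = algebraMap K F 2 * u := by
          rw [map_ofNat]; ring
        have h20 : algebraMap K F 2 * u ≠ 0 := by
          rw [map_ofNat]; exact mul_ne_zero two_ne_zero hu0
        have h3 := min_ord_le_ord_add v hs0 hd0 (by rw [h2]; exact h20)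
        rw [h2, v.ord_mul (by rw [map_ofNat]; exact two_ne_zero) hu0, ord_algebraMap, hu] at h3
        have := lt_min (lt_of_le_of_ne e1 (Ne.symm e5)) (lt_of_le_of_ne e2 (Ne.symm e3))
        omega
      have hws : w (u + w u) = u + w u := by rw [map_add, hw]; ring
      have h1 := ord_ne_zero_of_neg w hw hv (g := g * (u + w u) ^ (-(v.ord g)))
        (mul_ne_zero hg0 (zpow_ne_zero _ hs0)) (by rw [map_mul, map_zpow₀, hg, hws]; ring)
      apply h1
      rw [v.ord_mul hg0 (zpow_ne_zero _ hs0), Place.ord_zpow, e4]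
      ring

/-- invariant functions have even order at fixed places -/
theorem even_ord_of_inv (hne : ∃ x, w x ≠ x) {v : Place K F} (hv : sl w • v = v) {f : F}
    (hf0 : f ≠ 0) (hf : w f = f) : Even (v.ord f) := by
  obtain ⟨t, ht0, hwt, ht⟩ := exists_unif w hw hne hv
  by_contra hodd
  rw [Int.not_even_iff_odd] at hodd
  have h1 := ord_ne_zero_of_neg w hw hv (g := f * t ^ (-(v.ord f)))
    (mul_ne_zero hf0 (zpow_ne_zero _ ht0)) (by
      rw [map_mul, map_zpow₀, hf, hwt, hodd.neg.neg_zpow]; ring)
  apply h1
  rw [v.ord_mul hf0 (zpow_ne_zero _ ht0), Place.ord_zpow, ht]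
  ring

/-- anti-invariant functions have odd order at fixed places -/
theorem odd_ord_of_neg (hne : ∃ x, w x ≠ x) {v : Place K F} (hv : sl w • v = v) {f : F}
    (hf0 : f ≠ 0) (hf : w f = -f) : Odd (v.ord f) := by
  obtain ⟨t, ht0, hwt, ht⟩ := exists_unif w hw hne hv
  by_contra heven
  rw [Int.not_odd_iff_even] at heven
  have h1 := ord_ne_zero_of_neg w hw hv (g := f * t ^ (-(v.ord f)))
    (mul_ne_zero hf0 (zpow_ne_zero _ ht0)) (by
      rw [map_mul, map_zpow₀, hf, hwt, heven.neg.neg_zpow]; ring)
  apply h1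
  rw [v.ord_mul hf0 (zpow_ne_zero _ ht0), Place.ord_zpow, ht]
  ring

/-! ### halving invariant divisors -/

/-- a choice of one place in each orbit of the involution -/
theorem exists_half : ∃ R : Place K F → Prop, ∀ v, sl w • v ≠ v → (R v ↔ ¬ R (sl w • v)) := by
  classical
  obtain ⟨r⟩ : Nonempty (LinearOrder (Place K F)) := by
    obtain ⟨r, hr⟩ := exists_wellFoundedLT (Place K F)
    exact ⟨r⟩
  refine ⟨fun v => v < sl w • v, fun v hv => ?_⟩
  show v < sl w • v ↔ ¬ (sl w • v < sl w • sl w • v)
  rw [sl_sl_place w hw, not_lt]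
  exact ⟨le_of_lt, fun h => lt_of_le_of_ne h (Ne.symm hv)⟩

/-- an invariant divisor with even coefficients at the fixed places is a norm -/
theorem exists_add_smul {D : Divisor K F} (hD : sl w • D = D)
    (heven : ∀ v, sl w • v = v → Even (D v)) : ∃ E : Divisor K F, E + sl w • E = D := by
  classical
  obtain ⟨R, hR⟩ := exists_half w hw
  have hDv : ∀ v, D (sl w • v) = D v := fun v => by rw [← sl_div_apply w hw, hD]
  let E : Divisor K F := Finsupp.onFinset D.support
    (fun v => if sl w • v = v then D v / 2 else if R v then D v else 0) (by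
      intro v hv
      rw [Finsupp.mem_support_iff]
      intro h0
      apply hv
      simp [h0])
  refine ⟨E, ?_⟩
  ext v
  rw [Finsupp.add_apply, sl_div_apply w hw]
  show (if sl w • v = v then D v / 2 else if R v then D v else 0) +
    (if sl w • sl w • v = sl w • v then D (sl w • v) / 2 else if R (sl w • v) then
      D (sl w • v) else 0) = D v
  rw [sl_sl_place w hw, hDv]
  by_cases h : sl w • v = v
  · rw [if_pos h, if_pos h.symm]
    obtain ⟨k, hk⟩ := heven v h
    omega
  · have h' : ¬ (v = sl w • v) := fun h' => h h'.symm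
    rw [if_neg h, if_neg h']
    by_cases h2 : R v
    · rw [if_pos h2, if_neg ((hR v h).1 h2), add_zero]
    · rw [if_neg h2, if_pos (by by_contra h3; exact h2 ((hR v h).2 h3)), zero_add]

/-- anti-invariant divisors -/
theorem exists_sub_smul {D : Divisor K F} (hD : D + sl w • D = 0) :
    ∃ E : Divisor K F, E - sl w • E = D := by
  classical
  obtain ⟨R, hR⟩ := exists_half w hw
  have hDv : ∀ v, D (sl w • v) = - D v := fun v => by
    have := DFunLike.congr_fun hD v
    rw [Finsupp.add_apply, sl_div_apply w hw, Finsupp.zero_apply] at this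
    omega
  let E : Divisor K F := Finsupp.onFinset D.support
    (fun v => if R v then D v else 0) (by
      intro v hv
      rw [Finsupp.mem_support_iff]
      intro h0
      apply hv
      simp [h0])
  refine ⟨E, ?_⟩
  ext v
  rw [Finsupp.sub_apply, sl_div_apply w hw]
  show (if R v then D v else 0) - (if R (sl w • v) then D (sl w • v) else 0) = D v
  rw [hDv]
  by_cases h : sl w • v = v
  · have h0 : D v = 0 := by
      have := hDv v
      rw [h] at this
      omega
    rw [h0]; simp
  · by_cases h2 : R v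
    · rw [if_pos h2, if_neg ((hR v h).1 h2), sub_zero]
    · rw [if_neg h2, if_pos (by by_contra h3; exact h2 ((hR v h).2 h3))]; ring

/-- class of an invariant divisor with even coefficients at the fixed places -/
theorem exists_pic_add_smul {D : Divisor.degZero (K := K) (F := F)}
    (hD : sl w • (D : Divisor K F) = D)
    (heven : ∀ v, sl w • v = v → Even ((D : Divisor K F) v)) :
    ∃ y : Pic0 K F, Pic0.mk D = y + sl w • y := by
  obtain ⟨E, hE⟩ := exists_add_smul w hw hD heven
  have hdeg : Divisor.degree E = 0 := by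
    have h1 := congrArg Divisor.degree hE
    rw [map_add, SemilinearAut.degree_smul, Divisor.mem_degZero.1 D.2] at h1
    omega
  refine ⟨Pic0.mk ⟨E, hdeg⟩, ?_⟩
  rw [pic0_smul_mk]
  exact congrArg Pic0.mk (Subtype.ext hE.symm)

/-- parity of the coefficients of an invariant divisor depends only on its class, up to a
common change -/
theorem parity_of_class (hne : ∃ x, w x ≠ x) {D E : Divisor.degZero (K := K) (F := F)}
    (hD : sl w • (D : Divisor K F) = D) (hE : sl w • (E : Divisor K F) = E)
    (h : Pic0.mk D = Pic0.mk E) :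
    (∀ v, sl w • v = v → Even ((D : Divisor K F) v - (E : Divisor K F) v)) ∨
    (∀ v, sl w • v = v → Odd ((D : Divisor K F) v - (E : Divisor K F) v)) := by
  have h1 : Pic0.mk (D - E) = 0 := by
    have h2 : Pic0.mk (D - E) = Pic0.mk D - Pic0.mk E := rfl
    rw [h2, h, sub_self]
  rw [Fermat.Agent.TorsInj.pic0_mk_eq_zero_iff] at h1
  obtain ⟨f, hf0, hf⟩ := h1
  have hwf0 : w f ≠ 0 := by rwa [Ne, EmbeddingLike.map_eq_zero_iff]
  have hfd : (divOf f : Divisor K F) = (D : Divisor K F) - E := by
    ext v
    rw [divOf_apply, ← hf v]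
    rfl
  have h2 : (divOf (w f) : Divisor K F) = divOf f := by
    rw [divOf_w w hw, hfd, smul_sub, hD, hE]
  obtain ⟨c, hc0, hc⟩ := exists_const_of_divOf_eq hwf0 hf0 h2
  have hcc : c * c = 1 := by
    have h3 : f = algebraMap K F (c * c) * f := by
      conv_lhs => rw [← hw f, hc, map_mul, AlgEquiv.commutes, hc]
      rw [map_mul]; ring
    have h4 : algebraMap K F (c * c) = 1 := by
      have : (algebraMap K F (c * c) - 1) * f = 0 := by linear_combination -h3
      rcases mul_eq_zero.1 this with h5 | h5
      · linear_combination h5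
      · exact absurd h5 hf0
    exact (algebraMap K F).injective (by rw [h4, map_one])
  rcases mul_self_eq_one_iff.1 hcc with rfl | rfl
  · left
    intro v hv
    have := even_ord_of_inv w hw hne hv hf0 (by rw [hc, map_one, one_mul])
    rw [← hf v] at this
    exact this
  · right
    intro v hv
    have := odd_ord_of_neg w hw hne hv hf0 (by rw [hc, map_neg, map_one, neg_one_mul])
    rw [← hf v] at this
    exact this

end Inv

end Fermat.Agent.ZAL
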