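import Mathlib.NumberTheory.Padics.RingHoms
import Fermat.Agent.ZAL.Herb

/-!
# From the `2`-divisible group to the lattice
-/

set_option autoImplicit false

noncomputable section

namespace Fermat.Agent.ZAL

/-- The lattice of a `2`-divisible group. -/
structure LatData (J Λ : Type*) [AddCommGroup J] [AddCommGroup Λ] where
  /-- components -/
  pj : ℕ → Λ →+ J
  two_pj : ∀ n φ, (2 : ℕ) • pj (n + 1) φ = pj n φ
  pow_pj : ∀ n φ, (2 ^ n : ℕ) • pj n φ = 0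
  surj : ∀ n x, (2 ^ n : ℕ) • x = 0 → ∃ φ, pj n φ = x
  ker : ∀ n φ, pj n φ = 0 → ∃ ψ, φ = (2 ^ n : ℕ) • ψ
  tf : ∀ φ : Λ, (2 : ℕ) • φ = 0 → φ = 0
  div : ∀ x : J, ∃ y, (2 : ℕ) • y = x

namespace LatData

variable {J Λ : Type*} [AddCommGroup J] [AddCommGroup Λ] (D : LatData J Λ)

include D

theorem tf4 (φ ψ : Λ) (h : (4 : ℕ) • φ = (4 : ℕ) • ψ) : φ = ψ := by
  have h1 : (2 : ℕ) • ((2 : ℕ) • (φ - ψ)) = 0 := by
    rw [smul_smul, smul_sub]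
    exact sub_eq_zero.2 h
  exact sub_eq_zero.1 (D.tf _ (D.tf _ h1))

/-- `T` maps the invariants of the lattice to norms -/
theorem exists_add {wJ TJ : J →+ J} {w T : Λ →+ Λ} (hw : ∀ x, wJ (wJ x) = x)
    (hw' : ∀ φ, w (w φ) = φ)
    (hwp : ∀ n φ, D.pj n (w φ) = wJ (D.pj n φ)) (hTp : ∀ n φ, D.pj n (T φ) = TJ (D.pj n φ))
    (hT : ∀ x, x + wJ x = 0 → ∃ y, TJ x = y - wJ y) {φ : Λ} (hφ : w φ = φ)
    (hTw : w (T φ) = T φ) : ∃ χ, T φ = χ + w χ := by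
  have h1 : D.pj 1 φ + wJ (D.pj 1 φ) = 0 := by
    rw [← hwp, hφ, ← two_nsmul]
    exact D.pow_pj 1 φ
  obtain ⟨y, hy⟩ := hT _ h1
  obtain ⟨u, hu⟩ := D.div y
  set y' : J := u - wJ u with hy'
  have h2 : y' - wJ y' = TJ (D.pj 1 φ) := by
    rw [hy, ← hu, hy', map_sub, hw, map_nsmul, two_nsmul, two_nsmul]
    abel
  have h3 : (2 : ℕ) • y' = TJ (D.pj 1 φ) := by
    rw [hy, ← hu, hy', map_nsmul, smul_sub]
  have h4 : (2 ^ 2 : ℕ) • y' = 0 := by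
    have : (2 ^ 2 : ℕ) = 2 * 2 := by norm_num
    rw [this, mul_smul, h3, ← map_nsmul]
    have := D.pow_pj 1 φ
    rw [pow_one] at this
    rw [this, map_zero]
  obtain ⟨ψ, hψ⟩ := D.surj 2 y' h4
  have h5 : D.pj 2 ((ψ - w ψ) - (2 : ℕ) • T φ) = 0 := by
    rw [map_sub, map_sub, hwp, hψ, h2, map_nsmul, D.two_pj, hTp, sub_self]
  obtain ⟨χ, hχ⟩ := D.ker 2 _ h5
  refine ⟨-χ, ?_⟩
  apply D.tf4
  have h6 : (ψ - w ψ) - (2 : ℕ) • T φ + w ((ψ - w ψ) - (2 : ℕ) • T φ) = - ((4 : ℕ) • T φ) := by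
    rw [map_sub, map_sub, hw', map_nsmul, hTw]
    have : (4 : ℕ) • T φ = (2 : ℕ) • T φ + (2 : ℕ) • T φ := by
      rw [← add_smul]
    rw [this]
    abel
  rw [hχ, map_nsmul] at h6
  have h7 : (4 : ℕ) • T φ = - ((2 ^ 2 : ℕ) • χ + (2 ^ 2 : ℕ) • w χ) := by
    rw [h6, neg_neg]
  rw [h7, map_neg, ← neg_add, smul_neg, smul_add]
  norm_num

/-- `T` maps anti-invariant elements of the lattice to `(1 - w)Λ` -/
theorem exists_sub {wJ TJ : J →+ J} {w T : Λ →+ Λ} (hw : ∀ x, wJ (wJ x) = x)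
    (hw' : ∀ φ, w (w φ) = φ)
    (hwp : ∀ n φ, D.pj n (w φ) = wJ (D.pj n φ)) (hTp : ∀ n φ, D.pj n (T φ) = TJ (D.pj n φ))
    (hT : ∀ x, wJ x = x → ∃ y, TJ x = y + wJ y) {φ : Λ} (hφ : w φ = -φ)
    (hTw : w (T φ) = - T φ) : ∃ χ, T φ = χ - w χ := by
  have h := D.exists_add (wJ := -wJ) (TJ := TJ) (w := -w) (T := T)
    (fun x => by simp [hw]) (fun x => by simp [hw'])
    (fun n φ => by simp [hwp]) hTp (fun x hx => by
      have : wJ x = x := by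
        rw [AddMonoidHom.neg_apply, ← sub_eq_add_neg, sub_eq_zero] at hx
        exact hx.symm
      obtain ⟨y, hy⟩ := hT x this
      exact ⟨y, by rw [hy]; simp⟩) (φ := φ) (by simp [hφ]) (by simp [hTw])
  obtain ⟨χ, hχ⟩ := h
  exact ⟨χ, by rw [hχ]; simp [sub_eq_add_neg]⟩

/-- invariant elements of `J` come from anti-invariant elements of the lattice -/
theorem exists_lift {wJ : J →+ J} {w : Λ →+ Λ} (hw : ∀ x, wJ (wJ x) = x)
    (hw' : ∀ φ, w (w φ) = φ)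
    (hwp : ∀ n φ, D.pj n (w φ) = wJ (D.pj n φ)) {x : J} (hx : wJ x = x) :
    ∃ φ, w φ = -φ ∧ ∃ y, D.pj 1 φ = x + (y + wJ y) := by
  obtain ⟨u, hu⟩ := D.div x
  set a : J := x - (u + wJ u) with ha
  have hwa : wJ a = a := by rw [ha, map_sub, map_add, hw, hx, add_comm u]
  have ha2 : (2 : ℕ) • a = 0 := by
    rw [ha, smul_sub, smul_add, ← map_nsmul, hu, hx, two_nsmul, sub_self]
  obtain ⟨ψ, hψ⟩ := D.surj 1 a (by rw [pow_one]; exact ha2)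
  have h1 : D.pj 1 (ψ - w ψ) = 0 := by rw [map_sub, hwp, hψ, hwa, sub_self]
  obtain ⟨φ, hφ⟩ := D.ker 1 _ h1
  rw [pow_one] at hφ
  have hwφ : w φ = -φ := by
    have h2 : (2 : ℕ) • (w φ + φ) = 0 := by
      rw [smul_add, ← map_nsmul, ← hφ, map_sub, hw']
      abel
    exact eq_neg_of_add_eq_zero_left (D.tf _ h2)
  refine ⟨φ, hwφ, -(u + D.pj 2 ψ), ?_⟩
  have h3 : D.pj 1 φ = D.pj 2 ψ - wJ (D.pj 2 ψ) := by
    rw [← D.two_pj 1 φ, ← map_nsmul, ← hφ, map_sub, hwp]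
  have h4 : (2 : ℕ) • D.pj 2 ψ = a := by rw [D.two_pj, hψ]
  rw [h3, map_neg, map_add]
  have h5 : D.pj 2 ψ - wJ (D.pj 2 ψ) = (2 : ℕ) • D.pj 2 ψ - (D.pj 2 ψ + wJ (D.pj 2 ψ)) := by
    rw [two_nsmul]
    abel
  rw [h5, h4, ha]
  abel

end LatData

end Fermat.Agent.ZAL
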