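import Fermat.Agent.ZAL.Ev

/-!
# Eigenspaces of Atkin-Lehner involutions on the localised Tate module
-/

set_option autoImplicit false
set_option linter.unusedSectionVars false
set_option linter.style.haveILetI false

noncomputable section

open ModularCurve AlgebraicCurve CongruenceSubgroup ModularCurve.Period
open scoped MatrixGroups

namespace Fermat.Agent.ZAL

open Fermat.Agent.X0Places Fermat.Agent.FunField Fermat.Agent.FunField.PlaceLemmas
open Fermat.Agent.TorsCmp Fermat.Agent.HeckeRed Fermat.Agent.GalJ Fermat.Agent.Degen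
open AlgebraicCurve.SemilinearAut
open Fermat.Agent.HeckeHom Fermat.Agent.Tate

local notation "Qb" => AlgebraicClosure ℚ

instance finite_lm (M : ℕ) [NeZero M] : Module.Finite ℤ_[2] (Lm M) :=
  Module.Finite.of_basis (parBasis M ℤ_[2])

instance free_lm (M : ℕ) [NeZero M] : Module.Free ℤ_[2] (Lm M) :=
  Module.Free.of_basis (parBasis M ℤ_[2])

section

variable {m : ℕ} [NeZero m] {d : ℕ} {h : ExDiv d m} {σ : Type} {lp : σ → ℕ}
  (hlp : ∀ i, (lp i).Prime) (hlpm : ∀ i, ¬ lp i ∣ m) (hlp2 : ∀ i, lp i ≠ 2)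
  {ρ : MvPolynomial σ ℤ_[2] →ₐ[ℤ_[2]] Module.End ℤ_[2] (Lm m)}
  (hρ : ∀ i, ρ (MvPolynomial.X i) = parHecke ℤ_[2] ℤ_[2] (hlp i) (hlpm i))
  {w : Module.End ℤ_[2] (Lm m)} (hw : IsW h w.toAddMonoidHom)

include hw

theorem w_w (x : Lm m) : w (w x) = x := hw.invol x

include hρ

theorem w_poly (r : MvPolynomial σ ℤ_[2]) : ∀ x, w (ρ r x) = ρ r (w x) := by
  induction r using MvPolynomial.induction_on with
  | C c =>
    intro x
    have : ρ (MvPolynomial.C c) = algebraMap ℤ_[2] _ c := ρ.commutes c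
    rw [this]
    exact map_smul w c x
  | add p q hp hq =>
    intro x
    rw [map_add, LinearMap.add_apply, LinearMap.add_apply, map_add, hp, hq]
  | mul_X p i hp =>
    intro x
    rw [map_mul, Module.End.mul_apply, Module.End.mul_apply, hp, hρ]
    exact congrArg (ρ p) (hw.hecke (hlp i) (hlpm i) x)

variable {t : σ → ZMod 2} {e : MvPolynomial σ ℤ_[2]}
  (he2 : ρ (e * e) = ρ e) (he3 : ∀ s ∉ resId t, ∃ r, ρ (e * (s * r)) = ρ e)

include he2 he3

include hlp2 in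
/-- vanishing of the first cohomology group -/
theorem exists_add_e (hd : d ≠ 1) {i₀ : σ} (ht : t i₀ = 1) {x : Lm m} (hx : ρ e x = x)
    (hwx : w x = x) : ∃ y, ρ e y = y ∧ x = y + w y := by
  have hs : (MvPolynomial.X i₀ * MvPolynomial.X i₀ : MvPolynomial σ ℤ_[2]) ∉ resId t := by
    intro h1
    rcases (resId_isMaximal t).isPrime.mem_or_mem h1 with h2 | h2 <;>
      exact X_notMem_resId ht h2
  obtain ⟨r, hr⟩ := he3 _ hs
  have hψ : w (ρ r x) = ρ r x := by rw [w_poly hlp hlpm hρ hw, hwx]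
  obtain ⟨χ, hχ⟩ := IsW.exists_add (w := w.toAddMonoidHom) hw hd (hlp i₀) (hlp2 i₀) (hlpm i₀)
    (hlp i₀) (hlp2 i₀) (hlpm i₀) hψ
  rw [← hρ] at hχ
  refine ⟨ρ e χ, ?_, ?_⟩
  · rw [← Module.End.mul_apply, ← map_mul, he2]
  · rw [w_poly hlp hlpm hρ hw, ← map_add]
    have h1 : χ + w χ = ρ (MvPolynomial.X i₀) (ρ (MvPolynomial.X i₀) (ρ r x)) := hχ.symm
    rw [h1]
    have h2 : ρ (e * (MvPolynomial.X i₀ * MvPolynomial.X i₀ * r)) x = x := by rw [hr, hx]
    rw [← Module.End.mul_apply, ← Module.End.mul_apply, ← Module.End.mul_apply, ← map_mul,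
      ← map_mul, ← map_mul, show e * MvPolynomial.X i₀ * MvPolynomial.X i₀ * r =
        e * (MvPolynomial.X i₀ * MvPolynomial.X i₀ * r) by ring, h2]

/-- vanishing of the other cohomology group if there are no fixed places -/
theorem exists_sub_e (hd : d ≠ 1) {i₁ : σ} (ht : t i₁ = 1) [NeZero (lp i₁)]
    (hcop : Nat.Coprime d (lp i₁))
    (hfix : ∀ R : Place Qb (FF Qb (m * lp i₁)), wS iotaQbar (h.mul hcop) • R ≠ R)
    {x : Lm m} (hx : ρ e x = x)
    (hwx : w x = -x) : ∃ y, ρ e y = y ∧ x = y - w y := by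
  obtain ⟨r, hr⟩ := he3 _ (X_notMem_resId ht)
  have hψ : w (ρ r x) = -ρ r x := by rw [w_poly hlp hlpm hρ hw, hwx, map_neg]
  obtain ⟨χ, hχ⟩ := IsW.exists_sub (w := w.toAddMonoidHom) hw hd (hlp i₁) (hlpm i₁) hcop hfix hψ
  rw [← hρ] at hχ
  refine ⟨ρ e χ, ?_, ?_⟩
  · rw [← Module.End.mul_apply, ← map_mul, he2]
  · rw [w_poly hlp hlpm hρ hw, ← map_sub]
    have h1 : χ - w χ = ρ (MvPolynomial.X i₁) (ρ r x) := hχ.symm
    rw [h1]
    have h2 : ρ (e * (MvPolynomial.X i₁ * r)) x = x := by rw [hr, hx]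
    rw [← Module.End.mul_apply, ← Module.End.mul_apply, ← map_mul,
      ← map_mul, mul_assoc, h2]

omit he3 in
theorem exists_sub_e' (hd : d ≠ 1)
    (hfix : ∀ R : Place Qb (FF Qb m), wS iotaQbar h • R ≠ R)
    {x : Lm m} (hx : ρ e x = x)
    (hwx : w x = -x) : ∃ y, ρ e y = y ∧ x = y - w y := by
  obtain ⟨χ, hχ⟩ := IsW.exists_sub' (w := w.toAddMonoidHom) hw hd hfix hwx
  refine ⟨ρ e χ, ?_, ?_⟩
  · rw [← Module.End.mul_apply, ← map_mul, he2]
  · rw [w_poly hlp hlpm hρ hw, ← map_sub]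
    have h1 : χ - w χ = x := hχ.symm
    rw [h1, hx]

/-- equality of ranks if there are no fixed places -/
theorem finrank_eq_of (P Q : Submodule ℤ_[2] (Lm m)) (hP : ∀ x, x ∈ P ↔ ρ e x = x ∧ w x = x)
    (hQ : ∀ x, x ∈ Q ↔ ρ e x = x ∧ w x = -x)
    (h0 : ∀ x, ρ e x = x → w x = x → ∃ y, ρ e y = y ∧ x = y + w y)
    (h1 : ∀ x, ρ e x = x → w x = -x → ∃ y, ρ e y = y ∧ x = y - w y) :
    Module.finrank ℤ_[2] P = Module.finrank ℤ_[2] Q := by
  let L : Submodule ℤ_[2] (Lm m) := LinearMap.ker (ρ e - 1)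
  have hL : ∀ x, x ∈ L ↔ ρ e x = x := by
    intro x
    rw [LinearMap.mem_ker, LinearMap.sub_apply, sub_eq_zero]
    rfl
  have hwL : ∀ x ∈ L, w x ∈ L := by
    intro x hx
    rw [hL] at hx ⊢
    rw [← w_poly hlp hlpm hρ hw, hx]
  apply le_antisymm
  · have := herb w (w_w hw) L hwL P Q (fun x => by rw [hP, hL]) (fun x => by rw [hQ, hL])
      (fun x hx => by
        obtain ⟨y, hy, e1⟩ := h0 x ((hP x).1 hx).1 ((hP x).1 hx).2
        exact ⟨y, (hL y).2 hy, e1⟩) (κ := Empty) (fun k => k.elim) (fun k => k.elim)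
      (fun _ _ _ _ k => k.elim)
    simpa using this
  · have := herb (-w) (fun x => by simp [w_w hw]) L (fun x hx => by
        simpa using L.neg_mem (hwL x hx)) Q P (fun x => by
          rw [hQ, hL, LinearMap.neg_apply, neg_eq_iff_eq_neg]) (fun x => by
          rw [hP, hL, LinearMap.neg_apply, neg_inj])
      (fun x hx => by
        obtain ⟨y, hy, e1⟩ := h1 x ((hQ x).1 hx).1 ((hQ x).1 hx).2
        exact ⟨y, (hL y).2 hy, by rw [e1]; simp [sub_eq_add_neg]⟩) (κ := Empty) (fun k => k.elim)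
      (fun k => k.elim)
      (fun _ _ _ _ k => k.elim)
    simpa using this

end

section N

variable {N : ℕ} [NeZero N] {σ : Type} {lp : σ → ℕ}
  (hlp : ∀ i, (lp i).Prime) (hlpm : ∀ i, ¬ lp i ∣ N) (hlp2 : ∀ i, lp i ≠ 2)
  {ρ : MvPolynomial σ ℤ_[2] →ₐ[ℤ_[2]] Module.End ℤ_[2] (Lm N)}
  (hρ : ∀ i, ρ (MvPolynomial.X i) = parHecke ℤ_[2] ℤ_[2] (hlp i) (hlpm i))
  {w : Module.End ℤ_[2] (Lm N)} (hw : IsW (exDiv_self N) w.toAddMonoidHom)
  {G : Type} [Fintype G] {pt : G → Place Qb (FF Qb N)} (hinj : Function.Injective pt)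
  (hpt : ∀ v, frk N • v = v ↔ ∃ c, pt c = v)
  (T : σ → Module.End (ZMod 2) (G → ZMod 2)) (hT : ∀ i j, T i * T j = T j * T i)
  (hTD : ∀ (i : σ) [NeZero (lp i)] (D : Divisor Qb (FF Qb N)), frk N • D = D →
    par pt (TD Qb N (lp i) D) = T i (par pt D))
  (hT1 : ∀ i, T i 1 = 0)
  {t : σ → ZMod 2} {e : MvPolynomial σ ℤ_[2]} (he1 : 1 - e ∈ resId t)
  (he2 : ρ (e * e) = ρ e) (he3 : ∀ s ∉ resId t, ∃ r, ρ (e * (s * r)) = ρ e)

include hlp2 hρ hw hinj hpt hT hTD hT1 he1 he2 he3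

/-- **the inequality at level `N`** -/
theorem finrank_add_le (hN : N ≠ 1) {i₀ : σ} (ht : t i₀ = 1)
    (V : Submodule (ZMod 2) (G → ZMod 2)) {a : ℕ}
    (hnil : ∀ l, ∀ F ∈ V, ((T l - t l • (1 : Module.End (ZMod 2) (G → ZMod 2))) ^ (2 ^ a)) F = 0)
    (hV0 : ∀ F ∈ V, ∑ c, F c = 0) (P Q : Submodule ℤ_[2] (Lm N))
    (hP : ∀ x, x ∈ P ↔ ρ e x = x ∧ w x = x) (hQ : ∀ x, x ∈ Q ↔ ρ e x = x ∧ w x = -x) :
    Module.finrank (ZMod 2) V + Module.finrank ℤ_[2] P ≤ Module.finrank ℤ_[2] Q := by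
  classical
  let L : Submodule ℤ_[2] (Lm N) := LinearMap.ker (ρ e - 1)
  have hL : ∀ x, x ∈ L ↔ ρ e x = x := by
    intro x
    rw [LinearMap.mem_ker, LinearMap.sub_apply, sub_eq_zero]
    rfl
  have hwL : ∀ x ∈ L, w x ∈ L := by
    intro x hx
    rw [hL] at hx ⊢
    rw [← w_poly hlp hlpm hρ hw, hx]
  have hee : ∀ x, ρ e (ρ e x) = ρ e x := fun x => by
    rw [← Module.End.mul_apply, ← map_mul, he2]
  have hX : ∀ i φ F, ThL pt φ F → ThL pt (ρ (MvPolynomial.X i) φ) (T i F) := by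
    intro i φ F hF
    have : NeZero (lp i) := ⟨(hlp i).ne_zero⟩
    rw [hρ, ThL, pjn_parHecke]
    exact IsTh.hecke (((Nat.Prime.coprime_iff_not_dvd (hlp i)).2 (hlpm i)).symm)
      (τ := T i) (hTD i) hF
  -- constants are not in `V`
  have h1V : (1 : G → ZMod 2) ∈ V → (1 : G → ZMod 2) = 0 := by
    intro h1
    have h2 := polyEnd_pow T hT V hnil (MvPolynomial.X i₀) 1 h1
    rw [MvPolynomial.eval_X, ht, one_smul, map_pow, TW.polyEnd_X] at h2
    rw [← h2]
    obtain ⟨b, hb⟩ : ∃ b, 2 ^ a = b + 1 := ⟨2 ^ a - 1, by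
      have : 0 < 2 ^ a := by positivity
      omega⟩
    rw [hb, pow_succ, Module.End.mul_apply, hT1, map_zero]
  -- a basis of `V` and lifts
  have hVfin : Module.Finite (ZMod 2) V := inferInstance
  let b := Module.finBasis (ZMod 2) V
  let n := Module.finrank (ZMod 2) V
  have hex : ∀ k : Fin n, ∃ f : Lm N, f ∈ Q ∧ ThL pt f (b k : G → ZMod 2) := by
    intro k
    obtain ⟨x, hx, hxF⟩ := IsTh.surj hpt hinj (b k : G → ZMod 2) (hV0 _ (b k).2)
    obtain ⟨φ, hφ, y, hy⟩ := (latData N).exists_lift (wJ := wJ (exDiv_self N))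
      (w := w.toAddMonoidHom) wJ_wJ hw.invol hw hx
    have hφF : ThL pt φ (b k : G → ZMod 2) := by
      have h1 : pjn N 1 φ = x + (y + frk N • y) := hy
      rw [ThL, h1]
      have := hxF.add (IsTh.norm hpt y)
      rwa [add_zero] at this
    refine ⟨ρ e φ, ?_, ?_⟩
    · rw [hQ]
      refine ⟨hee φ, ?_⟩
      rw [w_poly hlp hlpm hρ hw, ← map_neg]
      exact congrArg (ρ e) hφ
    · -- `(1 - e) φ` has even parities
      have h1 : ∀ j : ℕ, ρ ((1 - e) ^ (j + 1)) = ρ (1 - e) := by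
        intro j
        induction j with
        | zero => rw [zero_add, pow_one]
        | succ j ih =>
          rw [pow_succ, map_mul, ih, ← map_mul]
          have : (1 - e) * (1 - e) = 1 - e - e + e * e := by ring
          rw [this, map_add, he2, ← map_add]
          congr 1
          ring
      obtain ⟨c, hc⟩ : ∃ c, 2 ^ a = c + 1 := ⟨2 ^ a - 1, by
        have : 0 < 2 ^ a := by positivity
        omega⟩
      have h2 := ThL.poly T hT ρ hX ((1 - e) ^ (2 ^ a)) φ _ hφF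
      rw [ev_pow_eq_zero T hT V hnil he1 (b k).2, hc, h1] at h2
      have h3 : ρ e φ = φ + (-1 : ℤ_[2]) • ρ (1 - e) φ := by
        have h31 : (-1 : ℤ_[2]) • ρ (1 - e) φ = -(ρ (1 - e) φ) :=
          _root_.neg_one_smul ℤ_[2] (ρ (1 - e) φ)
        rw [h31, map_sub, map_one, LinearMap.sub_apply, Module.End.one_apply]
        abel
      rw [h3]
      have h4 := hφF.add (h2.smul (-1))
      rwa [smul_zero, add_zero] at h4
  choose f hfQ hfF using hex
  have := herb w (w_w hw) L hwL P Q (fun x => by rw [hP, hL]) (fun x => by rw [hQ, hL])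
      (fun x hx => by
        obtain ⟨y, hy, e1⟩ := exists_add_e hlp hlpm hlp2 hρ hw he2 he3 hN ht ((hP x).1 hx).1
          ((hP x).1 hx).2
        exact ⟨y, (hL y).2 hy, e1⟩) (κ := Fin n) f hfQ ?_
  · rwa [Fintype.card_fin] at this
  · intro c y _ hcy
    have h1 : ThL pt (∑ k, c k • f k) (∑ k, PadicInt.toZMod (c k) • (b k : G → ZMod 2)) :=
      ThL.sum _ _ _ fun k _ => (hfF k).smul (c k)
    have h2 : ThL pt (∑ k, c k • f k) 0 := by
      rw [hcy]
      exact ThL.sub_w hpt (w := w.toAddMonoidHom) hw y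
    have h3 : ∑ k, PadicInt.toZMod (c k) • (b k : G → ZMod 2) ∈ V :=
      V.sum_mem fun k _ => V.smul_mem _ (b k).2
    have h4 : ∑ k, PadicInt.toZMod (c k) • (b k : G → ZMod 2) = 0 := by
      rcases IsTh.unique hN hpt h1 h2 with h5 | h5
      · exact h5
      · rw [zero_add] at h5
        rw [h5] at h3 ⊢
        exact h1V h3
    have h5 : ∑ k, PadicInt.toZMod (c k) • b k = 0 := by
      apply Subtype.ext
      rw [Submodule.coe_sum]
      exact h4
    intro k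
    have h6 := Fintype.linearIndependent_iff.1 b.linearIndependent _ h5 k
    have h7 : c k ∈ IsLocalRing.maximalIdeal ℤ_[2] := by
      rw [← PadicInt.ker_toZMod]; exact h6
    rw [PadicInt.maximalIdeal_eq_span_p, Ideal.mem_span_singleton] at h7
    exact_mod_cast h7

end N

end Fermat.Agent.ZAL
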