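import Fermat.Agent.ZAL.WComm

/-!
# The new lattice
-/

set_option autoImplicit false
set_option linter.unusedSectionVars false
set_option linter.style.haveILetI false

noncomputable section

open ModularCurve AlgebraicCurve CongruenceSubgroup ModularCurve.Period
open scoped MatrixGroups

namespace Fermat.Agent.ZAL

open Fermat.Agent.X0Places Fermat.Agent.FunField Fermat.Agent.FunField.PlaceLemmas
open Fermat.Agent.TorsCmp Fermat.Agent.HeckeRed Fermat.Agent.GalJ Fermat.Agent.Degen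
open AlgebraicCurve.SemilinearAut
open Fermat.Agent.HeckeHom Fermat.Agent.Tate

local notation "Qb" => AlgebraicClosure ℚ
local notation "GQ" => AlgebraicClosure ℚ ≃ₐ[ℚ] AlgebraicClosure ℚ

variable {M : ℕ} [NeZero M] {q : ℕ}

theorem pjn_smul (n : ℕ) (a : ℤ_[2]) (x : Lm M) :
    pjn M n (a • x) = (PadicInt.toZModPow n a).val • pjn M n x := by
  rw [pjn_eq, pr_smul]
  rfl

theorem wS_zero {d : ℕ} (h : ExDiv d M) : wS iotaQbar h • (0 : JZero M) = 0 := map_zero (wJ h)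

theorem gal_zero (M : ℕ) [NeZero M] (g : GQ) : g • (0 : JZero M) = 0 :=
  map_zero (DistribSMul.toAddMonoidHom (JZero M) g)

theorem NewAt.add {x y : Lm M} (hx : NewAt q x) (hy : NewAt q y) : NewAt q (x + y) := by
  intro m _ hm h α hα n
  obtain ⟨a1, a2⟩ := hx m hm h α hα n
  obtain ⟨b1, b2⟩ := hy m hm h α hα n
  constructor
  · rw [map_add, map_add, a1, b1, add_zero]
  · rw [map_add, smul_add, map_add, a2, b2, add_zero]

theorem NewAt.zero : NewAt q (0 : Lm M) := by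
  intro m _ hm h α hα n
  constructor
  · rw [map_zero, map_zero]
  · rw [map_zero, wS_zero, map_zero]

theorem NewAt.smul {x : Lm M} (hx : NewAt q x) (a : ℤ_[2]) : NewAt q (a • x) := by
  intro m _ hm h α hα n
  obtain ⟨a1, a2⟩ := hx m hm h α hα n
  rw [pjn_smul]
  constructor
  · rw [map_nsmul, a1, smul_zero]
  · have h1 : wS iotaQbar h • ((PadicInt.toZModPow n a).val • pjn M n x) =
        (PadicInt.toZModPow n a).val • (wS iotaQbar h • pjn M n x) :=
      map_nsmul (wJ h) _ _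
    rw [h1, map_nsmul, a2, smul_zero]

theorem NewAt.of_two_smul {x : Lm M} (hx : NewAt q ((2 : ℤ_[2]) • x)) : NewAt q x := by
  intro m _ hm h α hα n
  have h1 : pjn M n x = pjn M (n + 1) ((2 : ℤ_[2]) • x) := by
    rw [two_zsmul_eq, map_nsmul]
    exact ((latData M).two_pj n x).symm
  rw [h1]
  exact hx m hm h α hα (n + 1)

/-- a lattice cut out by newness conditions, an idempotent and signs -/
def Lnw (N : ℕ) (f : Module.End ℤ_[2] (Lm M)) : Submodule ℤ_[2] (Lm M) where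
  carrier := {x | f x = x ∧ (∀ q, q.Prime → q ∣ M → NewAt q x) ∧
    ∀ q, q.Prime → ∀ h : ExDiv q M, ¬ q ∣ N → wLm h x = -x}
  zero_mem' := ⟨map_zero _, fun _ _ _ => NewAt.zero, fun _ _ _ _ => by rw [map_zero, neg_zero]⟩
  add_mem' := by
    rintro x y ⟨h1, h2, h3⟩ ⟨h1', h2', h3'⟩
    refine ⟨by rw [map_add, h1, h1'], fun q hq hqM => (h2 q hq hqM).add (h2' q hq hqM),
      fun q hq h hqN => ?_⟩
    rw [map_add, h3 q hq h hqN, h3' q hq h hqN]
    abel
  smul_mem' := by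
    rintro a x ⟨h1, h2, h3⟩
    refine ⟨by rw [map_smul, h1], fun q hq hqM => (h2 q hq hqM).smul a, fun q hq h hqN => ?_⟩
    rw [map_smul, h3 q hq h hqN, smul_neg]

theorem mem_lnw {N : ℕ} {f : Module.End ℤ_[2] (Lm M)} {x : Lm M} :
    x ∈ Lnw N f ↔ f x = x ∧ (∀ q, q.Prime → q ∣ M → NewAt q x) ∧
      ∀ q, q.Prime → ∀ h : ExDiv q M, ¬ q ∣ N → wLm h x = -x := Iff.rfl

variable {N : ℕ} {f : Module.End ℤ_[2] (Lm M)}

/-- the lattice is saturated -/
theorem lnw_saturated {x : Lm M} (hx : (2 : ℤ_[2]) • x ∈ Lnw N f) : x ∈ Lnw N f := by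
  obtain ⟨h1, h2, h3⟩ := hx
  have hinj : ∀ y z : Lm M, (2 : ℤ_[2]) • y = (2 : ℤ_[2]) • z → y = z := by
    intro y z hyz
    have h4 : (2 : ℤ_[2]) • (y - z) = 0 := by rw [smul_sub, hyz, sub_self]
    exact sub_eq_zero.1 ((smul_eq_zero.1 h4).resolve_left two_ne_zero')
  refine ⟨hinj _ _ (by rw [← map_smul, h1]), fun q hq hqM => (h2 q hq hqM).of_two_smul,
    fun q hq h hqN => hinj _ _ ?_⟩
  rw [← map_smul, h3 q hq h hqN, smul_neg]

/-! ### Galois action -/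

theorem gal_wLm {d : ℕ} (h : ExDiv d M) (g : GQ) (x : Lm M) :
    wLm h (galLm M g x) = galLm M g (wLm h x) := by
  apply ext_pjn
  intro n
  rw [pjn_wLm, pjn_galLm, pjn_galLm, pjn_wLm]
  exact gal_wS_pic h g _

theorem gal_parHecke {l : ℕ} (hl : l.Prime) (hlM : ¬ l ∣ M) (g : GQ) (x : Lm M) :
    parHecke ℤ_[2] ℤ_[2] hl hlM (galLm M g x) = galLm M g (parHecke ℤ_[2] ℤ_[2] hl hlM x) := by
  have : NeZero l := ⟨hl.ne_zero⟩
  apply ext_pjn
  intro n
  rw [pjn_parHecke, pjn_galLm, pjn_galLm, pjn_parHecke]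
  exact heckeOperatorBar_smul M ⟨l, hl⟩ g (pjn M n x)

theorem NewAt.gal {x : Lm M} (hx : NewAt q x) (g : GQ) : NewAt q (galLm M g x) := by
  intro m _ hm h α hα n
  obtain ⟨a1, a2⟩ := hx m hm h α hα n
  rw [pjn_galLm]
  constructor
  · rw [push_gal α hα, a1]
    exact gal_zero m g
  · rw [gal_wS_pic, push_gal α hα, a2]
    exact gal_zero m g

theorem lnw_gal (hf : ∀ g x, f (galLm M g x) = galLm M g (f x)) (g : GQ) {x : Lm M}
    (hx : x ∈ Lnw N f) : galLm M g x ∈ Lnw N f := by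
  obtain ⟨h1, h2, h3⟩ := hx
  refine ⟨by rw [hf, h1], fun q hq hqM => (h2 q hq hqM).gal g, fun q hq h hqN => ?_⟩
  rw [gal_wLm, h3 q hq h hqN, map_neg]

/-! ### Hecke operators -/

theorem NewAt.hecke {l : ℕ} (hl : l.Prime) (hlM : ¬ l ∣ M) {x : Lm M} (hx : NewAt q x) :
    NewAt q (parHecke ℤ_[2] ℤ_[2] hl hlM x) := by
  have : NeZero l := ⟨hl.ne_zero⟩
  intro m _ hm h α hα n
  have hmM : m ∣ M := ⟨q, hm.symm⟩
  have hcop : Nat.Coprime q l := ((Nat.Prime.coprime_iff_not_dvd hl).2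
    fun hdl => hlM (hdl.trans h.dvd)).symm
  obtain ⟨a1, a2⟩ := hx m hm h α hα n
  rw [pjn_parHecke]
  constructor
  · rw [push_hecke hl hlM hmM α hα, a1, map_zero]
  · have h1 : wS iotaQbar h • heckeOperatorAlong Qb M l (pjn M n x) =
        heckeOperatorAlong Qb M l (wS iotaQbar h • pjn M n x) :=
      (hecke_wS iotaQbar h hcop (pjn M n x)).symm
    rw [h1, push_hecke hl hlM hmM α hα, a2, map_zero]

theorem lnw_hecke {l : ℕ} (hl : l.Prime) (hlM : ¬ l ∣ M)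
    (hf : ∀ x, f (parHecke ℤ_[2] ℤ_[2] hl hlM x) = parHecke ℤ_[2] ℤ_[2] hl hlM (f x)) {x : Lm M}
    (hx : x ∈ Lnw N f) : parHecke ℤ_[2] ℤ_[2] hl hlM x ∈ Lnw N f := by
  obtain ⟨h1, h2, h3⟩ := hx
  refine ⟨by rw [hf, h1], fun q hq hqM => (h2 q hq hqM).hecke hl hlM, fun q hq h hqN => ?_⟩
  have h4 := (isW_wLm h).hecke hl hlM x
  have h5 : wLm h (parHecke ℤ_[2] ℤ_[2] hl hlM x) =
    parHecke ℤ_[2] ℤ_[2] hl hlM (wLm h x) := h4
  rw [h5, h3 q hq h hqN, map_neg]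

/-! ### Atkin-Lehner involutions -/

theorem wS_wS_pic {d : ℕ} (h : ExDiv d M) (x : JZero M) :
    wS iotaQbar h • (wS iotaQbar h • x) = x := wJ_wJ (h := h) x

theorem wS_comm_pic {d d' : ℕ} (h : ExDiv d M) (h' : ExDiv d' M) (hc : Nat.Coprime d d')
    (x : JZero M) :
    wS iotaQbar h' • (wS iotaQbar h • x) = wS iotaQbar h • (wS iotaQbar h' • x) := by
  rw [← mul_smul, ← mul_smul, wS_comm iotaQbar h h' hc]

theorem wLm_wLm {d : ℕ} (h : ExDiv d M) (x : Lm M) : wLm h (wLm h x) = x :=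
  (isW_wLm h).invol x

theorem wLm_comm {d d' : ℕ} (h : ExDiv d M) (h' : ExDiv d' M) (hc : Nat.Coprime d d')
    (x : Lm M) : wLm h' (wLm h x) = wLm h (wLm h' x) := by
  apply ext_pjn
  intro n
  rw [pjn_wLm, pjn_wLm, pjn_wLm, pjn_wLm, wS_comm_pic h h' hc]

theorem exDiv_of_coprime {m d : ℕ} (h : ExDiv d M) (hm : m * q = M) (hc : Nat.Coprime d q) :
    ExDiv d m := by
  have h1 : d ∣ m := by
    have : d ∣ m * q := hm ▸ h.dvd
    exact hc.dvd_of_dvd_mul_right this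
  refine ⟨h1, ?_⟩
  obtain ⟨c, hc'⟩ := h1
  have hd0 : 0 < d := Nat.pos_of_ne_zero h.ne_zero
  have h2 := h.cop
  have h3 : M / d = c * q := by
    rw [← hm, hc', mul_assoc]
    exact Nat.mul_div_cancel_left _ hd0
  have h4 : m / d = c := by
    rw [hc']
    exact Nat.mul_div_cancel_left _ hd0
  rw [h3] at h2
  rw [h4]
  exact h2.coprime_dvd_right (dvd_mul_right _ _)

theorem NewAt.w {d : ℕ} (hd : d.Prime) (hq : q.Prime) (h : ExDiv d M) {x : Lm M}
    (hx : NewAt q x) : NewAt q (wLm h x) := by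
  intro m _ hm hqM α hα n
  obtain ⟨a1, a2⟩ := hx m hm hqM α hα n
  rw [pjn_wLm]
  by_cases hdq : d = q
  · subst hdq
    exact ⟨a2, by rw [wS_wS_pic]; exact a1⟩
  · have hc : Nat.Coprime d q := (Nat.coprime_primes hd hq).2 hdq
    have h' := exDiv_of_coprime h hm hc
    have hmM : m ∣ M := ⟨q, hm.symm⟩
    constructor
    · rw [push_wS h h' hmM α hα, a1]
      exact wS_zero h'
    · rw [wS_comm_pic h hqM hc, push_wS h h' hmM α hα, a2]
      exact wS_zero h'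

theorem lnw_w {d : ℕ} (hd : d.Prime) (h : ExDiv d M) (hf : ∀ x, f (wLm h x) = wLm h (f x))
    {x : Lm M} (hx : x ∈ Lnw N f) : wLm h x ∈ Lnw N f := by
  obtain ⟨h1, h2, h3⟩ := hx
  refine ⟨by rw [hf, h1], fun q hq hqM => (h2 q hq hqM).w hd hq h, fun q hq h' hqN => ?_⟩
  by_cases hdq : d = q
  · subst hdq
    have h4 := h3 d hq h' hqN
    rw [h4, map_neg, h4]
  · rw [wLm_comm h h' ((Nat.coprime_primes hd hq).2 hdq), h3 q hq h' hqN, map_neg]

end Fermat.Agent.ZAL
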