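import Fermat.Agent.ZAL.Out
import Fermat.Agent.ZDegI.Main

/-!
# Theorem Z: existence of the lattice

`exists_zlat` combines `exists_zlat_aux` with the degeneracy inequality `ZDegI.main`.
-/

set_option autoImplicit false
set_option linter.unusedSectionVars false
set_option linter.style.haveILetI false

noncomputable section

open ModularCurve ModularCurve.Period CongruenceSubgroup AlgebraicCurve NumberField
open scoped TensorProduct nonZeroDivisors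

namespace Fermat.Agent.ZAL

open Fermat.Agent.Tate Fermat.Agent.HeckeHom Fermat.Agent.TorsCmp

theorem degMain : DegMain := fun _ _ _ _ hM hN e h0 hNN => ZDegI.main hM hN e h0 hNN

/-- **Existence of the lattice of Theorem Z.** -/
theorem exists_zlat {M N : ℕ} [NeZero M] [NeZero N]
    (hM : Squarefree M) (hM2 : 2 ∣ M) (hNM : N ∣ M)
    (hN4 : 4 < N) {K : Type} [Field K] [NumberField K] (lam : 𝓞 K)
    (hlam : lam ^ 2 = -(N : 𝓞 K)) (hgen : ∀ x : 𝓞 K, ∃ a b : ℤ, x = a + b * lam)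
    (ψ : ClassGroup (𝓞 K) →* Multiplicative (ZMod 3)) (hψ : Function.Surjective ψ)
    (t : ℕ → ZMod 2)
    (ht1 : ∀ l, l.Prime → ¬ l ∣ M → ∀ I : (Ideal (𝓞 K))⁰,
      Ideal.absNorm (I : Ideal (𝓞 K)) = l → t l = ZCm.t ψ (ClassGroup.mk0 I))
    (ht2 : ∀ l, l.Prime → ¬ l ∣ M → ¬ IsSquare (-(N : ZMod l)) → t l = 0)
    (ht3 : ∃ l, l.Prime ∧ ¬ l ∣ M ∧ t l = 1)
    (ht4 : ∀ d, N ∣ d → d ∣ M → d ≠ N → ∃ l, l.Prime ∧ ¬ l ∣ M ∧ t l = 1 ∧
      ¬ IsSquare (-(d : ZMod l)))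
    (hin : ∀ q, q.Prime → N * q ∣ M → ¬ IsSquare (-(N : ZMod q))) :
    ∃ Λ : Submodule ℤ_[2] (parabolicHoms ℤ_[2] (Gamma0 M) ℤ_[2]),
      ZLat M N t (Nat.card {g : ClassGroup (𝓞 K) // ∃ k : ℕ, g ^ (2 ^ k) = 1}) Λ :=
  exists_zlat_aux degMain hM hM2 hNM hN4 lam hlam hgen ψ hψ t ht1 ht2 ht3 ht4 hin

end Fermat.Agent.ZAL
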