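import Fermat.Agent.ZAL.Asm
import Fermat.Agent.ZDegI.Defs

/-!
# The new lattice of Theorem Z
-/

set_option autoImplicit false
set_option linter.unusedSectionVars false
set_option linter.style.haveILetI false

noncomputable section

open ModularCurve AlgebraicCurve CongruenceSubgroup ModularCurve.Period
open scoped MatrixGroups nonZeroDivisors NumberField

namespace Fermat.Agent.ZAL

open Fermat.Agent.X0Places Fermat.Agent.FunField Fermat.Agent.FunField.PlaceLemmas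
open Fermat.Agent.TorsCmp Fermat.Agent.HeckeRed Fermat.Agent.GalJ Fermat.Agent.Degen
open AlgebraicCurve.SemilinearAut
open Fermat.Agent.HeckeHom Fermat.Agent.Tate

local notation "Qb" => AlgebraicClosure ℚ
local notation "GQ" => AlgebraicClosure ℚ ≃ₐ[ℚ] AlgebraicClosure ℚ

/-! ### both degeneracy maps -/

section Beta

variable {L : Type*} [Field L] [Algebra ℚ L] [IsAlgClosed L] (ι : L →+* ℂ)
variable {M : ℕ} [NeZero M] {d : ℕ}

theorem push_wF (h : ExDiv d M) (D : Divisor L (FF L M)) :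
    push (wF ι h : FF L M →ₐ[L] FF L M) D = wS ι h • D := by
  have h1 : push (wF ι h : FF L M →ₐ[L] FF L M) =
      DistribSMul.toAddMonoidHom (Divisor L (FF L M)) (wS ι h) := by
    refine Finsupp.addHom_ext fun v n => ?_
    rw [push_single]
    show _ = wS ι h • Finsupp.single v n
    rw [SemilinearAut.smul_single]
    congr 1
    apply Place.toValuationSubring_injective
    ext f
    rw [mem_res_iff, smul_toValuationSubring,
      ValuationSubring.mem_pointwise_smul_iff_inv_smul_mem, wS_inv, wS_smul]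
    rfl
  rw [h1]
  rfl

theorem pushPic_wF (h : ExDiv d M) (x : Pic0 L (FF L M)) :
    pushPic (wF ι h : FF L M →ₐ[L] FF L M) x = wS ι h • x := by
  obtain ⟨D, rfl⟩ := Pic0.mk_surjective x
  rw [pushPic_mk, pic0_smul_mk]
  exact congrArg Pic0.mk (Subtype.ext (push_wF ι h _))

end Beta

variable {M : ℕ} [NeZero M] {q : ℕ}

/-- push-forwards along both degeneracy maps kill the components -/
theorem NewAt.alpha_beta (hq : q.Prime) {x : Lm M} (hx : NewAt q x) {m : ℕ} [NeZero m]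
    (hm : m * q = M) (h : ExDiv q M) (α β : FF Qb m →ₐ[Qb] FF Qb M)
    (hα : ∀ y, ((α y : FF Qb M) : LaurentSeries Qb) = y)
    (hβ : ∀ y, ((β y : FF Qb M) : LaurentSeries Qb) =
      (haveI : NeZero q := ⟨hq.ne_zero⟩; qExpand Qb q (y : LaurentSeries Qb))) (n : ℕ) :
    pushPic α (pjn M n x) = 0 ∧ pushPic β (pjn M n x) = 0 := by
  obtain ⟨a1, a2⟩ := hx m hm h α hα n
  refine ⟨a1, ?_⟩
  have hq0 : NeZero q := ⟨hq.ne_zero⟩
  subst hm
  have hcop : Nat.Coprime q m := by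
    have h1 := h.cop
    rwa [Nat.mul_div_cancel _ hq.pos] at h1
  have h1 : (wF iotaQbar h : FF Qb (m * q) →ₐ[Qb] FF Qb (m * q)).comp α = β := by
    have h2 : ((wF iotaQbar h : FF Qb (m * q) →+* FF Qb (m * q)).comp
        (α : FF Qb m →+* FF Qb (m * q))) = (β : FF Qb m →+* FF Qb (m * q)) := by
      apply ff_ringHom_ext_gen
      · intro c
        show wF iotaQbar h (α (algebraMap Qb (FF Qb m) c)) = β (algebraMap Qb (FF Qb m) c)
        rw [AlgHom.commutes, AlgEquiv.commutes, AlgHom.commutes]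
      · intro k _ hk
        have hk0 : 0 < k := Nat.pos_of_ne_zero (NeZero.ne k)
        have i1 : NeZero (star k q) := ⟨(star_pos hk0 hq.pos).ne'⟩
        have i2 : NeZero (q * k) := ⟨(Nat.mul_pos hq.pos hk0).ne'⟩
        have hqk : q * k ∣ m * q := by
          rw [mul_comm]
          exact Nat.mul_dvd_mul_right hk q
        have e1 : α (jdF Qb m k hk) = jdF Qb (m * q) k (hk.mul_right q) := by
          apply Subtype.ext
          rw [hα]
          rfl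
        have e2 : β (jdF Qb m k hk) = jdF Qb (m * q) (q * k) hqk := by
          have h3 := beta_jdF (L := Qb) m q k hk hqk
          rw [← h3]
          apply Subtype.ext
          rw [hβ, coe_heckeBetaBar]
        have hs : star k q = q * k := by
          have : Nat.gcd k q = 1 := (hcop.symm.coprime_dvd_left hk)
          rw [star, this, Nat.div_one, Nat.div_one, mul_comm]
        show wF iotaQbar h (α (jdF Qb m k hk)) = β (jdF Qb m k hk)
        rw [e1, wF_jdF, e2]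
        exact jdF_congr hs _ _
    exact AlgHom.ext fun y => RingHom.congr_fun h2 y
  rw [← h1, ← pushPic_pushPic, pushPic_wF]
  exact a2

/-! ### comparison with the definitions of `ZDegI` -/

theorem act_eq {M m : ℕ} [NeZero m] (hm : m ∣ M) (e : MvPolynomial (Sg M) ℤ_[2]) :
    ZDegI.act 2 hm e = act M m hm e := rfl

theorem wL_eq {m d : ℕ} [NeZero m] (h : ExDiv d m) : ZDegI.wL 2 h = wLm h := by
  refine LinearMap.ext fun x => ext_pjn fun n => ?_
  rw [pjn_wLm]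
  exact ZDegI.pj_wL 2 h n x

theorem Lp_eq {m d : ℕ} [NeZero m] (hm : m ∣ M) (e : MvPolynomial (Sg M) ℤ_[2])
    (h : ExDiv d m) : ZDegI.Lp 2 hm e h = eig (act M m hm e) (wLm h) 1 := by
  refine Submodule.ext fun x => ?_
  rw [ZDegI.mem_Lp, mem_eig_one, act_eq, wL_eq]

theorem Lq_eq {m d : ℕ} [NeZero m] (hm : m ∣ M) (e : MvPolynomial (Sg M) ℤ_[2])
    (h : ExDiv d m) : ZDegI.Lq 2 hm e h = eig (act M m hm e) (wLm h) (-1) := by
  refine Submodule.ext fun x => ?_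
  rw [ZDegI.mem_Lq, mem_eig_neg_one, act_eq, wL_eq]

theorem Lnew_le (N : ℕ) (e : MvPolynomial (Sg M) ℤ_[2]) :
    ZDegI.Lnew 2 (dvd_refl M) e N ≤ Lnw N (act M M dvd_rfl e) := by
  intro x hx
  rw [ZDegI.mem_Lnew] at hx
  obtain ⟨h1, h2, h3⟩ := hx
  refine ⟨h1, fun q hq hqM => ?_, fun q hq h hqN => ?_⟩
  · intro m _ hm h α hα n
    have hmM : m ∣ M := ⟨q, hm.symm⟩
    obtain ⟨a1, a2⟩ := h2 m q hq hmM hm.symm h
    have hincl : ZDegI.incl Qb hmM = α := by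
      refine AlgHom.ext fun y => Subtype.ext ?_
      rw [ZDegI.coe_incl, hα]
    constructor
    · have h4 := ZDegI.pj_dnL 2 hmM n x
      rw [a1, map_zero] at h4
      rw [← hincl]
      exact h4.symm
    · have h4 := ZDegI.pj_dnL 2 hmM n (ZDegI.wL 2 h x)
      rw [a2, map_zero, ZDegI.pj_wL] at h4
      rw [← hincl]
      exact h4.symm
  · rw [← wL_eq]
    exact h3 q hq h hqN

/-! ### the final statement -/

/-- **The lattice of Theorem Z**: a saturated submodule of the Tate module of `J₀(M)`. -/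
structure ZLat (M N : ℕ) [NeZero M] (t : ℕ → ZMod 2) (c : ℕ)
    (Λ : Submodule ℤ_[2] (parabolicHoms ℤ_[2] (Gamma0 M) ℤ_[2])) : Prop where
  sat : ∀ x, (2 : ℤ_[2]) • x ∈ Λ → x ∈ Λ
  gal : ∀ g, ∀ x ∈ Λ, galLm M g x ∈ Λ
  hecke : ∀ l (hl : l.Prime) (hlM : ¬ l ∣ M), ∀ x ∈ Λ, parHecke ℤ_[2] ℤ_[2] hl hlM x ∈ Λ
  w : ∀ q, q.Prime → ∀ h : ExDiv q M, ∀ x ∈ Λ, wLm h x ∈ Λ
  new : ∀ q, q.Prime → q ∣ M → ∀ x ∈ Λ, NewAt q x
  sign : ∀ q, q.Prime → ∀ h : ExDiv q M, ¬ q ∣ N → ∀ x ∈ Λ, wLm h x = -x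
  nil : ∀ l (hl : l.Prime) (hlM : ¬ l ∣ M) (a : ℤ_[2]), PadicInt.toZMod a = t l →
    ∃ n : ℕ, ∀ x ∈ Λ, ∃ y ∈ Λ,
      ((parHecke ℤ_[2] ℤ_[2] hl hlM - a • (1 : Module.End ℤ_[2] (Lm M))) ^ n) x =
        (2 : ℤ_[2]) • y
  rank : 2 * c ≤ Module.finrank ℤ_[2] Λ
  rank_le : ∀ A : Subalgebra ℤ_[2] (Module.End ℤ_[2] Λ),
    (∀ l (hl : l.Prime) (hlM : ¬ l ∣ M),
      (parHecke ℤ_[2] ℤ_[2] hl hlM).restrict (hecke l hl hlM) ∈ A) →
    (∀ q (hq : q.Prime) (h : ExDiv q M), (wLm h).restrict (w q hq h) ∈ A) →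
    Module.finrank ℤ_[2] Λ ≤ 2 * Module.finrank ℤ_[2] A

/-- the statement of `ZDegI.main` -/
def DegMain : Prop := ∀ (M N : ℕ) [NeZero M] [NeZero N] (_ : Squarefree M) (hN : N ∣ M)
  (e : TW.TPoly M ℤ_[2]) (_ : ∀ (m : ℕ) [NeZero m] (hm : m ∣ M) (d : ℕ) (h : ExDiv d m),
    N ∣ d → m ≠ N → Module.finrank ℤ_[2] (ZDegI.Lp 2 hm e h) =
      Module.finrank ℤ_[2] (ZDegI.Lq 2 hm e h)) (hNN : ExDiv N N),
  |(Module.finrank ℤ_[2] (ZDegI.Lp 2 hN e hNN) : ℤ) -
    Module.finrank ℤ_[2] (ZDegI.Lq 2 hN e hNN)| ≤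
    Module.finrank ℤ_[2] (ZDegI.Lnew 2 (dvd_refl M) e N)

theorem galLm_poly {M : ℕ} [NeZero M] (r : MvPolynomial (Sg M) ℤ_[2]) (g : GQ) : ∀ x : Lm M,
    act M M dvd_rfl r (galLm M g x) = galLm M g (act M M dvd_rfl r x) := by
  induction r using MvPolynomial.induction_on with
  | C c =>
    intro x
    have : act M M dvd_rfl (MvPolynomial.C c) = algebraMap ℤ_[2] _ c :=
      (act M M dvd_rfl).commutes c
    rw [this]
    exact (map_smul (galLm M g) c x).symm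
  | add p q hp hq =>
    intro x
    rw [map_add, LinearMap.add_apply, LinearMap.add_apply, map_add, hp, hq]
  | mul_X p i hp =>
    intro x
    rw [map_mul, Module.End.mul_apply, Module.End.mul_apply, act_X, ← hp]
    exact congrArg (act M M dvd_rfl p) (gal_parHecke i.2.1 _ g x)

/-- **Existence of the lattice of Theorem Z.** -/
theorem exists_zlat_aux (hmain : DegMain) {M N : ℕ} [hM0 : NeZero M] [NeZero N]
    (hM : Squarefree M) (hM2 : 2 ∣ M) (hNM : N ∣ M)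
    (hN4 : 4 < N) {K : Type} [Field K] [NumberField K] (lam : 𝓞 K)
    (hlam : lam ^ 2 = -(N : 𝓞 K)) (hgen : ∀ x : 𝓞 K, ∃ a b : ℤ, x = a + b * lam)
    (ψ : ClassGroup (𝓞 K) →* Multiplicative (ZMod 3)) (hψ : Function.Surjective ψ)
    (t : ℕ → ZMod 2)
    (ht1 : ∀ l, l.Prime → ¬ l ∣ M → ∀ I : (Ideal (𝓞 K))⁰,
      Ideal.absNorm (I : Ideal (𝓞 K)) = l → t l = ZCm.t ψ (ClassGroup.mk0 I))
    (ht2 : ∀ l, l.Prime → ¬ l ∣ M → ¬ IsSquare (-(N : ZMod l)) → t l = 0)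
    (ht3 : ∃ l, l.Prime ∧ ¬ l ∣ M ∧ t l = 1)
    (ht4 : ∀ d, N ∣ d → d ∣ M → d ≠ N → ∃ l, l.Prime ∧ ¬ l ∣ M ∧ t l = 1 ∧
      ¬ IsSquare (-(d : ZMod l)))
    (hin : ∀ q, q.Prime → N * q ∣ M → ¬ IsSquare (-(N : ZMod q))) :
    ∃ Λ : Submodule ℤ_[2] (parabolicHoms ℤ_[2] (Gamma0 M) ℤ_[2]),
      ZLat M N t (Nat.card {g : ClassGroup (𝓞 K) // ∃ k : ℕ, g ^ (2 ^ k) = 1}) Λ := by
  obtain ⟨e, he1, he⟩ := exists_e M (fun l => t l)
  have he2 : ∀ (m : ℕ) [NeZero m] (hm : m ∣ M), act M m hm (e * e) = act M m hm e :=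
    fun m _ hm => (he m hm).1
  have he3 : ∀ (m : ℕ) [NeZero m] (hm : m ∣ M), ∀ s ∉ resId (fun l : Sg M => t l),
    ∃ r, act M m hm (e * (s * r)) = act M m hm e := fun m _ hm => (he m hm).2
  have h0 : ∀ (m : ℕ) [NeZero m] (hm : m ∣ M) (d : ℕ) (h : ExDiv d m),
      N ∣ d → m ≠ N → Module.finrank ℤ_[2] (ZDegI.Lp 2 hm e h) =
      Module.finrank ℤ_[2] (ZDegI.Lq 2 hm e h) := by
    intro m _ hm d h hNd hmN
    rw [Lp_eq, Lq_eq]
    exact finrank_eig_eq hM hM2 hN4 t ht3 ht4 hin he2 he3 m hm d h hNd hmN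
  have h1 := hmain M N hM hNM e h0 (exDiv_self N)
  rw [Lp_eq, Lq_eq] at h1
  have h2 := finrank_eig_add_le hM hM2 hNM hN4 lam hlam hgen ψ hψ t ht1 ht2 ht3 he1 he2 he3
  have hnoeth : IsNoetherian ℤ_[2] (Lm M) := isNoetherian_of_isNoetherianRing_of_finite ℤ_[2] (Lm M)
  have hfin : Module.Finite ℤ_[2] (Lnw N (act M M dvd_rfl e)) := Module.IsNoetherian.finite _ _
  have key : ∀ a b c d : ℕ, |(a : ℤ) - b| ≤ c → 2 * d + a ≤ b → 2 * d ≤ c := by
    intro a b c d h1 h2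
    rw [abs_le] at h1
    omega
  have h3 : Module.finrank ℤ_[2] (ZDegI.Lnew 2 (dvd_refl M) e N) ≤
      Module.finrank ℤ_[2] (Lnw N (act M M dvd_rfl e)) := Submodule.finrank_mono (Lnew_le N e)
  have h4 : 2 * Nat.card {g : ClassGroup (𝓞 K) // ∃ k : ℕ, g ^ (2 ^ k) = 1} ≤
      Module.finrank ℤ_[2] (Lnw N (act M M dvd_rfl e)) :=
    (key _ _ _ _ h1 h2).trans h3
  have hT : ∀ l (hl : l.Prime) (hlM : ¬ l ∣ M), ∀ x ∈ Lnw N (act M M dvd_rfl e),
      parHecke ℤ_[2] ℤ_[2] hl hlM x ∈ Lnw N (act M M dvd_rfl e) := by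
    intro l hl hlM x hx
    refine lnw_hecke hl hlM (fun y => ?_) hx
    have h5 : act M M dvd_rfl (MvPolynomial.X (⟨l, hl, hlM⟩ : Sg M)) =
      parHecke ℤ_[2] ℤ_[2] hl hlM := act_X dvd_rfl _
    rw [← h5, ← Module.End.mul_apply, ← Module.End.mul_apply, ← map_mul, ← map_mul, mul_comm]
  have hw : ∀ q, q.Prime → ∀ h : ExDiv q M, ∀ x ∈ Lnw N (act M M dvd_rfl e),
      wLm h x ∈ Lnw N (act M M dvd_rfl e) := by
    intro q hq h x hx
    refine lnw_w hq h (fun y => ?_) hx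
    exact (w_poly (lp := fun l : Sg M => l.1) (fun i => i.2.1) (fun i => i.2.2)
      (fun i => act_X dvd_rfl i) (isW_wLm h) e y).symm
  refine ⟨Lnw N (act M M dvd_rfl e), ⟨fun x => lnw_saturated, fun g x hx =>
    lnw_gal (fun g x => galLm_poly e g x) g hx, hT, hw, fun q hq hqM x hx => hx.2.1 q hq hqM,
    fun q hq h hqN x hx => hx.2.2 q hq h hqN, ?_, h4, fun A hTA hwA =>
      rank_le hM _ hT hw (fun q hq hqM x hx => hx.2.1 q hq hqM) A hTA hwA⟩⟩
  intro l hl hlM a ha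
  have h5 : act M M dvd_rfl (MvPolynomial.X (⟨l, hl, hlM⟩ : Sg M)) =
      parHecke ℤ_[2] ℤ_[2] hl hlM := act_X dvd_rfl _
  have h6 : (MvPolynomial.X (⟨l, hl, hlM⟩ : Sg M) - MvPolynomial.C a : MvPolynomial (Sg M) ℤ_[2]) ∈
      resId (fun l : Sg M => t l) := X_sub_C_mem_resId ha
  obtain ⟨n, hn⟩ := exists_pow_mem (act M M dvd_rfl) (resId (fun l : Sg M => t l))
    (resId_isMaximal _).ne_top e (he3 M dvd_rfl) h6
  have h7 : act M M dvd_rfl (MvPolynomial.X (⟨l, hl, hlM⟩ : Sg M) - MvPolynomial.C a) =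
      parHecke ℤ_[2] ℤ_[2] hl hlM - a • (1 : Module.End ℤ_[2] (Lm M)) := by
    rw [map_sub, h5]
    congr 1
    have : act M M dvd_rfl (MvPolynomial.C a) = algebraMap ℤ_[2] _ a :=
      (act M M dvd_rfl).commutes a
    rw [this, Algebra.algebraMap_eq_smul_one]
  have hstab : ∀ k : ℕ, ∀ x ∈ Lnw N (act M M dvd_rfl e),
      ((parHecke ℤ_[2] ℤ_[2] hl hlM - a • (1 : Module.End ℤ_[2] (Lm M))) ^ k) x ∈
        Lnw N (act M M dvd_rfl e) := by
    intro k
    induction k with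
    | zero => intro x hx; exact hx
    | succ k ih =>
      intro x hx
      rw [pow_succ, Module.End.mul_apply]
      apply ih
      exact Submodule.sub_mem _ (hT l hl hlM x hx) (Submodule.smul_mem _ a hx)
  refine ⟨n, fun x hx => ?_⟩
  obtain ⟨y, hy⟩ := hn x
  rw [mul_comm, map_mul, map_pow, h7, Module.End.mul_apply, hx.1] at hy
  have h8 := hstab n x hx
  rw [hy] at h8
  exact ⟨y, lnw_saturated h8, hy⟩

end Fermat.Agent.ZAL
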