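import Fermat.Agent.ZAL.WHecke
import Fermat.Agent.BaseChangeFF.Divisible
import Fermat.Agent.X0Places.Counts

/-!
# Points of the upper half plane and places of the function field of `X₀(M)`
-/

set_option autoImplicit false
set_option linter.unusedSectionVars false
set_option linter.style.haveILetI false

noncomputable section

open UpperHalfPlane Function ModularCurve Filter ModularForm AlgebraicCurve WithZero
  CongruenceSubgroup
open scoped Manifold MatrixGroups Topology ModularForm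

namespace Fermat.Agent.ZAL

open Fermat.Agent.X0Places Fermat.Agent.FunField Fermat.Agent.FunField.PlaceLemmas
open Fermat.Agent.TorsCmp Fermat.Agent.GalJ
open AlgebraicCurve.SemilinearAut
open Matrix.SpecialLinearGroup (mapGL)

theorem valMer_compG (τ : ℍ) {g : GL (Fin 2) ℝ} (hg : 0 < (g.det : ℝ)) (x : Mer) :
    valMer τ (compG g x) = valMer (g • τ) x := by
  obtain ⟨a, b, hb, rfl⟩ := IsFractionRing.div_surjective (A := Holo) x
  have key : ∀ f : Holo, valHolo τ (glHolo g hg f) = valHolo (g • τ) f := by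
    intro f
    by_cases hf : f = 0
    · rw [hf, map_zero, map_zero, map_zero]
    · have hf' : glHolo g hg f ≠ 0 :=
        fun h => hf (glHolo_injective g hg (h.trans (map_zero _).symm))
      rw [valHolo_apply τ hf', valHolo_apply _ hf]
      have : ordH τ (glHolo g hg f : ℍ → ℂ) = ordH (g • τ) (f : ℍ → ℂ) :=
        ordH_comp_smul (g := g) τ hg
      rw [this]
  rw [map_div₀, map_div₀, map_div₀, compG_algebraMap g hg, compG_algebraMap g hg,
    valMer_algebraMap, valMer_algebraMap, valMer_algebraMap, valMer_algebraMap, key, key]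

/-- standard points in the `SL₂(ℤ)`-orbits -/
theorem exists_std (a : ℂ) : ∃ (τ : ℍ) (g : SL(2, ℤ)), Fermat.Agent.JInv.jInv τ = a ∧ g • τ = τ ∧
    orderOf (derivAt g τ) = ordJ τ ∧ ∀ (N : ℕ) [NeZero N] (x : XN N), g • x = x ∨
      ordJ τ ≤ Nat.card (MulAction.orbit (Subgroup.zpowers g) x) := by
  rcases eq_or_ne a 0 with h0 | h0
  · refine ⟨Fermat.Agent.JInv.rho, ModularGroup.S * ModularGroup.T, ?_, ST_smul_rho,
      by rw [orderOf_derivAt_ST, ordJ_rho], fun N _ x => ?_⟩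
    · rw [h0]; exact Fermat.Agent.JInv.jInv_rho
    · rw [ordJ_rho]; exact fix_or_card N Nat.prime_three x (ST_pow_three_smul N x)
  · rcases eq_or_ne a 1728 with h1 | h1
    · refine ⟨UpperHalfPlane.I, ModularGroup.S, ?_, ?_,
        by rw [orderOf_derivAt_S, ordJ_I], fun N _ x => ?_⟩
      · rw [h1]; exact Fermat.Agent.JInv.jInv_I
      · rw [UpperHalfPlane.modular_S_smul]
        apply UpperHalfPlane.ext
        simp
      · rw [ordJ_I]; exact fix_or_card N Nat.prime_two x (S_pow_two_smul N x)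
    · obtain ⟨τ, hτ⟩ := Fermat.Agent.JInv.jInv_surjective a
      have hg := jInv_generic (τ := τ) (by rw [hτ]; exact h0) (by rw [hτ]; exact h1)
      exact ⟨τ, 1, hτ, one_smul _ _, by rw [orderOf_derivAt_one, ordJ_generic hg.1 hg.2],
        fun N _ x => Or.inl (one_smul _ _)⟩

variable {L : Type*} [Field L] [Algebra ℚ L] [IsAlgClosed L] (ι : L →+* ℂ)
variable {M : ℕ} [NeZero M]

/-- the place `v` is the point `σ` -/
def IsPt (σ : ℍ) (v : Place L (FF L M)) : Prop :=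
  ∀ x, x ∈ v.toValuationSubring ↔ valMer σ (toMer ι M x) ≤ 1

variable {ι}

theorem IsPt.unique {σ : ℍ} {v v' : Place L (FF L M)} (h : IsPt ι σ v) (h' : IsPt ι σ v') :
    v = v' := by
  apply Place.toValuationSubring_injective
  ext x
  rw [h x, h' x]

theorem IsPt.gamma {σ : ℍ} {v : Place L (FF L M)} (h : IsPt ι σ v) {γ : SL(2, ℤ)}
    (hγ : γ ∈ Gamma0 M) : IsPt ι (γ • σ) v := by
  intro x
  rw [h x, ← valMer_compMer, toMer_invariant x ⟨γ, hγ⟩]

theorem IsPt.w {d : ℕ} (h : ExDiv d M) {σ : ℍ} {v : Place L (FF L M)} (hv : IsPt ι σ v) :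
    IsPt ι (h.gl • σ) (wS ι h • v) := by
  intro x
  rw [smul_toValuationSubring, ValuationSubring.mem_pointwise_smul_iff_inv_smul_mem, wS_inv,
    wS_smul, hv, toMer_wF, valMer_compG _ h.gl_pos]

theorem mk_sigma_place {τ : ℍ} {a : L} (ha : Fermat.Agent.JInv.jInv τ = ι a) (g : SL(2, ℤ)) :
    IsPt ι (g⁻¹ • τ) ((embTau ι M τ a ha).place (g : XN M)) := by
  intro y
  rw [EmbData.mem_place]
  show valMer τ (sigma ι M (g : XN M) y) ≤ 1 ↔ _
  rw [sigma_mk, valMer_compMer]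

theorem exists_val (ι : L →+* ℂ) (v : Place L (FF L M)) (hv : 0 ≤ v.ord (jF L M)) :
    ∃ a : L, 0 < v.ord (jF L M - algebraMap L (FF L M) a) :=
  Fermat.Agent.BaseChangeFF.exists_value v (jF L M) hv (jF_transcendental_aux ι M)

/-- every place outside the cusps is a point -/
theorem exists_isPt (ι : L →+* ℂ) (v : Place L (FF L M)) (hv : 0 ≤ v.ord (jF L M)) :
    ∃ σ : ℍ, IsPt ι σ v := by
  obtain ⟨a, ha⟩ := exists_val ι v hv
  obtain ⟨τ, hτ⟩ := Fermat.Agent.JInv.jInv_surjective (ι a)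
  obtain ⟨x, hx⟩ := (embTau ι M τ a hτ).exists_place_eq
    (by rw [embTau_t, adjoin_sub_algebraMap, finrank_jF]) v ha
  obtain ⟨g, rfl⟩ := QuotientGroup.mk_surjective x
  exact ⟨g⁻¹ • τ, hx ▸ mk_sigma_place hτ g⟩

theorem isPt_place {τ : ℍ} {a : L} (ha : Fermat.Agent.JInv.jInv τ = ι a) :
    IsPt ι τ ((embTau ι M τ a ha).place ((1 : SL(2, ℤ)) : XN M)) := by
  have h := mk_sigma_place (M := M) ha 1
  rwa [inv_one, one_smul] at h

theorem valHolo_lt_one_iff (τ : ℍ) (f : Holo) : valHolo τ f < 1 ↔ (f : ℍ → ℂ) τ = 0 := by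
  by_cases hf : f = 0
  · subst hf
    rw [map_zero]
    exact ⟨fun _ => rfl, fun _ => zero_lt_one⟩
  · have hfm : MDiff (f : ℍ → ℂ) := mem_holo.1 f.2
    rw [valHolo_apply _ hf, ← exp_zero, exp_lt_exp, ← ordH_ne_zero_iff hfm]
    have h2 : ordH τ (f : ℍ → ℂ) ≠ ⊤ := by
      intro h
      rw [ordH_eq_top_iff hfm] at h
      exact hf (Subtype.ext h)
    constructor
    · intro h h0
      rw [h0] at h
      simp at h
    · intro h
      have : (ordH τ (f : ℍ → ℂ)).toNat ≠ 0 := by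
        intro h'
        rcases (ENat.toNat_eq_zero).1 h' with h' | h'
        · exact h h'
        · exact h2 h'
      omega

theorem toMer_jF_sub (a : L) : toMer ι M (jF L M - algebraMap L (FF L M) a) =
    algebraMap Holo Mer (jHolo - constHolo (ι a)) := by
  rw [map_sub, toMer_jF, toMer_algebraMap, map_sub]

theorem valMer_toMer_jF_sub (σ : ℍ) (a : L) : valMer σ (toMer ι M (jF L M -
    algebraMap L (FF L M) a)) < 1 ↔ Fermat.Agent.JInv.jInv σ = ι a := by
  rw [toMer_jF_sub, valMer_algebraMap, valHolo_lt_one_iff, jHolo_sub, sub_eq_zero]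

theorem IsPt.lt_one_iff {σ : ℍ} {v : Place L (FF L M)} (hv : IsPt ι σ v) {x : FF L M}
    (hx : x ≠ 0) : valMer σ (toMer ι M x) < 1 ↔ 0 < v.ord x := by
  have h1 : (toMer ι M x) ≠ 0 := (map_ne_zero _).2 hx
  have h2 : valMer σ (toMer ι M x) < 1 ↔ ¬ x⁻¹ ∈ v.toValuationSubring := by
    rw [hv, map_inv₀, map_inv₀, not_le, one_lt_inv₀]
    exact zero_lt_iff.2 ((Valuation.ne_zero_iff _).2 h1)
  rw [h2, mem_iff_ord_nonneg v (inv_ne_zero hx), Place.ord_inv]
  omega

theorem IsPt.jInv_eq {σ : ℍ} {v : Place L (FF L M)} (hv : IsPt ι σ v) :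
    ∃ a : L, Fermat.Agent.JInv.jInv σ = ι a ∧ 0 < v.ord (jF L M - algebraMap L (FF L M) a) := by
  have hj0 : jF L M ≠ 0 := fun h => (jF_transcendental_aux (L := L) ι M)
    (by rw [h]; exact isAlgebraic_zero)
  have h1 : 0 ≤ v.ord (jF L M) := by
    rw [← mem_iff_ord_nonneg v hj0, hv, toMer_jF, valMer_algebraMap]
    exact valHolo_le_one _ _
  obtain ⟨a, ha⟩ := exists_val ι v h1
  refine ⟨a, ?_, ha⟩
  rw [← valMer_toMer_jF_sub (ι := ι) (M := M), hv.lt_one_iff]
  · exact ha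
  · intro h
    rw [h] at ha
    simp at ha

/-- the ramification index -/
theorem IsPt.exists_ram {σ : ℍ} {v : Place L (FF L M)} (hv : IsPt ι σ v) :
    ∃ e : ℕ, 0 < e ∧ (∀ x : FF L M, x ≠ 0 → valMer σ (toMer ι M x) = exp (-((e : ℤ) * v.ord x))) ∧
      (Fermat.Agent.JInv.jInv σ ≠ 0 → Fermat.Agent.JInv.jInv σ ≠ 1728 → e = 1) := by
  obtain ⟨a, ha, -⟩ := hv.jInv_eq
  have h1 := isPt_place (M := M) ha
  have h2 := hv.unique h1
  refine ⟨(embTau ι M σ a ha).idx ((1 : SL(2, ℤ)) : XN M), (embTau ι M σ a ha).idx_pos _,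
    fun x hx => ?_, fun h0 h1728 => ?_⟩
  · have h3 := (embTau ι M σ a ha).w_eq ((1 : SL(2, ℤ)) : XN M) hx
    rw [h2, ← h3]
    show _ = valMer σ (sigma ι M ((1 : SL(2, ℤ)) : XN M) x)
    rw [sigma_mk, inv_one, compMer_one]
  · have hg := jInv_generic h0 h1728
    have hJ := ordJ_generic hg.1 hg.2
    have H := orbitHyp_tau ι M (finrank_jF L M) ha (g := 1) (one_smul _ _)
      (by rw [orderOf_derivAt_one, hJ]) (fun x => Or.inl (one_smul _ _))
    have h3 := H.card_mul_idx ((1 : SL(2, ℤ)) : XN M)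
    have h4 : (embTau ι M σ a ha).e0 = 1 := hJ
    rw [h4] at h3
    exact Nat.eq_one_of_mul_eq_one_left h3

/-- two points give the same place iff they are equivalent under `Γ₀(M)` -/
theorem IsPt.orbit {σ σ' : ℍ} {v : Place L (FF L M)} (hv : IsPt ι σ v) (hv' : IsPt ι σ' v) :
    ∃ γ ∈ Gamma0 M, γ • σ = σ' := by
  obtain ⟨a, ha, ha0⟩ := hv.jInv_eq
  have ha' : Fermat.Agent.JInv.jInv σ' = ι a := by
    rw [← valMer_toMer_jF_sub (ι := ι) (M := M), hv'.lt_one_iff]
    · exact ha0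
    · intro h
      rw [h] at ha0
      simp at ha0
  obtain ⟨τ, g, hτ, hg, hord, hfix⟩ := exists_std (ι a)
  obtain ⟨g1, h1⟩ := Fermat.Agent.JInv.jInv_eq_iff.1 (hτ.trans ha.symm)
  obtain ⟨g2, h2⟩ := Fermat.Agent.JInv.jInv_eq_iff.1 (hτ.trans ha'.symm)
  have H := orbitHyp_tau ι M (finrank_jF L M) hτ hg hord (hfix M)
  have e1 := mk_sigma_place (M := M) hτ g1⁻¹
  have e2 := mk_sigma_place (M := M) hτ g2⁻¹
  rw [inv_inv, h1] at e1
  rw [inv_inv, h2] at e2
  have h3 := (e1.unique hv).trans (hv'.unique e2)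
  obtain ⟨⟨z, k, hz⟩, hzk⟩ := (H.place_eq_iff _ _).1 h3
  have h4 : (((z * g2⁻¹ : SL(2, ℤ)) : XN M)) = ((g1⁻¹ : SL(2, ℤ)) : XN M) := hzk
  rw [QuotientGroup.eq] at h4
  have hzτ : z • τ = τ := by
    have h5 : g ^ k • τ = τ :=
      MulAction.mem_stabilizer_iff.1 (Subgroup.zpow_mem _ (MulAction.mem_stabilizer_iff.2 hg) k)
    rw [← hz]
    exact h5
  refine ⟨g2 * z⁻¹ * g1⁻¹, ?_, ?_⟩
  · convert h4 using 1
    group
  · rw [mul_smul, mul_smul, ← h1, inv_smul_smul, ← h2]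
    congr 1
    rw [inv_smul_eq_iff, hzτ]

end Fermat.Agent.ZAL
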