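import Fermat.Agent.ZAL.Level
import Fermat.Agent.ZNewU.Main
import Fermat.Agent.ZRank.Rank
import Fermat.Agent.S21

/-!
# The upper bound for the rank of a new lattice
-/

set_option autoImplicit false
set_option linter.unusedSectionVars false
set_option linter.style.haveILetI false

noncomputable section

open ModularCurve AlgebraicCurve CongruenceSubgroup ModularCurve.Period
open scoped MatrixGroups

namespace Fermat.Agent.ZAL

open Fermat.Agent.X0Places Fermat.Agent.FunField Fermat.Agent.FunField.PlaceLemmas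
open Fermat.Agent.TorsCmp Fermat.Agent.HeckeRed Fermat.Agent.GalJ Fermat.Agent.Degen
open AlgebraicCurve.SemilinearAut
open Fermat.Agent.HeckeHom Fermat.Agent.Tate

local notation "Qb" => AlgebraicClosure ℚ
local notation "GQ" => AlgebraicClosure ℚ ≃ₐ[ℚ] AlgebraicClosure ℚ

variable {M : ℕ} [NeZero M]

/-- the Atkin-Lehner involution on the Tate module -/
def wLm {d : ℕ} (h : ExDiv d M) : Module.End ℤ_[2] (Lm M) :=
  Tate.ind (comparisonJ M 2) (parabolicHoms ℤ_[2] (Gamma0 M) ℤ_[2]) (comparisonJ_mem_iff M 2)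
    (wJ h)

theorem pjn_wLm {d : ℕ} (h : ExDiv d M) (n : ℕ) (φ : Lm M) :
    pjn M n (wLm h φ) = wS iotaQbar h • pjn M n φ :=
  pr_ind _ _ (comparisonJ_mem_iff M 2) _ n φ

theorem isW_wLm {d : ℕ} (h : ExDiv d M) : IsW h (wLm h).toAddMonoidHom := fun n φ => pjn_wLm h n φ

/-- the Galois action on the Tate module -/
def galLm (M : ℕ) [NeZero M] : GQ →* Module.End ℤ_[2] (Lm M) :=
  Tate.rep (comparisonJ M 2) (parabolicHoms ℤ_[2] (Gamma0 M) ℤ_[2]) (comparisonJ_mem_iff M 2) GQ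

theorem pjn_galLm (g : GQ) (n : ℕ) (φ : Lm M) : pjn M n (galLm M g φ) = g • pjn M n φ :=
  pr_rep _ _ (comparisonJ_mem_iff M 2) g n φ

/-- push-forward to a divisor of the level kills `x` and `w x` -/
def NewAt (q : ℕ) (x : Lm M) : Prop :=
  ∀ (m : ℕ) [NeZero m] (_ : m * q = M) (h : ExDiv q M) (α : FF Qb m →ₐ[Qb] FF Qb M)
    (_ : ∀ y, ((α y : FF Qb M) : LaurentSeries Qb) = y) (n : ℕ),
    pushPic α (pjn M n x) = 0 ∧ pushPic α (wS iotaQbar h • pjn M n x) = 0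

theorem dataU_par_eq (hM : Squarefree M) {q : ℕ} (hq : q.Prime) (hqM : q ∣ M) [NeZero q]
    (h : ExDiv q M) {x : Lm M} (hx : NewAt q x) :
    (dataU q hqM).par ℤ_[2] ℤ_[2] x = -(wLm h x) := by
  obtain ⟨m, rfl⟩ : ∃ m, M = m * q := ⟨M / q, (Nat.div_mul_cancel hqM).symm⟩
  have hm0 : NeZero m := ⟨fun h0 => NeZero.ne (m * q) (by rw [h0, zero_mul])⟩
  have hqm : ¬ q ∣ m := by
    rintro ⟨k, rfl⟩
    have := hM q ⟨k, by ring⟩
    rw [Nat.isUnit_iff] at this
    exact hq.one_lt.ne' this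
  apply Subtype.ext
  have h1 := ZNewUb.dataU_eq_neg_w (p := 2) hq hqm h (φ := x) (ψ := wLm h x) (fun n => pjn_wLm h n x)
    (fun n => (hx m rfl h (heckeAlphaBar Qb m q) (fun y => coe_heckeAlphaBar m q y) n).2)
  exact h1

/-- **the upper bound for the rank** -/
theorem rank_le (hM : Squarefree M) (Λ : Submodule ℤ_[2] (Lm M))
    (hT : ∀ l (hl : l.Prime) (hlM : ¬ l ∣ M), ∀ x ∈ Λ, parHecke ℤ_[2] ℤ_[2] hl hlM x ∈ Λ)
    (hw : ∀ q, q.Prime → ∀ h : ExDiv q M, ∀ x ∈ Λ, wLm h x ∈ Λ)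
    (hnew : ∀ q, q.Prime → q ∣ M → ∀ x ∈ Λ, NewAt q x)
    (A : Subalgebra ℤ_[2] (Module.End ℤ_[2] Λ))
    (hTA : ∀ l (hl : l.Prime) (hlM : ¬ l ∣ M),
      (parHecke ℤ_[2] ℤ_[2] hl hlM).restrict (hT l hl hlM) ∈ A)
    (hwA : ∀ q (hq : q.Prime) (h : ExDiv q M), (wLm h).restrict (hw q hq h) ∈ A) :
    Module.finrank ℤ_[2] Λ ≤ 2 * Module.finrank ℤ_[2] A := by
  have hex : ∀ q, q.Prime → q ∣ M → ExDiv q M := by
    intro q hq hqM
    refine ⟨hqM, ?_⟩
    rw [Nat.Prime.coprime_iff_not_dvd hq]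
    rintro ⟨k, hk⟩
    have h1 : M = q * q * k := by
      rw [← Nat.mul_div_cancel' hqM, hk]; ring
    have := hM q ⟨k, h1⟩
    rw [Nat.isUnit_iff] at this
    exact hq.one_lt.ne' this
  have hgen : ∀ i : IdxF M (∅ : Set ℕ), ∃ hi : ∀ v ∈ Λ, (gens M ∅ i).D.par ℤ_[2] ℤ_[2] v ∈ Λ,
      ((gens M ∅ i).D.par ℤ_[2] ℤ_[2]).restrict hi ∈ A := by
    rintro (l | q)
    · have h1 : (gens M ∅ (Sum.inl l)).D.par ℤ_[2] ℤ_[2] =
          parHecke ℤ_[2] ℤ_[2] l.2.1 l.2.2.1 := by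
        refine LinearMap.ext fun x => Subtype.ext ?_
        change (dataT l.2.1 l.2.2.1).hom ℤ_[2] x = heckeHom l.2.1 l.2.2.1 ℤ_[2] x
        rw [hom_dataT]
      refine ⟨fun v hv => by rw [h1]; exact hT _ l.2.1 l.2.2.1 v hv, ?_⟩
      have h2 := hTA l.1 l.2.1 l.2.2.1
      convert h2 using 1
      refine LinearMap.ext fun x => Subtype.ext ?_
      exact LinearMap.congr_fun h1 (x : Lm M)
    · have hq0 : NeZero q.1 := ⟨q.2.1.ne_zero⟩
      have h := hex q.1 q.2.1 q.2.2.1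
      have h1 : ∀ x ∈ Λ, (gens M ∅ (Sum.inr q)).D.par ℤ_[2] ℤ_[2] x = -(wLm h x) := by
        intro x hx
        exact dataU_par_eq hM q.2.1 q.2.2.1 h (hnew q.1 q.2.1 q.2.2.1 x hx)
      refine ⟨fun v hv => by rw [h1 v hv]; exact Λ.neg_mem (hw q.1 q.2.1 h v hv), ?_⟩
      have h2 := A.smul_mem (hwA q.1 q.2.1 h) (-1 : ℤ_[2])
      convert h2 using 1
      refine LinearMap.ext fun x => Subtype.ext ?_
      exact (h1 x x.2).trans (_root_.neg_one_smul ℤ_[2] (wLm h (x : Lm M))).symm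
  have hact : ∀ x : FreeAlgebra ℤ (IdxF M (∅ : Set ℕ)),
      ∃ hx : ∀ v ∈ Λ, actParG (gens M ∅) ℤ_[2] ℤ_[2] x v ∈ Λ,
      (actParG (gens M ∅) ℤ_[2] ℤ_[2] x).restrict hx ∈ A := by
    intro x
    induction x using FreeAlgebra.induction with
    | grade0 r =>
      have h1 : ∀ v, actParG (gens M ∅) ℤ_[2] ℤ_[2] (algebraMap ℤ _ r) v = r • v := by
        intro v
        rw [AlgHom.commutes]
        rfl
      refine ⟨fun v hv => by rw [h1]; exact Λ.toAddSubgroup.zsmul_mem hv r, ?_⟩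
      have h2 : (algebraMap ℤ_[2] (Module.End ℤ_[2] Λ) (r : ℤ_[2])) ∈ A := A.algebraMap_mem _
      convert h2 using 1
      refine LinearMap.ext fun x => Subtype.ext ?_
      refine (h1 x).trans ?_
      exact (Int.cast_smul_eq_zsmul ℤ_[2] r (x : Lm M)).symm
    | grade1 i =>
      obtain ⟨hi, hi'⟩ := hgen i
      have h1 : actParG (gens M ∅) ℤ_[2] ℤ_[2] (FreeAlgebra.ι ℤ i) =
          (gens M ∅ i).D.par ℤ_[2] ℤ_[2] := by
        rw [actParG, FreeAlgebra.lift_ι_apply]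
      refine ⟨fun v hv => by rw [h1]; exact hi v hv, ?_⟩
      convert hi' using 1
      refine LinearMap.ext fun x => Subtype.ext ?_
      exact LinearMap.congr_fun h1 (x : Lm M)
    | mul a b ha hb =>
      obtain ⟨ha, ha'⟩ := ha
      obtain ⟨hb, hb'⟩ := hb
      refine ⟨fun v hv => by rw [map_mul]; exact ha _ (hb v hv), ?_⟩
      convert A.mul_mem ha' hb' using 1
      refine LinearMap.ext fun x => Subtype.ext ?_
      exact LinearMap.congr_fun (map_mul (actParG (gens M ∅) ℤ_[2] ℤ_[2]) a b) (x : Lm M)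
    | add a b ha hb =>
      obtain ⟨ha, ha'⟩ := ha
      obtain ⟨hb, hb'⟩ := hb
      refine ⟨fun v hv => by rw [map_add]; exact Λ.add_mem (ha v hv) (hb v hv), ?_⟩
      convert A.add_mem ha' hb' using 1
      refine LinearMap.ext fun x => Subtype.ext ?_
      exact LinearMap.congr_fun (map_add (actParG (gens M ∅) ℤ_[2] ℤ_[2]) a b) (x : Lm M)
  exact ZRank.finrank_le M (Fermat.Agent.S21.result M) ℤ_[2] Λ (fun x => (hact x).choose)
    (Subalgebra.toSubmodule A) (fun x => (hact x).choose_spec)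

end Fermat.Agent.ZAL
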