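import Fermat.Agent.ZAL.THecke
import Fermat.Agent.ZAL.Lat
import Fermat.Agent.Tate.Input
import Fermat.Agent.TorsCmp.Surj

/-!
# The Tate module of `J₀(M)` at `2` and Atkin-Lehner involutions
-/

set_option autoImplicit false
set_option linter.unusedSectionVars false
set_option linter.style.haveILetI false

noncomputable section

open ModularCurve AlgebraicCurve CongruenceSubgroup ModularCurve.Period
open scoped MatrixGroups

namespace Fermat.Agent.ZAL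

open Fermat.Agent.X0Places Fermat.Agent.FunField Fermat.Agent.FunField.PlaceLemmas
open Fermat.Agent.TorsCmp Fermat.Agent.HeckeRed Fermat.Agent.GalJ Fermat.Agent.Degen
open AlgebraicCurve.SemilinearAut
open Fermat.Agent.HeckeHom Fermat.Agent.Tate

variable (M : ℕ) [NeZero M]

/-- the Tate module -/
abbrev Lm : Type := parabolicHoms ℤ_[2] (Gamma0 M) ℤ_[2]

/-- components -/
def pjn (n : ℕ) : Lm M →+ JZero M :=
  (tor 2 (JZero M) n).subtype.comp
    (Tate.pr (comparisonJ M 2) (parabolicHoms ℤ_[2] (Gamma0 M) ℤ_[2]) (comparisonJ_mem_iff M 2) n)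

variable {M}

theorem pjn_eq (n : ℕ) (φ : Lm M) : pjn M n φ = (Tate.pr (comparisonJ M 2)
    (parabolicHoms ℤ_[2] (Gamma0 M) ℤ_[2]) (comparisonJ_mem_iff M 2) n φ : JZero M) := rfl

theorem ext_pjn {φ ψ : Lm M} (h : ∀ n, pjn M n φ = pjn M n ψ) : φ = ψ :=
  ext_pr _ _ (comparisonJ_mem_iff M 2) h

theorem two_zsmul_eq {φ : Lm M} : (2 : ℤ_[2]) • φ = (2 : ℕ) • φ := by
  rw [two_smul, two_nsmul]

variable (M)

theorem jdiv (x : JZero M) : ∃ y : JZero M, (2 : ℕ) • y = x := by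
  obtain ⟨y, hy⟩ := Fermat.Agent.BaseChangeFF.pic0_divisible (AlgebraicClosure ℚ)
    (FF (AlgebraicClosure ℚ) M) 2 (by norm_num) x
  exact ⟨y, hy⟩

/-- the lattice data of `J₀(M)` -/
def latData : LatData (JZero M) (Lm M) where
  pj := pjn M
  two_pj n φ := p_smul_pr _ _ (comparisonJ_mem_iff M 2) n φ
  pow_pj n φ := (mem_tor 2).1 (Tate.pr (comparisonJ M 2) _ (comparisonJ_mem_iff M 2) n φ).2
  surj n x hx := by
    obtain ⟨y, hy, hyn⟩ := exists_compatible iotaQbar M 2 n ⟨x, (mem_tor 2).2 hx⟩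
    obtain ⟨φ, hφ⟩ := exists_lim (comparisonJ M 2) _ (comparisonJ_mem_iff M 2) y hy
    refine ⟨φ, ?_⟩
    rw [pjn_eq, hφ, hyn]
  ker n φ h := by
    obtain ⟨ψ, hψ⟩ := exists_eq_smul_of_pr_eq_zero _ _ (comparisonJ_mem_iff M 2)
      (fun ψ hψ => TateInput.saturated ψ hψ) n φ (Subtype.ext h)
    refine ⟨ψ, ?_⟩
    rw [hψ]
    have : ((2 : ℤ_[2]) ^ n) = ((2 ^ n : ℕ) : ℤ_[2]) := by push_cast; rfl
    exact (congrArg (fun c : ℤ_[2] => c • ψ) this).trans (Nat.cast_smul_eq_nsmul ℤ_[2] (2 ^ n) ψ)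
  tf φ h := by
    apply Subtype.ext
    refine AddMonoidHom.ext fun γ => ?_
    have h1 := congrArg (fun f : Lm M => (f : Additive (Gamma0 M) →+ ℤ_[2]) γ) h
    have h2 : (2 : ℕ) • ((φ : Additive (Gamma0 M) →+ ℤ_[2]) γ) = 0 := h1
    rw [nsmul_eq_mul] at h2
    exact (mul_eq_zero.1 h2).resolve_left (by exact_mod_cast two_ne_zero')
  div := jdiv M

variable {M}

theorem latData_pj (n : ℕ) : (latData M).pj n = pjn M n := rfl

/-- the Hecke operator on components -/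
theorem pjn_parHecke {l : ℕ} [NeZero l] (hl : l.Prime) (hlM : ¬ l ∣ M) (n : ℕ) (φ : Lm M) :
    pjn M n (parHecke ℤ_[2] ℤ_[2] hl hlM φ) =
      heckeOperatorAlong (AlgebraicClosure ℚ) M l (pjn M n φ) := by
  have h : Tate.pr (comparisonJ M 2) _ (comparisonJ_mem_iff M 2) n
      (parHecke ℤ_[2] ℤ_[2] hl hlM φ) =
      ⟨heckeOperatorBar M ⟨l, hl⟩ (pjn M n φ), map_mem_tor 2
        ((heckeOperatorBar M ⟨l, hl⟩ : Module.End ℤ (JZero M)).toAddMonoidHom)
        (Tate.pr (comparisonJ M 2) _ (comparisonJ_mem_iff M 2) n φ).2⟩ := by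
    refine (pr_eq_iff _ _ (comparisonJ_mem_iff M 2) n _ _).mpr ?_
    rw [comparisonJ_hecke M 2 hl hlM n (Tate.pr (comparisonJ M 2) _ (comparisonJ_mem_iff M 2) n φ)
      _ rfl]
    have h1 := e_pr (comparisonJ M 2) _ (comparisonJ_mem_iff M 2) n φ
    rw [h1]
    exact heckeHom_comp hl hlM ((PadicInt.toZModPow n : ℤ_[2] →+* ZMod (2 ^ n)) :
      ℤ_[2] →+ ZMod (2 ^ n)) _
  exact congrArg Subtype.val h

/-- an involution on the Tate module given by an Atkin-Lehner involution -/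
def IsW {d : ℕ} (h : ExDiv d M) (w : Lm M →+ Lm M) : Prop :=
  ∀ n φ, pjn M n (w φ) = wS iotaQbar h • pjn M n φ

section W

variable {d : ℕ} {h : ExDiv d M} {w : Lm M →+ Lm M} (hw : IsW h w)

/-- the Atkin-Lehner involution on `J` -/
def wJ (h : ExDiv d M) : JZero M →+ JZero M :=
  DistribSMul.toAddMonoidHom (Pic0 (AlgebraicClosure ℚ) (FF (AlgebraicClosure ℚ) M))
    (wS iotaQbar h)

theorem wJ_apply (x : JZero M) : wJ h x = wS iotaQbar h • x := rfl

theorem wJ_wJ (x : JZero M) : wJ h (wJ h x) = x := by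
  have hchar : CharZero (AlgebraicClosure ℚ) := inferInstance
  exact sl_sl_pic _ (wF_wF iotaQbar h) x

include hw

theorem IsW.invol (φ : Lm M) : w (w φ) = φ := by
  apply ext_pjn
  intro n
  rw [hw, hw]
  exact wJ_wJ (pjn M n φ)

theorem IsW.hecke {l : ℕ} (hl : l.Prime) (hlM : ¬ l ∣ M) (φ : Lm M) :
    w (parHecke ℤ_[2] ℤ_[2] hl hlM φ) = parHecke ℤ_[2] ℤ_[2] hl hlM (w φ) := by
  have : NeZero l := ⟨hl.ne_zero⟩
  have hcop : Nat.Coprime d l := ((Nat.Prime.coprime_iff_not_dvd hl).2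
    fun hdl => hlM (hdl.trans h.dvd)).symm
  apply ext_pjn
  intro n
  rw [hw, pjn_parHecke, pjn_parHecke, hw]
  exact (hecke_wS iotaQbar h hcop (pjn M n φ)).symm

/-- (P) invariants are mapped to norms by two Hecke operators -/
theorem IsW.exists_add (hd : d ≠ 1) {l l' : ℕ} (hl : l.Prime) (hl2 : l ≠ 2) (hlM : ¬ l ∣ M)
    (hl' : l'.Prime) (hl2' : l' ≠ 2) (hlM' : ¬ l' ∣ M) {φ : Lm M} (hφ : w φ = φ) :
    ∃ χ, parHecke ℤ_[2] ℤ_[2] hl' hlM' (parHecke ℤ_[2] ℤ_[2] hl hlM φ) = χ + w χ := by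
  have : NeZero l := ⟨hl.ne_zero⟩
  have : NeZero l' := ⟨hl'.ne_zero⟩
  refine (latData M).exists_add (wJ := wJ h)
    (TJ := (heckeOperatorAlong (AlgebraicClosure ℚ) M l').comp
      (heckeOperatorAlong (AlgebraicClosure ℚ) M l)) (w := w)
    (T := ((parHecke ℤ_[2] ℤ_[2] hl' hlM').toAddMonoidHom).comp
      ((parHecke ℤ_[2] ℤ_[2] hl hlM).toAddMonoidHom)) wJ_wJ hw.invol hw ?_ ?_ hφ ?_
  · intro n ψ
    rw [latData_pj]
    exact (pjn_parHecke hl' hlM' n _).trans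
      (congrArg (heckeOperatorAlong (AlgebraicClosure ℚ) M l') (pjn_parHecke hl hlM n ψ))
  · intro x hx
    exact exists_sub_of_add_eq_zero iotaQbar h hd hl hl2 hlM hl' hl2' hlM' hx
  · show w (parHecke ℤ_[2] ℤ_[2] hl' hlM' (parHecke ℤ_[2] ℤ_[2] hl hlM φ)) = _
    rw [hw.hecke, hw.hecke, hφ]
    rfl

/-- (Z) anti-invariants are mapped to `(1 - w)Λ` if there are no fixed places -/
theorem IsW.exists_sub (hd : d ≠ 1) {l : ℕ} [NeZero l] (hl : l.Prime) (hlM : ¬ l ∣ M)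
    (hcop : Nat.Coprime d l)
    (hfix : ∀ R : Place (AlgebraicClosure ℚ) (FF (AlgebraicClosure ℚ) (M * l)),
      wS iotaQbar (h.mul hcop) • R ≠ R) {φ : Lm M} (hφ : w φ = -φ) :
    ∃ χ, parHecke ℤ_[2] ℤ_[2] hl hlM φ = χ - w χ := by
  refine (latData M).exists_sub (wJ := wJ h)
    (TJ := heckeOperatorAlong (AlgebraicClosure ℚ) M l) (w := w)
    (T := (parHecke ℤ_[2] ℤ_[2] hl hlM).toAddMonoidHom) wJ_wJ hw.invol hw ?_ ?_ hφ ?_
  · intro n ψ
    exact pjn_parHecke hl hlM n _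
  · intro x hx
    exact exists_add_of_eq iotaQbar h hd hcop hfix hx
  · show w (parHecke ℤ_[2] ℤ_[2] hl hlM φ) = _
    rw [hw.hecke, hφ, map_neg]
    rfl

/-- (Z') the same without Hecke operators -/
theorem IsW.exists_sub' (hd : d ≠ 1)
    (hfix : ∀ R : Place (AlgebraicClosure ℚ) (FF (AlgebraicClosure ℚ) M),
      wS iotaQbar h • R ≠ R) {φ : Lm M} (hφ : w φ = -φ) :
    ∃ χ, φ = χ - w χ := by
  refine (latData M).exists_sub (wJ := wJ h) (TJ := AddMonoidHom.id _) (w := w)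
    (T := AddMonoidHom.id _) wJ_wJ hw.invol hw (fun n ψ => rfl) ?_ hφ hφ
  intro x hx
  exact exists_add_of_eq' iotaQbar h hd hfix hx

end W

end Fermat.Agent.ZAL
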