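import Fermat.Agent.ZAL.Tat
import Fermat.Agent.ZAL.FixPt
import Fermat.Agent.ZAL.CMPts

/-!
# Parities of invariant divisor classes at the fixed places of the Fricke involution
-/

set_option autoImplicit false
set_option linter.unusedSectionVars false
set_option linter.style.haveILetI false

noncomputable section

open ModularCurve AlgebraicCurve CongruenceSubgroup ModularCurve.Period
open scoped MatrixGroups

namespace Fermat.Agent.ZAL

open Fermat.Agent.X0Places Fermat.Agent.FunField Fermat.Agent.FunField.PlaceLemmas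
open Fermat.Agent.TorsCmp Fermat.Agent.HeckeRed Fermat.Agent.GalJ Fermat.Agent.Degen
open AlgebraicCurve.SemilinearAut
open Fermat.Agent.HeckeHom Fermat.Agent.Tate

local notation "Qb" => AlgebraicClosure ℚ

variable {N : ℕ} [NeZero N] {G : Type*} (pt : G → Place Qb (FF Qb N))

/-- parities of a divisor at the given places -/
def par (D : Divisor Qb (FF Qb N)) : G → ZMod 2 := fun c => ((D (pt c) : ℤ) : ZMod 2)

theorem par_zero : par pt 0 = 0 := by
  ext c
  simp [par]

theorem par_add (D E : Divisor Qb (FF Qb N)) : par pt (D + E) = par pt D + par pt E := by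
  ext c
  simp [par]

theorem par_sub (D E : Divisor Qb (FF Qb N)) : par pt (D - E) = par pt D - par pt E := by
  ext c
  simp [par]

/-- The Fricke involution. -/
abbrev frk (N : ℕ) [NeZero N] : SemilinearAut Qb (FF Qb N) := wS iotaQbar (exDiv_self N)

/-- parities of an invariant class -/
def IsTh (x : JZero N) (F : G → ZMod 2) : Prop :=
  ∃ D : Divisor.degZero (K := Qb) (F := FF Qb N), Pic0.mk D = x ∧
    frk N • (D : Divisor Qb (FF Qb N)) = (D : Divisor Qb (FF Qb N)) ∧
    F = par pt (D : Divisor Qb (FF Qb N))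

variable {pt}

theorem frk_frk_div (D : Divisor Qb (FF Qb N)) : frk N • frk N • D = D := by
  have hchar : CharZero Qb := inferInstance
  exact sl_sl_div _ (wF_wF iotaQbar (exDiv_self N)) D

theorem frk_div_apply (D : Divisor Qb (FF Qb N)) (v : Place Qb (FF Qb N)) :
    (frk N • D) v = D (frk N • v) := by
  have hchar : CharZero Qb := inferInstance
  exact sl_div_apply _ (wF_wF iotaQbar (exDiv_self N)) D v

variable (hpt : ∀ v, frk N • v = v ↔ ∃ c, pt c = v)

theorem IsTh.zero : IsTh pt (0 : JZero N) 0 :=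
  ⟨0, rfl, smul_zero _, (par_zero pt).symm⟩

theorem IsTh.add {x x' : JZero N} {F F' : G → ZMod 2} (h : IsTh pt x F) (h' : IsTh pt x' F') :
    IsTh pt (x + x') (F + F') := by
  obtain ⟨D, rfl, h2, rfl⟩ := h
  obtain ⟨D', rfl, h2', rfl⟩ := h'
  refine ⟨D + D', rfl, ?_, ?_⟩
  · show frk N • ((D : Divisor Qb (FF Qb N)) + D') = (D : Divisor Qb (FF Qb N)) + D'
    rw [smul_add, h2, h2']
  · exact (par_add pt _ _).symm

include hpt in
theorem par_add_smul (E : Divisor Qb (FF Qb N)) : par pt (E + frk N • E) = 0 := by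
  ext c
  have h1 : frk N • pt c = pt c := (hpt _).2 ⟨c, rfl⟩
  show (((E + frk N • E) (pt c) : ℤ) : ZMod 2) = 0
  rw [Finsupp.add_apply, frk_div_apply, h1, Int.cast_add]
  exact CharTwo.add_self_eq_zero _

include hpt in
theorem IsTh.norm (y : JZero N) : IsTh pt (y + frk N • y) 0 := by
  obtain ⟨E, rfl⟩ := Pic0.mk_surjective y
  refine ⟨E + degZeroSMulHom (frk N) E, ?_, ?_, ?_⟩
  · rw [pic0_smul_mk]
    rfl
  · show frk N • ((E : Divisor Qb (FF Qb N)) + frk N • (E : Divisor Qb (FF Qb N))) =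
      (E : Divisor Qb (FF Qb N)) + frk N • (E : Divisor Qb (FF Qb N))
    rw [smul_add, frk_frk_div, add_comm]
  · exact (par_add_smul hpt _).symm

/-- parities are unique up to constants -/
theorem IsTh.unique (hN : N ≠ 1) (hpt : ∀ v, frk N • v = v ↔ ∃ c, pt c = v)
    {x : JZero N} {F F' : G → ZMod 2} (h : IsTh pt x F) (h' : IsTh pt x F') :
    F = F' ∨ F = F' + 1 := by
  obtain ⟨D, h1, h2, rfl⟩ := h
  obtain ⟨D', h1', h2', rfl⟩ := h'
  have hchar : CharZero Qb := inferInstance
  rcases parity_of_class _ (wF_wF iotaQbar (exDiv_self N)) (wF_ne iotaQbar (exDiv_self N) hN) h2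
    h2' (h1.trans h1'.symm) with h | h
  · left
    ext c
    have h3 := h (pt c) ((hpt _).2 ⟨c, rfl⟩)
    have h4 : ((((D : Divisor Qb (FF Qb N)) (pt c) - (D' : Divisor Qb (FF Qb N)) (pt c) : ℤ)) :
        ZMod 2) = 0 := by
      rw [ZMod.intCast_zmod_eq_zero_iff_dvd]
      exact even_iff_two_dvd.1 h3
    rw [Int.cast_sub, sub_eq_zero] at h4
    exact h4
  · right
    ext c
    have h3 := h (pt c) ((hpt _).2 ⟨c, rfl⟩)
    obtain ⟨k, hk⟩ := h3
    have h4 : ((((D : Divisor Qb (FF Qb N)) (pt c) - (D' : Divisor Qb (FF Qb N)) (pt c) : ℤ)) :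
        ZMod 2) = 1 := by
      rw [hk]
      push_cast
      have : (2 : ZMod 2) = 0 := rfl
      rw [this, zero_mul, zero_add]
    rw [Int.cast_sub, sub_eq_iff_eq_add'] at h4
    exact h4

theorem IsTh.exists (hN : N ≠ 1) {x : JZero N} (hx : frk N • x = x) : ∃ F, IsTh pt x F := by
  have hchar : CharZero Qb := inferInstance
  obtain ⟨D, h1, h2⟩ := exists_invariant_div _ (wF_wF iotaQbar (exDiv_self N))
    (wF_ne iotaQbar (exDiv_self N) hN) hx
  exact ⟨_, D, h1, h2, rfl⟩

/-- Hecke operators -/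
theorem IsTh.hecke {l : ℕ} [NeZero l] (hcop : Nat.Coprime N l)
    {τ : (G → ZMod 2) → (G → ZMod 2)} (hτ : ∀ D : Divisor Qb (FF Qb N), frk N • D = D →
      par pt (TD Qb N l D) = τ (par pt D)) {x : JZero N} {F : G → ZMod 2} (h : IsTh pt x F) :
    IsTh pt (heckeOperatorAlong Qb N l x) (τ F) := by
  obtain ⟨D, rfl, h2, rfl⟩ := h
  obtain ⟨D', hD', e'⟩ := coe_TD (ℓ := l) D
  refine ⟨D', e'.symm, ?_, ?_⟩
  · rw [hD']
    have h3 := TD_smul iotaQbar (exDiv_self N) hcop (D : Divisor Qb (FF Qb N))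
    have h4 : TD Qb N l (frk N • (D : Divisor Qb (FF Qb N))) =
      frk N • TD Qb N l (D : Divisor Qb (FF Qb N)) := h3
    rw [← h4, h2]
  · rw [hD', hτ _ h2]

variable [Fintype G]

include hpt in
/-- all parities of sum zero occur -/
theorem IsTh.surj (hinj : Function.Injective pt) (F : G → ZMod 2) (hF : ∑ c, F c = 0) :
    ∃ x : JZero N, frk N • x = x ∧ IsTh pt x F := by
  classical
  have hfix : ∀ c, frk N • pt c = pt c := fun c => (hpt _).2 ⟨c, rfl⟩
  set D₀ : Divisor Qb (FF Qb N) := ∑ c, Finsupp.single (pt c) ((F c).val : ℤ) with hD₀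
  have hD₀v : ∀ c, D₀ (pt c) = (F c).val := by
    intro c
    rw [hD₀, Finsupp.coe_finsetSum, Finset.sum_apply, Finset.sum_eq_single c]
    · rw [Finsupp.single_eq_same]
    · intro c' _ hc'
      rw [Finsupp.single_eq_of_ne]
      exact fun h => hc' (hinj h).symm
    · intro h; exact absurd (Finset.mem_univ c) h
  have hwD₀ : frk N • D₀ = D₀ := by
    rw [hD₀, Finset.smul_sum]
    refine Finset.sum_congr rfl fun c _ => ?_
    rw [SemilinearAut.smul_single, hfix]
  have hdeg : Divisor.degree D₀ = ∑ c, ((F c).val : ℤ) := by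
    rw [hD₀, map_sum]
    refine Finset.sum_congr rfl fun c _ => ?_
    rw [Divisor.degree_single, Place.deg_eq_one_of_isAlgClosed_of_finite]
    simp
  obtain ⟨m, hm⟩ : ∃ m : ℤ, Divisor.degree D₀ = 2 * m := by
    have h1 : (((∑ c, ((F c).val : ℤ) : ℤ)) : ZMod 2) = 0 := by
      rw [Int.cast_sum]
      rw [← hF]
      refine Finset.sum_congr rfl fun c _ => ?_
      rw [Int.cast_natCast, ZMod.natCast_val, ZMod.cast_id', id]
    rw [ZMod.intCast_zmod_eq_zero_iff_dvd, ← hdeg] at h1
    exact h1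
  obtain ⟨P⟩ : Nonempty (Place Qb (FF Qb N)) := exists_place
  have hPdeg : Divisor.degree (Finsupp.single P m : Divisor Qb (FF Qb N)) = m := by
    rw [Divisor.degree_single, Place.deg_eq_one_of_isAlgClosed_of_finite]
    simp
  set E : Divisor Qb (FF Qb N) := Finsupp.single P m with hE
  set D : Divisor Qb (FF Qb N) := D₀ - (E + frk N • E) with hD
  have hdegD : D ∈ Divisor.degZero (K := Qb) (F := FF Qb N) := by
    rw [Divisor.mem_degZero, hD, map_sub, map_add, SemilinearAut.degree_smul, hPdeg, hm]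
    ring
  have hwD : frk N • D = D := by
    rw [hD, smul_sub, hwD₀, smul_add, frk_frk_div, add_comm (frk N • E)]
  have hparD : par pt D = F := by
    rw [hD, par_sub, par_add_smul hpt, sub_zero]
    ext c
    show ((D₀ (pt c) : ℤ) : ZMod 2) = F c
    rw [hD₀v, Int.cast_natCast, ZMod.natCast_val, ZMod.cast_id', id]
  refine ⟨Pic0.mk ⟨D, hdegD⟩, ?_, ⟨D, hdegD⟩, rfl, hwD, hparD.symm⟩
  rw [pic0_smul_mk]
  exact congrArg Pic0.mk (Subtype.ext hwD)

end Fermat.Agent.ZAL
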