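import Fermat.Agent.TorsCmp.Final

/-!
# Atkin-Lehner involutions `w_d` on the function field of `X₀(M)`
-/

set_option autoImplicit false
set_option linter.unusedSectionVars false
set_option linter.style.haveILetI false

noncomputable section

open UpperHalfPlane Function ModularCurve Filter ModularForm AlgebraicCurve WithZero
  CongruenceSubgroup
open scoped Manifold MatrixGroups Topology ModularForm

namespace Fermat.Agent.ZAL

open Fermat.Agent.X0Places Fermat.Agent.FunField Fermat.Agent.FunField.PlaceLemmas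
open Fermat.Agent.TorsCmp
open Matrix.SpecialLinearGroup (mapGL)

/-! ### integral matrices acting on the upper half plane -/

theorem det_mapInt (A : Matrix (Fin 2) (Fin 2) ℤ) :
    (A.map (Int.castRingHom ℝ)).det = (A.det : ℤ) := by
  have h := (Int.castRingHom ℝ).map_det A
  rw [RingHom.mapMatrix_apply] at h
  exact h.symm

/-- an integral matrix of nonzero determinant as an element of `GL₂(ℝ)` -/
def glZ (A : Matrix (Fin 2) (Fin 2) ℤ) (h : 0 < A.det) : GL (Fin 2) ℝ :=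
  Matrix.GeneralLinearGroup.mkOfDetNeZero (A.map (Int.castRingHom ℝ)) (by
    rw [det_mapInt]
    exact_mod_cast h.ne')

theorem glZ_val (A : Matrix (Fin 2) (Fin 2) ℤ) (h : 0 < A.det) :
    (glZ A h).val = A.map (Int.castRingHom ℝ) := rfl

theorem glZ_apply (A : Matrix (Fin 2) (Fin 2) ℤ) (h : 0 < A.det) (i j : Fin 2) :
    (glZ A h).val i j = A i j := rfl

theorem glZ_det (A : Matrix (Fin 2) (Fin 2) ℤ) (h : 0 < A.det) :
    ((glZ A h).det : ℝ) = (A.det : ℤ) := by
  rw [Matrix.GeneralLinearGroup.val_det_apply, glZ_val, det_mapInt]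

theorem glZ_det_pos (A : Matrix (Fin 2) (Fin 2) ℤ) (h : 0 < A.det) :
    0 < ((glZ A h).det : ℝ) := by
  rw [glZ_det]
  exact_mod_cast h

theorem det_mul_pos {A B : Matrix (Fin 2) (Fin 2) ℤ} (hA : 0 < A.det) (hB : 0 < B.det) :
    0 < (A * B).det := by
  rw [Matrix.det_mul]
  exact mul_pos hA hB

theorem glZ_mul (A B : Matrix (Fin 2) (Fin 2) ℤ) (hA : 0 < A.det) (hB : 0 < B.det) :
    glZ A hA * glZ B hB = glZ (A * B) (det_mul_pos hA hB) := by
  apply Units.ext
  rw [Units.val_mul, glZ_val, glZ_val, glZ_val, Matrix.map_mul]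

theorem det_SL_pos (γ : SL(2, ℤ)) : 0 < (γ : Matrix (Fin 2) (Fin 2) ℤ).det := by
  rw [γ.det_coe]
  exact one_pos

theorem mapGL_eq (γ : SL(2, ℤ)) : mapGL ℝ γ = glZ γ (det_SL_pos γ) := by
  apply Units.ext
  ext i j
  simp [glZ_apply]

theorem glZ_congr {A B : Matrix (Fin 2) (Fin 2) ℤ} (h : A = B) (hA : 0 < A.det)
    (hB : 0 < B.det) : glZ A hA = glZ B hB := by
  subst h
  rfl

theorem diag_det_pos {ℓ : ℕ} (hℓ : ℓ ≠ 0) : 0 < (!![(ℓ : ℤ), 0; 0, 1] : Matrix (Fin 2) (Fin 2) ℤ).det := by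
  rw [Matrix.det_fin_two_of]
  have : 0 < ℓ := Nat.pos_of_ne_zero hℓ
  push_cast
  omega

theorem heckeDiag_eq {ℓ : ℕ} (hℓ : ℓ ≠ 0) :
    heckeDiagMatrix ℓ = glZ !![(ℓ : ℤ), 0; 0, 1] (diag_det_pos hℓ) := by
  apply Units.ext
  rw [val_heckeDiagMatrix hℓ]
  ext i j
  fin_cases i <;> fin_cases j <;> simp [glZ_val]

theorem coe_glZ_smul (A : Matrix (Fin 2) (Fin 2) ℤ) (h : 0 < A.det) (τ : ℍ) :
    ((glZ A h • τ : ℍ) : ℂ) = ((A 0 0 : ℂ) * τ + A 0 1) / ((A 1 0 : ℂ) * τ + A 1 1) := by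
  rw [UpperHalfPlane.coe_smul_of_det_pos (glZ_det_pos A h)]
  simp [UpperHalfPlane.num, UpperHalfPlane.denom, glZ_apply]

theorem denom_glZ (A : Matrix (Fin 2) (Fin 2) ℤ) (h : 0 < A.det) (τ : ℍ) :
    (A 1 0 : ℂ) * τ + A 1 1 ≠ 0 := by
  have h1 := UpperHalfPlane.denom_ne_zero (glZ A h) τ
  simpa [UpperHalfPlane.denom, glZ_apply] using h1

/-- the action of an integral matrix does not depend on scaling -/
theorem glZ_smul_eq_of_smul {A B : Matrix (Fin 2) (Fin 2) ℤ} (hA : 0 < A.det) (hB : 0 < B.det)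
    {c : ℤ} (hc : c ≠ 0) (h : A = c • B) (τ : ℍ) : glZ A hA • τ = glZ B hB • τ := by
  apply UpperHalfPlane.ext
  rw [coe_glZ_smul, coe_glZ_smul]
  have h1 := denom_glZ B hB τ
  have hc' : (c : ℂ) ≠ 0 := by exact_mod_cast hc
  subst h
  simp only [Matrix.smul_apply, smul_eq_mul, Int.cast_mul]
  rw [show (c : ℂ) * (B 0 0 : ℂ) * τ + c * B 0 1 = c * (B 0 0 * τ + B 0 1) by ring,
    show (c : ℂ) * (B 1 0 : ℂ) * τ + c * B 1 1 = c * (B 1 0 * τ + B 1 1) by ring,
    mul_div_mul_left _ _ hc']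

/-- scaling does not change composition on meromorphic functions -/
theorem compG_eq_of_smul {g h : GL (Fin 2) ℝ} (hg : 0 < (g.det : ℝ)) (hh : 0 < (h.det : ℝ))
    (hs : ∀ τ : ℍ, g • τ = h • τ) : compG g = compG h := by
  apply IsFractionRing.ringHom_ext (A := Holo)
  intro f
  rw [compG_algebraMap _ hg, compG_algebraMap _ hh]
  congr 1
  apply Subtype.ext
  funext z
  rw [glHolo_apply, glHolo_apply, hs]

/-! ### the matrix `w_d` -/

/-- `d` is an exact divisor of `M` -/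
structure ExDiv (d M : ℕ) : Prop where
  dvd : d ∣ M
  cop : Nat.Coprime d (M / d)

namespace ExDiv

variable {d M : ℕ} (h : ExDiv d M)

include h

theorem exists_bez : ∃ b e : ℤ, (d : ℤ) * e - ((M / d : ℕ) : ℤ) * b = 1 := by
  have h1 := h.cop
  rw [← Nat.isCoprime_iff_coprime] at h1
  obtain ⟨x, y, hxy⟩ := h1
  exact ⟨-y, x, by linear_combination hxy⟩

theorem mul_div : d * (M / d) = M := Nat.mul_div_cancel' h.dvd

theorem mul_div' : ((M : ℕ) : ℤ) = (d : ℤ) * ((M / d : ℕ) : ℤ) := by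
  exact_mod_cast h.mul_div.symm

/-- the integral matrix `w_d = (d, b; M, d e)` -/
def mat : Matrix (Fin 2) (Fin 2) ℤ :=
  !![(d : ℤ), h.exists_bez.choose; (M : ℤ), d * h.exists_bez.choose_spec.choose]

theorem mat_det : h.mat.det = d := by
  have h1 := h.exists_bez.choose_spec.choose_spec
  rw [mat, Matrix.det_fin_two_of, h.mul_div']
  linear_combination (d : ℤ) * h1

end ExDiv

variable {d M : ℕ} [NeZero M]

theorem ExDiv.ne_zero (h : ExDiv d M) : d ≠ 0 := by
  rintro rfl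
  have := h.dvd
  rw [zero_dvd_iff] at this
  exact NeZero.ne M this

theorem ExDiv.det_pos (h : ExDiv d M) : 0 < h.mat.det := by
  rw [h.mat_det]
  have := h.ne_zero
  omega

/-- the matrix `w_d` in `GL₂(ℝ)` -/
def ExDiv.gl (h : ExDiv d M) : GL (Fin 2) ℝ := glZ h.mat h.det_pos

theorem ExDiv.gl_pos (h : ExDiv d M) : 0 < (h.gl.det : ℝ) := glZ_det_pos _ _

/-- `k ⋆ d`: symmetric difference of divisors -/
def star (k d : ℕ) : ℕ := (k / Nat.gcd k d) * (d / Nat.gcd k d)

theorem star_pos {k d : ℕ} (hk : 0 < k) (hd : 0 < d) : 0 < star k d := by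
  have h1 : 0 < Nat.gcd k d := Nat.gcd_pos_of_pos_left _ hk
  exact Nat.mul_pos (Nat.div_pos (Nat.le_of_dvd hk (Nat.gcd_dvd_left _ _)) h1)
    (Nat.div_pos (Nat.le_of_dvd hd (Nat.gcd_dvd_right _ _)) h1)

/-- decomposition of a divisor of `M = d m` -/
theorem ExDiv.decomp (h : ExDiv d M) {k : ℕ} (hk : k ∣ M) :
    ∃ g k' d' m' : ℕ, k = g * k' ∧ d = g * d' ∧ M / d = k' * m' ∧ Nat.gcd k d = g ∧
      star k d = k' * d' ∧ 0 < g ∧ 0 < k' ∧ 0 < d' ∧ 0 < m' := by
  have hd0 : d ≠ 0 := h.ne_zero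
  have hM0 : M ≠ 0 := NeZero.ne M
  have hk0 : k ≠ 0 := fun h0 => hM0 (Nat.eq_zero_of_zero_dvd (h0 ▸ hk))
  set g := Nat.gcd k d with hg
  have hg0 : 0 < g := Nat.gcd_pos_of_pos_left _ (Nat.pos_of_ne_zero hk0)
  obtain ⟨k', hk'⟩ := Nat.gcd_dvd_left k d
  obtain ⟨d', hd'⟩ := Nat.gcd_dvd_right k d
  rw [← hg] at hk' hd'
  have hcop : Nat.Coprime k' d' := by
    have := Nat.coprime_div_gcd_div_gcd (m := k) (n := d) (by rw [← hg]; exact hg0)
    rw [← hg] at this
    have e1 : k / g = k' := by conv_lhs => rw [hk']; exact Nat.mul_div_cancel_left _ hg0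
    have e2 : d / g = d' := by conv_lhs => rw [hd']; exact Nat.mul_div_cancel_left _ hg0
    rwa [e1, e2] at this
  have h1 : k' ∣ M / d := by
    have h2 : g * k' ∣ g * (d' * (M / d)) := by
      rw [← mul_assoc, ← hd', ← hk', h.mul_div]
      exact hk
    have h3 : k' ∣ d' * (M / d) := Nat.dvd_of_mul_dvd_mul_left hg0 h2
    exact hcop.dvd_of_dvd_mul_left h3
  obtain ⟨m', hm'⟩ := h1
  have hMd : 0 < M / d := Nat.div_pos (Nat.le_of_dvd (Nat.pos_of_ne_zero hM0) h.dvd)
    (Nat.pos_of_ne_zero hd0)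
  refine ⟨g, k', d', m', hk', hd', hm', rfl, ?_, hg0, ?_, ?_, ?_⟩
  · rw [star, ← hg]
    congr 1
    · conv_lhs => rw [hk']
      exact Nat.mul_div_cancel_left _ hg0
    · conv_lhs => rw [hd']
      exact Nat.mul_div_cancel_left _ hg0
  · rcases Nat.eq_zero_or_pos k' with h0 | h0
    · rw [h0, mul_zero] at hk'; omega
    · exact h0
  · rcases Nat.eq_zero_or_pos d' with h0 | h0
    · rw [h0, mul_zero] at hd'; omega
    · exact h0
  · rcases Nat.eq_zero_or_pos m' with h0 | h0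
    · rw [h0, mul_zero] at hm'; omega
    · exact h0

theorem ExDiv.star_dvd (h : ExDiv d M) {k : ℕ} (hk : k ∣ M) : star k d ∣ M := by
  obtain ⟨g, k', d', m', h1, h2, h3, h4, h5, -⟩ := h.decomp hk
  rw [h5]
  refine ⟨g * m', ?_⟩
  rw [← h.mul_div, h3]
  conv_lhs => rw [h2]
  ring

/-- `j(k · w_d τ) = j((k ⋆ d) τ)` -/
theorem ExDiv.jd_star (h : ExDiv d M) {k : ℕ} (hk : k ∣ M) (hk0 : 0 < k)
    (hs : 0 < star k d) (τ : ℍ) : jd k hk0 (h.gl • τ) = jd (star k d) hs τ := by
  obtain ⟨g, k', d', m', h1, h2, h3, h4, h5, hg, hk', hd', hm'⟩ := h.decomp hk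
  set b := h.exists_bez.choose with hb
  set e := h.exists_bez.choose_spec.choose with he
  have hbez : (d : ℤ) * e - ((M / d : ℕ) : ℤ) * b = 1 := h.exists_bez.choose_spec.choose_spec
  have hbez' : (g : ℤ) * d' * e - (k' : ℤ) * m' * b = 1 := by
    have e1 : (d : ℤ) = g * d' := by exact_mod_cast h2
    have e2 : ((M / d : ℕ) : ℤ) = k' * m' := by exact_mod_cast h3
    rw [e1, e2] at hbez
    exact hbez
  have key : scaleH k hk0 (h.gl • τ) =
      mkSL (g : ℤ) (k' * b) m' (d' * e) (by linear_combination hbez') •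
        scaleH (star k d) hs τ := by
    apply UpperHalfPlane.ext
    rw [coe_scaleH, coe_SL_smul, coe_scaleH, ExDiv.gl, coe_glZ_smul]
    simp only [mkSL_00, mkSL_01, mkSL_10, mkSL_11]
    have hden := denom_glZ h.mat h.det_pos τ
    have e00 : h.mat 0 0 = (d : ℤ) := rfl
    have e01 : h.mat 0 1 = b := rfl
    have e10 : h.mat 1 0 = (M : ℤ) := rfl
    have e11 : h.mat 1 1 = d * e := rfl
    rw [e10, e11] at hden
    rw [e00, e01, e10, e11, h5]
    have f1 : (k : ℂ) = g * k' := by exact_mod_cast h1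
    have f2 : (d : ℂ) = g * d' := by exact_mod_cast h2
    have f3 : ((M : ℕ) : ℂ) = g * d' * (k' * m') := by
      have : M = g * d' * (k' * m') := by rw [← h2, ← h3, h.mul_div]
      exact_mod_cast this
    have hg' : (g : ℂ) ≠ 0 := by exact_mod_cast hg.ne'
    push_cast at hden ⊢
    rw [f2, f3] at hden
    rw [f1, f2, f3]
    have hden2 : (m' : ℂ) * (k' * d' * τ) + d' * e ≠ 0 := by
      intro h0
      apply hden
      linear_combination (g : ℂ) * h0
    field_simp
  rw [jd, key, Fermat.Agent.JInv.jInv_smul]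
  rfl

/-! ### the automorphism `w_d` -/

variable {L : Type*} [Field L] [Algebra ℚ L]

omit [NeZero M] in
/-- a subfield containing the constants and the `j(kτ)` is everything -/
theorem ff_mem_of_gen (S : Subfield (FF L M)) (hc : ∀ c : L, algebraMap L (FF L M) c ∈ S)
    (hj : ∀ (k : ℕ) [NeZero k] (hk : k ∣ M), jdF L M k hk ∈ S) (x : FF L M) : x ∈ S := by
  have hle : Subfield.closure
      (Set.range (algebraMap L (LaurentSeries L)) ∪ coeffEmb L '' divisorExpansions M) ≤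
      (S.map (FF L M).toSubfield.subtype) := by
    rw [Subfield.closure_le]
    rintro _ (⟨c, rfl⟩ | ⟨_, ⟨k, hk, hkM, rfl⟩, rfl⟩)
    · exact ⟨algebraMap L (FF L M) c, hc c, rfl⟩
    · exact ⟨jdF L M k hkM, hj k hkM, rfl⟩
  obtain ⟨y, hy, hyx⟩ := hle (FF_le_closure L M x.2)
  have h2 : x = y := Subtype.ext hyx.symm
  rw [h2]
  exact hy

theorem jdF_congr {k k' : ℕ} [NeZero k] [NeZero k'] (h : k = k') (hk : k ∣ M) (hk' : k' ∣ M) :
    jdF L M k hk = jdF L M k' hk' := by
  subst h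
  rfl

variable (ι : L →+* ℂ)

theorem compG_toMer_jdF (h : ExDiv d M) (k : ℕ) [NeZero k] (hk : k ∣ M) [NeZero (star k d)] :
    compG h.gl (toMer ι M (jdF L M k hk)) =
      toMer ι M (jdF L M (star k d) (h.star_dvd hk)) := by
  rw [toMer_jdF, toMer_jdF]
  refine (compG_algebraMap h.gl h.gl_pos _).trans ?_
  refine congrArg (algebraMap Holo Mer) (Subtype.ext ?_)
  funext τ
  exact h.jd_star hk _ _ τ

theorem compG_mem_range (h : ExDiv d M) (x : FF L M) :
    compG h.gl (toMer ι M x) ∈ (toMer ι M).fieldRange := by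
  have h1 := ff_mem_of_gen (L := L) (M := M)
    ((toMer ι M).fieldRange.comap ((compG h.gl).comp (toMer ι M))) (fun c => ?_)
    (fun k _ hk => ?_) x
  · exact h1
  · rw [Subfield.mem_comap, RingHom.comp_apply, toMer_algebraMap]
    refine ⟨algebraMap L (FF L M) c, ?_⟩
    rw [toMer_algebraMap]
    exact (compG_cM _ _).symm
  · rw [Subfield.mem_comap, RingHom.comp_apply]
    have : NeZero (star k d) := ⟨(star_pos (Nat.pos_of_ne_zero (NeZero.ne k))
      (Nat.pos_of_ne_zero h.ne_zero)).ne'⟩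
    rw [compG_toMer_jdF]
    exact ⟨_, rfl⟩

/-- the ring endomorphism `w_d` -/
def wHom (h : ExDiv d M) : FF L M →+* FF L M :=
  ((RingEquiv.ofLeftInverse (f := toMer ι M)
    (Function.leftInverse_invFun (toMer ι M).injective)).symm : _ →+* FF L M).comp
    (((compG h.gl).comp (toMer ι M)).codRestrict (toMer ι M).range (fun x => by
      obtain ⟨y, hy⟩ := compG_mem_range ι h x
      exact ⟨y, hy⟩))

theorem toMer_wHom (h : ExDiv d M) (x : FF L M) :
    toMer ι M (wHom ι h x) = compG h.gl (toMer ι M x) := by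
  have h1 := (RingEquiv.ofLeftInverse (f := toMer ι M)
    (Function.leftInverse_invFun (toMer ι M).injective)).apply_symm_apply
    ((((compG h.gl).comp (toMer ι M)).codRestrict (toMer ι M).range (fun x => by
      obtain ⟨y, hy⟩ := compG_mem_range ι h x
      exact ⟨y, hy⟩)) x)
  exact congrArg Subtype.val h1

theorem wHom_algebraMap (h : ExDiv d M) (c : L) :
    wHom ι h (algebraMap L (FF L M) c) = algebraMap L (FF L M) c := by
  apply (toMer ι M).injective
  rw [toMer_wHom, toMer_algebraMap]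
  exact compG_cM _ _

theorem wHom_jdF (h : ExDiv d M) (k : ℕ) [NeZero k] (hk : k ∣ M) [NeZero (star k d)] :
    wHom ι h (jdF L M k hk) = jdF L M (star k d) (h.star_dvd hk) := by
  apply (toMer ι M).injective
  rw [toMer_wHom, compG_toMer_jdF]

theorem star_star (h : ExDiv d M) {k : ℕ} (hk : k ∣ M) : star (star k d) d = k := by
  obtain ⟨g, k', d', m', h1, h2, h3, h4, h5, hg, hk', hd', hm'⟩ := h.decomp hk
  have hcop := h.cop
  rw [h3, h2] at hcop
  have hk'd : Nat.Coprime k' g :=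
    (Nat.Coprime.coprime_dvd_left (Dvd.intro _ rfl)
      (Nat.Coprime.coprime_dvd_right (Dvd.intro _ rfl) hcop)).symm
  have h6 : Nat.gcd (k' * d') (g * d') = d' := by
    rw [Nat.gcd_mul_right, hk'd, one_mul]
  rw [h5]
  conv_lhs => rw [h2]
  rw [star, h6, Nat.mul_div_cancel _ hd', Nat.mul_div_cancel _ hd', h1, mul_comm]

theorem wHom_wHom (h : ExDiv d M) (x : FF L M) : wHom ι h (wHom ι h x) = x := by
  have h1 : (wHom ι h).comp (wHom ι h) = RingHom.id (FF L M) := by
    apply ff_ringHom_ext_gen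
    · intro c
      rw [RingHom.comp_apply, wHom_algebraMap, wHom_algebraMap, RingHom.id_apply]
    · intro k _ hk
      have h2 : NeZero (star k d) := ⟨(star_pos (Nat.pos_of_ne_zero (NeZero.ne k))
        (Nat.pos_of_ne_zero h.ne_zero)).ne'⟩
      have h3 : NeZero (star (star k d) d) := ⟨(star_pos (Nat.pos_of_ne_zero h2.out)
        (Nat.pos_of_ne_zero h.ne_zero)).ne'⟩
      rw [RingHom.comp_apply, wHom_jdF, wHom_jdF, RingHom.id_apply]
      exact jdF_congr (star_star h hk) _ _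
  exact RingHom.congr_fun h1 x

/-- **The Atkin-Lehner involution `w_d`** -/
def wF (h : ExDiv d M) : FF L M ≃ₐ[L] FF L M :=
  AlgEquiv.ofBijective ({ wHom ι h with commutes' := wHom_algebraMap ι h } : FF L M →ₐ[L] FF L M)
    ⟨RingHom.injective _, fun x => ⟨wHom ι h x, wHom_wHom ι h x⟩⟩

theorem wF_apply (h : ExDiv d M) (x : FF L M) : wF ι h x = wHom ι h x := rfl

theorem toMer_wF (h : ExDiv d M) (x : FF L M) :
    toMer ι M (wF ι h x) = compG h.gl (toMer ι M x) := toMer_wHom ι h x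

theorem wF_jdF (h : ExDiv d M) (k : ℕ) [NeZero k] (hk : k ∣ M) [NeZero (star k d)] :
    wF ι h (jdF L M k hk) = jdF L M (star k d) (h.star_dvd hk) := wHom_jdF ι h k hk

theorem wF_wF (h : ExDiv d M) (x : FF L M) : wF ι h (wF ι h x) = x := wHom_wHom ι h x

/-- maps out of the function field -/
theorem algEquiv_ext {φ ψ : FF L M →ₐ[L] FF L M}
    (hj : ∀ (k : ℕ) [NeZero k] (hk : k ∣ M), φ (jdF L M k hk) = ψ (jdF L M k hk))
    (x : FF L M) : φ x = ψ x := by
  have h1 : (φ : FF L M →+* FF L M) = ψ := by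
    apply ff_ringHom_ext_gen
    · intro c
      exact (φ.commutes c).trans (ψ.commutes c).symm
    · intro k _ hk
      exact hj k hk
  exact RingHom.congr_fun h1 x

/-- `w_d` does not depend on the embedding -/
theorem wF_eq (ι' : L →+* ℂ) (h : ExDiv d M) (x : FF L M) : wF ι h x = wF ι' h x := by
  apply algEquiv_ext (φ := (wF ι h : FF L M →ₐ[L] FF L M)) (ψ := (wF ι' h : FF L M →ₐ[L] FF L M))
  intro k _ hk
  have h2 : NeZero (star k d) := ⟨(star_pos (Nat.pos_of_ne_zero (NeZero.ne k))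
    (Nat.pos_of_ne_zero h.ne_zero)).ne'⟩
  exact (wF_jdF ι h k hk).trans (wF_jdF ι' h k hk).symm

end Fermat.Agent.ZAL
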